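import Mathlib
import Fermat.Prelude.Def_ModularCurve_IgusaScheme
import Fermat.Prelude.Def_ModularCurve_X0ModL

set_option autoImplicit false

/-! # S28 (Igusa): basic definitions -/

namespace Fermat.Agent.S28

open ModularCurve Polynomial

/-- `ℤ_(ℓ)` -/
abbrev Zl (ℓ : ℕ) : Type := ↥(GaloisRep.ratLocalizedAt ℓ)

theorem norm_le_one_of_mem {ℓ : ℕ} [Fact ℓ.Prime] (a : Zl ℓ) : ‖((a : ℚ) : ℚ_[ℓ])‖ ≤ 1 := by
  apply Padic.norm_rat_le_one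
  intro h
  have h1 : (a : ℚ).den.Coprime ℓ := a.2
  exact (Fact.out : ℓ.Prime).one_lt.ne' (Nat.dvd_one.mp (h1 ▸ Nat.dvd_gcd h dvd_rfl))

/-- `ℤ_(ℓ) → ℤ_ℓ` -/
noncomputable def toPadicInt (ℓ : ℕ) [Fact ℓ.Prime] : Zl ℓ →+* ℤ_[ℓ] :=
  ((Rat.castHom ℚ_[ℓ]).comp (GaloisRep.ratLocalizedAt ℓ).subtype).codRestrict (PadicInt.subring ℓ)
    (fun a => norm_le_one_of_mem a)

/-- reduction `ℤ_(ℓ) → 𝔽_ℓ` -/
noncomputable def red (ℓ : ℕ) [Fact ℓ.Prime] : Zl ℓ →+* ZMod ℓ :=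
  PadicInt.toZMod.comp (toPadicInt ℓ)

/-- the inclusion `ℤ_(ℓ) → ℚ` -/
def incl (ℓ : ℕ) : Zl ℓ →+* ℚ := (GaloisRep.ratLocalizedAt ℓ).subtype

/-- The output of the modular part. -/
structure IgusaData (N : ℕ) [NeZero N] (ℓ : ℕ) [Fact ℓ.Prime] where
  /-- the `q`-expansion of the modular unit -/
  u : LaurentSeries (Zl ℓ)
  /-- its minimal polynomial over `ℤ_(ℓ)[j]` -/
  Ψ : (Zl ℓ)[X][X]
  monic : Ψ.Monic
  root : Ψ.eval₂ (Polynomial.eval₂RingHom HahnSeries.C (jqModC (Zl ℓ))) u = 0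
  irr : Irreducible (Ψ.map ((algebraMap (ZMod ℓ)[X] (RatFunc (ZMod ℓ))).comp
    (Polynomial.mapRingHom (red ℓ))))
  gen : ∀ (d : ℕ) [NeZero d], d ∣ N →
    qExpand ℚ d jq ∈ IntermediateField.adjoin ℚ {jq, coeffMap (incl ℓ) u}

end Fermat.Agent.S28
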