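import Mathlib
import Fermat.Agent.S28.Defs

set_option autoImplicit false
set_option linter.unusedSectionVars false
set_option linter.unusedVariables false
set_option linter.style.haveILetI false

/-! # S28 (ALG3): `B ⊗ K` is a domain as soon as `B / ℓ` embeds in `𝔽_ℓ((q))` -/

namespace Fermat.Agent.S28

open ModularCurve TensorProduct

/-- ring homs out of `ℤ_(ℓ)` are unique -/
theorem Zl_ringHom_ext {ℓ : ℕ} {S : Type*} [CommRing S] (g₁ g₂ : Zl ℓ →+* S) : g₁ = g₂ := by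
  ext a
  have hden : ((a : ℚ).den : ℚ) ≠ 0 := by exact_mod_cast (a : ℚ).den_ne_zero
  -- the inverse of the denominator lies in `ℤ_(ℓ)`
  have hmem : ((a : ℚ).den : ℚ)⁻¹ ∈ GaloisRep.ratLocalizedAt ℓ := by
    show (((a : ℚ).den : ℚ)⁻¹).den.Coprime ℓ
    have h1 : (a : ℚ).den.Coprime ℓ := a.2
    have : (((a : ℚ).den : ℚ)⁻¹).den = (a : ℚ).den := by
      rw [Rat.inv_natCast_den_of_pos (a : ℚ).den_pos]
    rw [this]; exact h1
  set e : Zl ℓ := ⟨_, hmem⟩ with he
  have h1 : ((a : ℚ).den : Zl ℓ) * e = 1 := by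
    apply Subtype.ext
    simp [he, hden]
  have h2 : a * ((a : ℚ).den : Zl ℓ) = ((a : ℚ).num : Zl ℓ) := by
    apply Subtype.ext
    simp [Rat.mul_den_eq_num]
  have key : ∀ g : Zl ℓ →+* S, g a = ((a : ℚ).num : S) * g e := by
    intro g
    have := congrArg g h2
    rw [map_mul, map_natCast, map_intCast] at this
    rw [← this, mul_assoc, ← map_natCast g, ← map_mul, h1, map_one, mul_one]
  have hu : ∀ g : Zl ℓ →+* S, ((a : ℚ).den : S) * g e = 1 := by
    intro g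
    rw [← map_natCast g, ← map_mul, h1, map_one]
  have hee : g₁ e = g₂ e := by
    calc g₁ e = g₁ e * (((a : ℚ).den : S) * g₂ e) := by rw [hu, mul_one]
      _ = (((a : ℚ).den : S) * g₁ e) * g₂ e := by ring
      _ = g₂ e := by rw [hu, one_mul]
  rw [key g₁, key g₂, hee]


section

variable (ℓ : ℕ) [Fact ℓ.Prime] {B : Type} [CommRing B] [Algebra (Zl ℓ) B]
    (K : Type) [Field K] [CharP K ℓ] [Algebra (Zl ℓ) K]

/-- `B → 𝔽_ℓ((q)) → K((q))` as a `ℤ_(ℓ)`-algebra hom -/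
noncomputable def psiK (ψ : B →+* LaurentSeries (ZMod ℓ)) : B →ₐ[Zl ℓ] LaurentSeries K :=
  { (coeffMap (ZMod.castHom (dvd_refl ℓ) K)).comp ψ with
    commutes' := fun a => by
      have := Zl_ringHom_ext (((coeffMap (ZMod.castHom (dvd_refl ℓ) K)).comp ψ).comp
        (algebraMap (Zl ℓ) B)) (algebraMap (Zl ℓ) (LaurentSeries K))
      exact congrArg (fun g => g a) this }

theorem psiK_coeff (ψ : B →+* LaurentSeries (ZMod ℓ)) (b : B) (n : ℤ) :
    (psiK ℓ K ψ b).coeff n = ZMod.castHom (dvd_refl ℓ) K ((ψ b).coeff n) := rfl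

/-- `K → K((q))` as a `ℤ_(ℓ)`-algebra hom -/
noncomputable def constK : K →ₐ[Zl ℓ] LaurentSeries K :=
  { (algebraMap K (LaurentSeries K)) with
    commutes' := fun a => by
      have := Zl_ringHom_ext ((algebraMap K (LaurentSeries K)).comp
        (algebraMap (Zl ℓ) K)) (algebraMap (Zl ℓ) (LaurentSeries K))
      exact congrArg (fun g => g a) this }

theorem constK_apply (c : K) : constK ℓ K c = HahnSeries.single 0 c :=
  algebraMap_laurentSeries_eq_single K c

/-- `B ⊗ K → K((q))` -/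
noncomputable def PsiT (ψ : B →+* LaurentSeries (ZMod ℓ)) :
    B ⊗[Zl ℓ] K →ₐ[Zl ℓ] LaurentSeries K :=
  Algebra.TensorProduct.productMap (psiK ℓ K ψ) (constK ℓ K)

theorem PsiT_tmul_coeff (ψ : B →+* LaurentSeries (ZMod ℓ)) (b : B) (c : K) (n : ℤ) :
    (PsiT ℓ K ψ (b ⊗ₜ c)).coeff n = ZMod.castHom (dvd_refl ℓ) K ((ψ b).coeff n) * c := by
  rw [PsiT, Algebra.TensorProduct.productMap_apply_tmul, constK_apply,
    HahnSeries.coeff_mul_single_zero, psiK_coeff]

theorem nontrivial_tensor (ψ : B →+* LaurentSeries (ZMod ℓ)) : Nontrivial (B ⊗[Zl ℓ] K) :=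
  (PsiT ℓ K ψ).toRingHom.domain_nontrivial


/-- the sum `Σ b_i ⊗ e_i` -/
noncomputable def sumT {ι : Type} (e : ι → K) : (ι →₀ B) →+ B ⊗[Zl ℓ] K :=
  Finsupp.liftAddHom (fun i =>
    { toFun := fun b => b ⊗ₜ[Zl ℓ] e i
      map_zero' := TensorProduct.zero_tmul _ _
      map_add' := fun b b' => TensorProduct.add_tmul _ _ _ })

theorem sumT_apply {ι : Type} (e : ι → K) (s : ι →₀ B) :
    sumT ℓ K e s = s.sum (fun i b => b ⊗ₜ[Zl ℓ] e i) := rfl

theorem tmul_natCast_mul (b : B) (m : ℕ) (c : K) :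
    b ⊗ₜ[Zl ℓ] ((m : K) * c) = ((m : B) * b) ⊗ₜ[Zl ℓ] c := by
  have h1 : (m : K) * c = (m : Zl ℓ) • c := by
    rw [Algebra.smul_def, map_natCast]
  have h2 : (m : B) * b = (m : Zl ℓ) • b := by
    rw [Algebra.smul_def, map_natCast]
  rw [h1, h2, TensorProduct.tmul_smul, TensorProduct.smul_tmul']

theorem sumT_surjective {ι : Type} [Module (ZMod ℓ) K] (e : Module.Basis ι (ZMod ℓ) K)
    (hsm : ∀ (a : ZMod ℓ) (c : K), a • c = ZMod.castHom (dvd_refl ℓ) K a * c) :
    Function.Surjective (sumT ℓ (B := B) K e) := by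
  intro z
  induction z using TensorProduct.induction_on with
  | zero => exact ⟨0, map_zero _⟩
  | add x y hx hy =>
    obtain ⟨s, rfl⟩ := hx
    obtain ⟨t, rfl⟩ := hy
    exact ⟨s + t, map_add _ _ _⟩
  | tmul b c =>
    refine ⟨(e.repr c).mapRange (fun a => ((a.val : ℕ) : B) * b) (by simp), ?_⟩
    conv_rhs => rw [← e.linearCombination_repr c, Finsupp.linearCombination_apply, Finsupp.sum,
      TensorProduct.tmul_sum]
    rw [sumT_apply, Finsupp.sum_mapRange_index (h := fun i b => b ⊗ₜ[Zl ℓ] e i)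
      (fun i => TensorProduct.zero_tmul _ _), Finsupp.sum]
    refine Finset.sum_congr rfl fun i _ => ?_
    rw [hsm, ← tmul_natCast_mul]
    congr 2
    simp

theorem PsiT_sumT_coeff {ι : Type} (e : ι → K) (ψ : B →+* LaurentSeries (ZMod ℓ)) (s : ι →₀ B)
    (n : ℤ) : (PsiT ℓ K ψ (sumT ℓ K e s)).coeff n =
      s.sum (fun i b => ZMod.castHom (dvd_refl ℓ) K ((ψ b).coeff n) * e i) := by
  rw [sumT_apply, Finsupp.sum, map_sum, Finsupp.sum, HahnSeries.coeff_sum]
  exact Finset.sum_congr rfl fun i _ => PsiT_tmul_coeff ℓ K ψ _ _ n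

theorem PsiT_injective (ψ : B →+* LaurentSeries (ZMod ℓ))
    (hψ : ∀ b, ψ b = 0 → ∃ b', b = (ℓ : B) * b') : Function.Injective (PsiT ℓ K ψ) := by
  letI : Algebra (ZMod ℓ) K := ZMod.algebra K ℓ
  have hsm : ∀ (a : ZMod ℓ) (c : K), a • c = ZMod.castHom (dvd_refl ℓ) K a * c := by
    intro a c
    rw [Algebra.smul_def]
    rfl
  set e := Module.Basis.ofVectorSpace (ZMod ℓ) K with he
  rw [injective_iff_map_eq_zero]
  intro z hz
  obtain ⟨s, rfl⟩ := sumT_surjective ℓ (B := B) K e hsm z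
  have h0 : ∀ i, ψ (s i) = 0 := by
    intro i
    ext n
    have h1 := PsiT_sumT_coeff ℓ K e ψ s n
    rw [hz, HahnSeries.coeff_zero] at h1
    have h2 : Finsupp.linearCombination (ZMod ℓ) e
        (s.mapRange (fun b => (ψ b).coeff n) (by simp)) = 0 := by
      rw [Finsupp.linearCombination_apply, Finsupp.sum_mapRange_index (h := fun i (a : ZMod ℓ) => a • e i)
        (fun i => zero_smul _ _), h1]
      exact Finsupp.sum_congr fun i _ => hsm _ _
    have h3 := (linearIndependent_iff.mp e.linearIndependent) _ h2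
    have h4 := DFunLike.congr_fun h3 i
    simpa using h4
  rw [sumT_apply]
  refine Finset.sum_eq_zero fun i _ => ?_
  obtain ⟨b', hb'⟩ := hψ _ (h0 i)
  show s i ⊗ₜ[Zl ℓ] e i = 0
  rw [hb', ← tmul_natCast_mul, CharP.cast_eq_zero K ℓ, zero_mul, TensorProduct.tmul_zero]

theorem isDomain_tensor (ψ : B →+* LaurentSeries (ZMod ℓ))
    (hψ : ∀ b, ψ b = 0 → ∃ b', b = (ℓ : B) * b') : IsDomain (B ⊗[Zl ℓ] K) :=
  (PsiT_injective ℓ K ψ hψ).isDomain (PsiT ℓ K ψ).toRingHom

end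

end Fermat.Agent.S28
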