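import Mathlib
import Fermat.Agent.S28.Defs
import Fermat.Agent.S28.Tensor

set_option autoImplicit false

/-! # S28 (MA): the coefficient ring `Rl ℓ`, the integral closure of `ℤ_(ℓ)` in `ℂ` -/

namespace Fermat.Agent.S28

open Polynomial

/-- the integral closure of `ℤ_(ℓ)` in `ℂ`. -/
noncomputable def Rl (ℓ : ℕ) : Subring ℂ := (integralClosure (Zl ℓ) ℂ).toSubring

theorem mem_Rl_iff (ℓ : ℕ) (x : ℂ) : x ∈ Rl ℓ ↔ IsIntegral (Zl ℓ) x := Iff.rfl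

theorem mem_Rl_of_pow_eq_one (ℓ : ℕ) (ω : ℂ) (n : ℕ) (hn : n ≠ 0) (h : ω ^ n = 1) : ω ∈ Rl ℓ := by
  rw [mem_Rl_iff]
  exact IsIntegral.of_pow (Nat.pos_of_ne_zero hn) (h ▸ isIntegral_one)

theorem algebraMap_Zl_mem_Rl (ℓ : ℕ) (a : Zl ℓ) : ((a : ℚ) : ℂ) ∈ Rl ℓ := by
  rw [mem_Rl_iff]
  exact isIntegral_algebraMap (R := Zl ℓ) (A := ℂ) (x := a)

theorem natCast_inv_mem_Zl (ℓ : ℕ) [Fact ℓ.Prime] (n : ℕ) (hn : ¬ ℓ ∣ n) :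
    ((n : ℚ))⁻¹ ∈ GaloisRep.ratLocalizedAt ℓ := by
  have hn0 : n ≠ 0 := fun h => hn (h ▸ dvd_zero _)
  show (((n : ℚ))⁻¹).den.Coprime ℓ
  rw [Rat.inv_natCast_den, if_neg hn0]
  exact (((Nat.Prime.coprime_iff_not_dvd (Fact.out : ℓ.Prime)).mpr hn)).symm

theorem natCast_inv_mem_Rl (ℓ : ℕ) [Fact ℓ.Prime] (n : ℕ) (hn : ¬ ℓ ∣ n) : ((n : ℂ))⁻¹ ∈ Rl ℓ := by
  have := algebraMap_Zl_mem_Rl ℓ ⟨_, natCast_inv_mem_Zl ℓ n hn⟩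
  simpa using this

theorem mem_Zl_of_isIntegral (ℓ : ℕ) [Fact ℓ.Prime] (x : ℚ) (hx : IsIntegral (Zl ℓ) x) :
    x ∈ GaloisRep.ratLocalizedAt ℓ := by
  have h1 : IsIntegral ℤ_[ℓ] ((Rat.castHom ℚ_[ℓ]) x) :=
    IsIntegral.map_of_comp_eq (toPadicInt ℓ) (Rat.castHom ℚ_[ℓ]) (Zl_ringHom_ext _ _) hx
  obtain ⟨y, hy⟩ := (IsIntegrallyClosed.isIntegral_iff (R := ℤ_[ℓ]) (K := ℚ_[ℓ])).mp h1
  have h2 : ‖(x : ℚ_[ℓ])‖ ≤ 1 := by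
    have : (x : ℚ_[ℓ]) = (y : ℚ_[ℓ]) := hy.symm
    rw [this]
    exact y.2
  have h3 := (Padic.norm_rat_le_one_iff_padicValuation_le_one ℓ).mp h2
  rw [Rat.padicValuation_le_one_iff] at h3
  show x.den.Coprime ℓ
  exact (((Nat.Prime.coprime_iff_not_dvd (Fact.out : ℓ.Prime)).mpr h3)).symm

theorem mem_of_ratCast_mem_Rl (ℓ : ℕ) [Fact ℓ.Prime] (x : ℚ) (hx : (x : ℂ) ∈ Rl ℓ) :
    x ∈ GaloisRep.ratLocalizedAt ℓ := by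
  rw [mem_Rl_iff] at hx
  apply mem_Zl_of_isIntegral
  exact (isIntegral_algebraMap_iff (R := Zl ℓ) (A := ℚ) (B := ℂ)
    (algebraMap ℚ ℂ).injective).mp hx

theorem natCast_not_isUnit_Rl (ℓ : ℕ) [Fact ℓ.Prime] : ¬ IsUnit (ℓ : ↥(Rl ℓ)) := by
  intro h
  obtain ⟨v, hv⟩ := h.exists_right_inv
  have hℓ0 : (ℓ : ℂ) ≠ 0 := Nat.cast_ne_zero.mpr (Fact.out : ℓ.Prime).ne_zero
  have h1 : (ℓ : ℂ) * (v : ℂ) = 1 := by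
    have := congrArg (Subtype.val) hv
    simpa using this
  have h2 : (v : ℂ) = (((ℓ : ℚ)⁻¹ : ℚ) : ℂ) := by
    push_cast
    field_simp
    linear_combination h1
  have h3 : (((ℓ : ℚ)⁻¹ : ℚ) : ℂ) ∈ Rl ℓ := h2 ▸ v.2
  have h4 := mem_of_ratCast_mem_Rl ℓ _ h3
  have h5 : (((ℓ : ℚ))⁻¹).den.Coprime ℓ := h4
  rw [Rat.inv_natCast_den, if_neg (Fact.out : ℓ.Prime).ne_zero, Nat.coprime_self] at h5
  exact (Fact.out : ℓ.Prime).one_lt.ne' h5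

theorem exists_residue_Rl (ℓ : ℕ) [Fact ℓ.Prime] :
    ∃ (k : Type) (_ : Field k) (π : ↥(Rl ℓ) →+* k), π (ℓ : ↥(Rl ℓ)) = 0 := by
  obtain ⟨m, hm, hmem⟩ := exists_max_ideal_of_mem_nonunits (natCast_not_isUnit_Rl ℓ)
  exact ⟨↥(Rl ℓ) ⧸ m, Ideal.Quotient.field m, Ideal.Quotient.mk m,
    Ideal.Quotient.eq_zero_iff_mem.mpr hmem⟩

/-- `Rl ℓ` is integrally closed in `ℂ`. -/
theorem mem_Rl_of_isIntegral (ℓ : ℕ) (x : ℂ) (hx : IsIntegral ↥(Rl ℓ) x) : x ∈ Rl ℓ := by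
  have h : IsIntegral ↥(integralClosure (Zl ℓ) ℂ) x := hx
  exact isIntegral_trans (R := Zl ℓ) (A := ↥(integralClosure (Zl ℓ) ℂ)) x h

instance isIntegrallyClosedIn_Rl (ℓ : ℕ) : IsIntegrallyClosedIn ↥(Rl ℓ) ℂ :=
  inferInstanceAs (IsIntegrallyClosedIn (integralClosure (Zl ℓ) ℂ).toSubring ℂ)

instance isIntegrallyClosed_Rl (ℓ : ℕ) : IsIntegrallyClosed ↥(Rl ℓ) :=
  IsIntegrallyClosed.of_isIntegrallyClosedIn ↥(Rl ℓ) ℂ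

/-- `ℤ_(ℓ) → Rl ℓ`. -/
noncomputable def kap (ℓ : ℕ) : Zl ℓ →+* ↥(Rl ℓ) :=
  ((Rat.castHom ℂ).comp (GaloisRep.ratLocalizedAt ℓ).subtype).codRestrict (Rl ℓ)
    (fun a => algebraMap_Zl_mem_Rl ℓ a)

theorem kap_coe (ℓ : ℕ) (a : Zl ℓ) : ((kap ℓ a : ↥(Rl ℓ)) : ℂ) = ((a : ℚ) : ℂ) := rfl

theorem kap_injective (ℓ : ℕ) : Function.Injective (kap ℓ) := by
  intro a b h
  have := congrArg Subtype.val h
  rw [kap_coe, kap_coe] at this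
  exact Subtype.ext (Rat.cast_injective this)

/-- Ring endomorphisms of `ℂ` preserve `Rl ℓ`. -/
theorem map_mem_Rl (ℓ : ℕ) (σ : ℂ →+* ℂ) {x : ℂ} (hx : x ∈ Rl ℓ) : σ x ∈ Rl ℓ := by
  rw [mem_Rl_iff] at hx ⊢
  exact IsIntegral.map_of_comp_eq (RingHom.id (Zl ℓ)) σ (Zl_ringHom_ext _ _) hx

/-- the restriction of a ring endomorphism of `ℂ` to `Rl ℓ`. -/
noncomputable def resRl (ℓ : ℕ) (σ : ℂ →+* ℂ) : ↥(Rl ℓ) →+* ↥(Rl ℓ) :=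
  (σ.comp (Rl ℓ).subtype).codRestrict (Rl ℓ) (fun a => map_mem_Rl ℓ σ a.2)

theorem resRl_coe (ℓ : ℕ) (σ : ℂ →+* ℂ) (a : ↥(Rl ℓ)) : ((resRl ℓ σ a : ↥(Rl ℓ)) : ℂ) = σ a := rfl

end Fermat.Agent.S28
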