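import Mathlib
import Fermat.Agent.S28.Defs
import Fermat.Agent.S28.Rings

set_option autoImplicit false

/-! # S28 ALG: basic facts on `ℤ_(ℓ)`, `red`, and polynomial rings over `ℤ_(ℓ)` -/

namespace Fermat.Agent.S28

open Polynomial

variable (ℓ : ℕ) [Fact ℓ.Prime]

theorem toPadicInt_coe (a : Zl ℓ) : ((toPadicInt ℓ a : ℤ_[ℓ]) : ℚ_[ℓ]) = ((a : ℚ) : ℚ_[ℓ]) := rfl

theorem mem_Zl_of_norm_le_one (x : ℚ) (h : ‖(x : ℚ_[ℓ])‖ ≤ 1) : x ∈ GaloisRep.ratLocalizedAt ℓ := by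
  have h3 := (Padic.norm_rat_le_one_iff_padicValuation_le_one ℓ).mp h
  rw [Rat.padicValuation_le_one_iff] at h3
  show x.den.Coprime ℓ
  exact (((Nat.Prime.coprime_iff_not_dvd (Fact.out : ℓ.Prime)).mpr h3)).symm

theorem red_eq_zero_iff (a : Zl ℓ) : red ℓ a = 0 ↔ ∃ a' : Zl ℓ, a = (ℓ : Zl ℓ) * a' := by
  constructor
  · intro h
    have h1 : toPadicInt ℓ a ∈ RingHom.ker (PadicInt.toZMod : ℤ_[ℓ] →+* ZMod ℓ) := h
    rw [PadicInt.ker_toZMod, PadicInt.maximalIdeal_eq_span_p, Ideal.mem_span_singleton] at h1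
    obtain ⟨y, hy⟩ := h1
    have hℓ0 : (ℓ : ℚ_[ℓ]) ≠ 0 := Nat.cast_ne_zero.mpr (Fact.out : ℓ.Prime).ne_zero
    have hℓ0' : (ℓ : ℚ) ≠ 0 := Nat.cast_ne_zero.mpr (Fact.out : ℓ.Prime).ne_zero
    have h2 : (((a : ℚ) / ℓ : ℚ) : ℚ_[ℓ]) = (y : ℚ_[ℓ]) := by
      have := congrArg (Subtype.val) hy
      rw [toPadicInt_coe] at this
      push_cast at this ⊢
      rw [this]
      field_simp
    have h3 : ((a : ℚ) / ℓ : ℚ) ∈ GaloisRep.ratLocalizedAt ℓ := by
      apply mem_Zl_of_norm_le_one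
      rw [h2]
      exact y.2
    refine ⟨⟨_, h3⟩, Subtype.ext ?_⟩
    push_cast
    field_simp
  · rintro ⟨a', rfl⟩
    rw [map_mul, map_natCast, ZMod.natCast_self, zero_mul]

theorem red_surjective : Function.Surjective (red ℓ) := by
  intro x
  refine ⟨((x.val : ℕ) : Zl ℓ), ?_⟩
  rw [map_natCast, ZMod.natCast_zmod_val]

theorem natCast_Zl_ne_zero : (ℓ : Zl ℓ) ≠ 0 := by
  intro h
  have := congrArg Subtype.val h
  push_cast at this
  exact (Fact.out : ℓ.Prime).ne_zero (by exact_mod_cast this)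

theorem prime_natCast_Zl : Prime (ℓ : Zl ℓ) := by
  refine ⟨natCast_Zl_ne_zero ℓ, ?_, ?_⟩
  · intro h
    have := h.map (red ℓ)
    rw [map_natCast, ZMod.natCast_self] at this
    exact not_isUnit_zero this
  · intro a b hab
    have h1 : red ℓ (a * b) = 0 := (red_eq_zero_iff ℓ _).mpr hab
    rw [map_mul, mul_eq_zero] at h1
    rcases h1 with h | h
    · exact Or.inl ((red_eq_zero_iff ℓ _).mp h)
    · exact Or.inr ((red_eq_zero_iff ℓ _).mp h)

instance isIntegrallyClosedIn_Zl : IsIntegrallyClosedIn (Zl ℓ) ℚ :=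
  Subring.isIntegrallyClosedIn_iff.mpr fun x hx => mem_Zl_of_isIntegral ℓ x hx

instance isIntegrallyClosed_Zl : IsIntegrallyClosed (Zl ℓ) :=
  IsIntegrallyClosed.of_isIntegrallyClosedIn (Zl ℓ) ℚ

instance isIntegrallyClosed_Zl_X : IsIntegrallyClosed (Zl ℓ)[X] := inferInstance

theorem prime_C_natCast : Prime (C (ℓ : Zl ℓ)) := Polynomial.prime_C_iff.mpr (prime_natCast_Zl ℓ)

/-- the kernel of the reduction of polynomials. -/
theorem map_red_eq_zero_iff (p : (Zl ℓ)[X]) : p.map (red ℓ) = 0 ↔ C (ℓ : Zl ℓ) ∣ p := by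
  rw [Polynomial.C_dvd_iff_dvd_coeff, Polynomial.ext_iff]
  refine forall_congr' fun i => ?_
  rw [Polynomial.coeff_map, Polynomial.coeff_zero, red_eq_zero_iff]
  rfl

/-- the kernel of the reduction of polynomials in two variables. -/
theorem map_map_red_eq_zero_iff (p : (Zl ℓ)[X][X]) :
    p.map (Polynomial.mapRingHom (red ℓ)) = 0 ↔ C (C (ℓ : Zl ℓ)) ∣ p := by
  rw [Polynomial.C_dvd_iff_dvd_coeff, Polynomial.ext_iff]
  refine forall_congr' fun i => ?_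
  rw [Polynomial.coeff_map, Polynomial.coeff_zero, Polynomial.coe_mapRingHom, map_red_eq_zero_iff]

end Fermat.Agent.S28
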