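import Mathlib

set_option autoImplicit false

/-! # S28 IRR: the irreducibility criterion (pure algebra over Laurent series) -/

namespace Fermat.Agent.S28

open Polynomial

/-- evaluation of polynomials at a Laurent series with a pole is injective -/
theorem eval₂_C_injective {R : Type} [CommRing R] [IsDomain R] (J : LaurentSeries R)
    (hJ : J.order < 0) :
    Function.Injective (Polynomial.eval₂RingHom (HahnSeries.C : R →+* LaurentSeries R) J) := by
  rw [injective_iff_map_eq_zero]
  intro p hp
  by_contra hne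
  have hJ0 : J ≠ 0 := by
    rintro rfl
    simp at hJ
  have h1 : (Polynomial.eval₂RingHom (HahnSeries.C : R →+* LaurentSeries R) J p).coeff
      (p.natDegree • J.order) = p.leadingCoeff * (J ^ p.natDegree).coeff (p.natDegree • J.order) := by
    rw [Polynomial.coe_eval₂RingHom, Polynomial.eval₂_eq_sum_range, HahnSeries.coeff_sum,
      Finset.sum_range_succ, Finset.sum_eq_zero, zero_add, HahnSeries.C_mul_eq_smul,
      HahnSeries.coeff_smul, smul_eq_mul]
    · rfl
    · intro i hi
      rw [HahnSeries.C_mul_eq_smul, HahnSeries.coeff_smul, HahnSeries.coeff_eq_zero_of_lt_order,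
        smul_zero]
      rw [HahnSeries.order_pow]
      have hi' : (i : ℤ) < p.natDegree := by exact_mod_cast Finset.mem_range.mp hi
      simp only [nsmul_eq_mul]
      nlinarith
  rw [hp, HahnSeries.coeff_zero] at h1
  have h2 : (J ^ p.natDegree).coeff (p.natDegree • J.order) ≠ 0 := by
    rw [← HahnSeries.order_pow]
    exact fun h => pow_ne_zero _ hJ0 (HahnSeries.coeff_order_eq_zero.mp h)
  exact mul_ne_zero (Polynomial.leadingCoeff_ne_zero.mpr hne) h2 h1.symm

theorem order_multiset_prod_le {k : Type} [Field k] (s : Multiset (LaurentSeries k))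
    (hs : ∀ x ∈ s, x ≠ 0 ∧ x.order < 0) : s.prod ≠ 0 ∧ s.prod.order ≤ -(Multiset.card s : ℤ) := by
  induction s using Multiset.induction with
  | empty => simp
  | cons a s ih =>
    obtain ⟨h1, h2⟩ := ih fun x hx => hs x (Multiset.mem_cons_of_mem hx)
    obtain ⟨h3, h4⟩ := hs a (Multiset.mem_cons_self a s)
    rw [Multiset.prod_cons, Multiset.card_cons]
    refine ⟨mul_ne_zero h3 h1, ?_⟩
    rw [HahnSeries.order_mul h3 h1]
    push_cast
    omega

theorem order_finset_prod {k : Type} [Field k] {Q : Type} (s : Finset Q)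
    (U : Q → LaurentSeries k) (hU : ∀ q ∈ s, U q ≠ 0) :
    (∏ q ∈ s, U q).order = ∑ q ∈ s, (U q).order := by
  classical
  induction s using Finset.induction_on with
  | empty => simp
  | insert a s ha ih =>
    rw [Finset.prod_insert ha, Finset.sum_insert ha,
      HahnSeries.order_mul (hU a (Finset.mem_insert_self a s))
        (Finset.prod_ne_zero_iff.mpr fun q hq => hU q (Finset.mem_insert_of_mem hq)),
      ih fun q hq => hU q (Finset.mem_insert_of_mem hq)]

/-- **Irreducibility criterion.** -/
theorem irreducible_of_unit_orders {k : Type} [Field k] {Q : Type} [Fintype Q] [DecidableEq Q]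
    (q₀ : Q) (J : LaurentSeries k) (hJ : J.order < 0)
    (U : Q → LaurentSeries k) (hUne : ∀ q, U q ≠ 0) (hU : ∀ q, q ≠ q₀ → (U q).order < 0)
    (Ψ : k[X][X])
    (hΨ : Ψ.map (Polynomial.eval₂RingHom HahnSeries.C J) = ∏ q, (X - C (U q)))
    (c : k) (hc : c ≠ 0) (hΨ0 : Ψ.coeff 0 = C c) :
    Irreducible (Ψ.map (algebraMap k[X] (RatFunc k))) := by
  set φ := Polynomial.eval₂RingHom (HahnSeries.C : k →+* LaurentSeries k) J with hφ
  have hinj : Function.Injective φ := eval₂_C_injective J hJ
  obtain ⟨ι, hι'⟩ : ∃ ι : RatFunc k →+* LaurentSeries k,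
      ∀ x, ι (algebraMap k[X] (RatFunc k) x) = φ x :=
    ⟨IsFractionRing.lift hinj, IsFractionRing.lift_algebraMap hinj⟩
  have hι : ι.comp (algebraMap k[X] (RatFunc k)) = φ := RingHom.ext hι'
  have hprodmonic : (∏ q, (X - C (U q))).Monic := monic_prod_of_monic _ _ fun q _ => monic_X_sub_C _
  have hmonic : Ψ.Monic := Polynomial.monic_of_injective hinj (hΨ ▸ hprodmonic)
  have hainj : Function.Injective (algebraMap k[X] (RatFunc k)) :=
    IsFractionRing.injective _ _
  -- the order of `U q₀`
  have hconst : ∏ q, (- U q) = HahnSeries.C c := by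
    have h1 := congrArg (fun p => p.coeff 0) hΨ
    simp only [Polynomial.coeff_map, hΨ0] at h1
    rw [Polynomial.coeff_zero_eq_eval_zero, Polynomial.eval_prod] at h1
    simp only [eval_sub, eval_X, eval_C, zero_sub] at h1
    rw [← h1, hφ]
    simp
  have hord0 : 0 ≤ (U q₀).order := by
    have h1 : (∏ q, (- U q)).order = ∑ q, (U q).order := by
      rw [order_finset_prod _ _ fun q _ => neg_ne_zero.mpr (hUne q)]
      simp [HahnSeries.order_neg]
    rw [hconst, HahnSeries.order_C, ← Finset.add_sum_erase _ _ (Finset.mem_univ q₀)] at h1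
    have h2 : ∑ q ∈ Finset.univ.erase q₀, (U q).order ≤ 0 :=
      Finset.sum_nonpos fun q hq => (hU q (Finset.ne_of_mem_erase hq)).le
    omega
  -- key claim
  have key : ∀ f g : (RatFunc k)[X], f.Monic → g.Monic →
      f * g = Ψ.map (algebraMap k[X] (RatFunc k)) → f.natDegree ≠ 0 → (f.map ι).IsRoot (U q₀) := by
    intro f g hf hg hfg hdeg
    obtain ⟨f', hf'⟩ := IsIntegrallyClosed.eq_map_mul_C_of_dvd (RatFunc k) hmonic
      (Dvd.intro g hfg)
    obtain ⟨g', hg'⟩ := IsIntegrallyClosed.eq_map_mul_C_of_dvd (RatFunc k) hmonic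
      (Dvd.intro_left f hfg)
    rw [hf.leadingCoeff, map_one, mul_one] at hf'
    rw [hg.leadingCoeff, map_one, mul_one] at hg'
    have hmul : f' * g' = Ψ := by
      apply Polynomial.map_injective _ hainj
      rw [Polynomial.map_mul, hf', hg', hfg]
    have hunit : IsUnit (f'.coeff 0) := by
      have h1 : f'.coeff 0 * g'.coeff 0 = C c := by
        rw [← Polynomial.mul_coeff_zero, hmul, hΨ0]
      exact IsUnit.of_mul_eq_one (g'.coeff 0 * C c⁻¹) (by
        rw [← mul_assoc, h1, ← C_mul, mul_inv_cancel₀ hc, C_1])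
    obtain ⟨r, hr, hr'⟩ := Polynomial.isUnit_iff.mp hunit
    have hfι : f.map ι = f'.map φ := by rw [← hf', Polynomial.map_map, hι]
    have hgι : g.map ι = g'.map φ := by rw [← hg', Polynomial.map_map, hι]
    have hfm : (f.map ι).Monic := hf.map ι
    have hdvd : f.map ι ∣ ∏ q, (X - C (U q)) := by
      rw [← hΨ, ← hmul, Polynomial.map_mul, hfι]
      exact Dvd.intro _ rfl
    have hsplit : (f.map ι).Splits :=
      Polynomial.Splits.of_dvd (Polynomial.Splits.prod fun q _ => Polynomial.Splits.X_sub_C _)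
        hprodmonic.ne_zero hdvd
    by_contra hroot
    have hroots : ∀ x ∈ (f.map ι).roots, x ≠ 0 ∧ x.order < 0 := by
      intro x hx
      have hx' : (∏ q, (X - C (U q))).IsRoot x :=
        (Polynomial.isRoot_of_mem_roots hx).dvd hdvd
      rw [Polynomial.IsRoot.def, Polynomial.eval_prod, Finset.prod_eq_zero_iff] at hx'
      obtain ⟨q, -, hq⟩ := hx'
      simp only [eval_sub, eval_X, eval_C, sub_eq_zero] at hq
      subst hq
      refine ⟨hUne q, hU q ?_⟩
      rintro rfl
      exact hroot (Polynomial.isRoot_of_mem_roots hx)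
    obtain ⟨-, h2⟩ := order_multiset_prod_le _ hroots
    have h3 := hsplit.coeff_zero_eq_prod_roots_of_monic hfm
    rw [hfι, Polynomial.coeff_map, ← hr'] at h3
    have h4 : φ (C r) = HahnSeries.C r := by simp [hφ]
    rw [h4, ← hfι] at h3
    have h5 : ((f.map ι).roots.prod).order = 0 := by
      have h6 : (f.map ι).roots.prod = (-1) ^ (f.map ι).natDegree * HahnSeries.C r := by
        rw [h3, ← mul_assoc, ← mul_pow]
        simp
      rw [h6]
      rcases neg_one_pow_eq_or (LaurentSeries k) (f.map ι).natDegree with h | h <;> rw [h]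
      · rw [one_mul, HahnSeries.order_C]
      · rw [neg_one_mul, HahnSeries.order_neg, HahnSeries.order_C]
    rw [h5, ← hsplit.natDegree_eq_card_roots, hf.natDegree_map] at h2
    have : (0 : ℤ) < f.natDegree := by exact_mod_cast Nat.pos_of_ne_zero hdeg
    omega
  rw [(hmonic.map _).irreducible_iff_natDegree]
  refine ⟨?_, ?_⟩
  · intro h1
    have h2 := congrArg (fun p => (p.map ι).natDegree) h1
    simp only [Polynomial.map_map, hι, hΨ, Polynomial.map_one, natDegree_one] at h2
    rw [Polynomial.natDegree_prod_of_monic _ _ fun q _ => monic_X_sub_C _] at h2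
    simp only [natDegree_X_sub_C, Finset.sum_const, Finset.card_univ, smul_eq_mul, mul_one] at h2
    have : Nonempty Q := ⟨q₀⟩
    exact Fintype.card_ne_zero h2
  · intro f g hf hg hfg
    by_contra hcon
    push Not at hcon
    have h1 := key f g hf hg hfg hcon.1
    have h2 := key g f hg hf (by rw [mul_comm, hfg]) hcon.2
    obtain ⟨f₁, hf₁⟩ := Polynomial.dvd_iff_isRoot.mpr h1
    obtain ⟨g₁, hg₁⟩ := Polynomial.dvd_iff_isRoot.mpr h2
    have h3 : (f.map ι) * (g.map ι) = ∏ q, (X - C (U q)) := by
      rw [← Polynomial.map_mul, hfg, Polynomial.map_map, hι, hΨ]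
    rw [← Finset.mul_prod_erase _ _ (Finset.mem_univ q₀), hf₁, hg₁, mul_assoc] at h3
    have h4 := mul_left_cancel₀ (Polynomial.X_sub_C_ne_zero (U q₀)) h3
    have h5 := congrArg (Polynomial.eval (U q₀)) h4
    rw [Polynomial.eval_prod] at h5
    simp only [eval_mul, eval_sub, eval_X, eval_C, sub_self, zero_mul, mul_zero] at h5
    obtain ⟨q, hq, hq'⟩ := Finset.prod_eq_zero_iff.mp h5.symm
    have h6 := hU q (Finset.ne_of_mem_erase hq)
    rw [← sub_eq_zero.mp hq'] at h6
    omega

end Fermat.Agent.S28
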