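import Mathlib
import Fermat.Agent.S28.Defs
import Fermat.Agent.S24.Integral

set_option autoImplicit false

/-! # S28 (MOD): definitions for the modular part -/

namespace Fermat.Agent.S28

open UpperHalfPlane ModularForm Matrix.SpecialLinearGroup ModularCurve Polynomial
open scoped MatrixGroups ModularForm Manifold
open Fermat.Agent.S20 (Quo sl)
open Fermat.Agent.S24 (Mer expInf jfun)

/-- Laurent series over `ℂ` with all coefficients in the subring `R`. -/
noncomputable def WR (R : Subring ℂ) : Subring (LaurentSeries ℂ) := (coeffMap R.subtype).range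

/-- functions in `Mer N` whose `q_N`-expansion has coefficients in `R`. -/
noncomputable def RMer (N : ℕ) [NeZero N] (R : Subring ℂ) : Subring (ℍ → ℂ) :=
  ((WR R).comap (expInf N).toRingHom).map (Mer N).val.toRingHom

/-- units of `Mer N` which, together with their inverse, have an expansion over `R`. -/
def UG (N : ℕ) [NeZero N] (R : Subring ℂ) : Subgroup (Mer N)ˣ where
  carrier := {f | expInf N f.1 ∈ WR R ∧ expInf N f⁻¹.1 ∈ WR R}
  mul_mem' := by
    rintro a b ⟨ha, ha'⟩ ⟨hb, hb'⟩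
    refine ⟨?_, ?_⟩
    · rw [Units.val_mul, map_mul]
      exact mul_mem ha hb
    · rw [mul_inv, Units.val_mul, map_mul]
      exact mul_mem ha' hb'
  one_mem' := by
    refine ⟨?_, ?_⟩
    · rw [Units.val_one, map_one]
      exact one_mem _
    · rw [inv_one, Units.val_one, map_one]
      exact one_mem _
  inv_mem' := by
    rintro a ⟨ha, ha'⟩
    exact ⟨ha', by rwa [inv_inv]⟩

/-- `Δ(m z) / Δ(z)`. -/
noncomputable def wfun (m : ℕ) (hm : m ≠ 0) (z : ℍ) : ℂ :=
  ModularForm.discriminant (S22.tri m 1 0 hm one_ne_zero • z) / ModularForm.discriminant z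

/-- `Δ(m z) / Δ(z)`, junk value `1` for `m = 0`. -/
noncomputable def wfun' (m : ℕ) (z : ℍ) : ℂ := if hm : m ≠ 0 then wfun m hm z else 1

/-- the exponents. -/
def nexp (N e : ℕ) : ℤ := ArithmeticFunction.moebius e * ((N / e : ℕ) : ℤ)

/-- the modular unit `u = ∏_{e ∣ N} (Δ((N/e) z) / Δ(z)) ^ (μ(e) N / e)`. -/
noncomputable def ufun (N : ℕ) (z : ℍ) : ℂ := ∏ e ∈ N.divisors, wfun' (N / e) z ^ nexp N e

/-- the conjugates of a `Γ₀(N)`-invariant function, indexed by the coset space. -/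
noncomputable def conj (N : ℕ) (g : ℍ → ℂ) (q : Quo N) : ℍ → ℂ :=
  fun z => g ((S20.exists_mk q).choose⁻¹ • z)

/-- `p ↦ p(j)`. -/
noncomputable def evJ (R : Subring ℂ) : (↥R)[X] →+* (ℍ → ℂ) :=
  (Polynomial.aeval (R := ↥R) jfun).toRingHom

/-- the formal `j(t^N)` over a ring. -/
noncomputable def JN (N : ℕ) [NeZero N] (A : Type) [CommRing A] : LaurentSeries A :=
  qExpand A N (jqModC A)

/-- `p ↦ p(j(t^N))`. -/
noncomputable def evJN (N : ℕ) [NeZero N] (A : Type) [CommRing A] : A[X] →+* LaurentSeries A :=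
  Polynomial.eval₂RingHom HahnSeries.C (JN N A)

/-- The output of the analytic part, over a coefficient ring `R ⊆ ℂ`; `t = q_N`. -/
structure AnData (N : ℕ) [NeZero N] (R : Subring ℂ) where
  /-- the `q`-expansion of the modular unit -/
  u : LaurentSeries ℤ
  /-- its characteristic polynomial over `R[j]` -/
  Ψ : (↥R)[X][X]
  /-- the `t`-expansions of the conjugates of `u` -/
  r : Quo N → LaurentSeries ↥R
  /-- the trivial coset -/
  q₀ : Quo N
  unit : ∀ q, IsUnit (r q)
  neg : ∀ q, q ≠ q₀ → (r q).order < 0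
  split : Ψ.map (evJN N ↥R) = ∏ q, (X - C (r q))
  r₀ : r q₀ = qExpand ↥R N (coeffMap (Int.castRingHom ↥R) u)
  /-- the constant term -/
  c : (↥R)ˣ
  const : Ψ.coeff 0 = C (c : ↥R)
  lagr : ∀ (d : ℕ) [NeZero d], d ∣ N → ∃ G : (↥R)[X][X],
    G.eval₂ (evJN N ↥R) (r q₀) =
      qExpand ↥R N (qExpand ↥R d (jqModC ↥R)) * ∏ q ∈ Finset.univ.erase q₀, (r q₀ - r q)

end Fermat.Agent.S28
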