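import Mathlib
import Fermat.Agent.S28.ModDefs
import Fermat.Agent.S28.Irr
import Fermat.Agent.S28.Tensor
import Fermat.Agent.S28.Rings
import Fermat.Agent.S23.FixedField
import Fermat.Prelude.Thm_ModularCurve_coeffMap_qExpand
import Fermat.Prelude.Thm_ModularCurve_coeff_jqModC_neg_one

set_option autoImplicit false

/-! # S28 (RAT): rationality, irreducibility mod `ℓ`, generation -/

namespace Fermat.Agent.S28

open ModularCurve Polynomial
open Fermat.Agent.S20 (Quo)

namespace RAT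

/-! ## general lemmas -/

theorem order_JN_neg (N : ℕ) [NeZero N] (A : Type) [CommRing A] [Nontrivial A] :
    (JN N A).order < 0 := by
  have h1 : (JN N A).coeff ((N : ℤ) * (-1)) = 1 := by
    rw [JN, qExpand_coeff_mul, coeff_jqModC_neg_one]
  have h2 : (JN N A).order ≤ (N : ℤ) * (-1) :=
    HahnSeries.order_le_of_coeff_ne_zero (by rw [h1]; exact one_ne_zero)
  have h3 : 0 < (N : ℤ) := by exact_mod_cast Nat.pos_of_ne_zero (NeZero.ne N)
  linarith

theorem coeffMap_C {A B : Type} [CommRing A] [CommRing B] (f : A →+* B) (a : A) :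
    coeffMap f (HahnSeries.C a) = HahnSeries.C (f a) :=
  coeffMap_single f 0 a

theorem coeffMap_JN (N : ℕ) [NeZero N] {A B : Type} [CommRing A] [CommRing B] (f : A →+* B) :
    coeffMap f (JN N A) = JN N B :=
  coeffMap_jqNModC f N

theorem coeffMap_comp_evJN (N : ℕ) [NeZero N] {A B : Type} [CommRing A] [CommRing B]
    (f : A →+* B) :
    (coeffMap f).comp (evJN N A) = (evJN N B).comp (Polynomial.mapRingHom f) := by
  apply Polynomial.ringHom_ext
  · intro a
    simp [evJN]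
  · simp [evJN, coeffMap_JN]

theorem coeffMap_injective {A B : Type} [CommRing A] [CommRing B] (f : A →+* B)
    (hf : Function.Injective f) : Function.Injective (coeffMap f) := by
  intro x y h
  ext n
  apply hf
  rw [← coeffMap_coeff, ← coeffMap_coeff, h]

theorem order_le_order_coeffMap {A B : Type} [CommRing A] [CommRing B] (f : A →+* B)
    (x : LaurentSeries A) (hx : coeffMap f x ≠ 0) : x.order ≤ (coeffMap f x).order := by
  apply HahnSeries.order_le_of_coeff_ne_zero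
  intro h
  apply hx
  rw [← HahnSeries.coeff_order_eq_zero, coeffMap_coeff, h, map_zero]

/-- the reduction of a unit has the same order. -/
theorem order_coeffMap_of_isUnit {A B : Type} [CommRing A] [IsDomain A] [CommRing B] [IsDomain B]
    (f : A →+* B) (x : LaurentSeries A) (hx : IsUnit x) :
    coeffMap f x ≠ 0 ∧ (coeffMap f x).order = x.order := by
  obtain ⟨y, hy⟩ := hx.exists_right_inv
  have hy' : coeffMap f x * coeffMap f y = 1 := by rw [← map_mul, hy, map_one]
  have hx0 : x ≠ 0 := left_ne_zero_of_mul_eq_one hy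
  have hy0 : y ≠ 0 := right_ne_zero_of_mul_eq_one hy
  have hx0' : coeffMap f x ≠ 0 := left_ne_zero_of_mul_eq_one hy'
  have hy0' : coeffMap f y ≠ 0 := right_ne_zero_of_mul_eq_one hy'
  have h1 := HahnSeries.order_mul hx0 hy0
  have h2 := HahnSeries.order_mul hx0' hy0'
  rw [hy, HahnSeries.order_one] at h1
  rw [hy', HahnSeries.order_one] at h2
  have h3 := order_le_order_coeffMap f x hx0'
  have h4 := order_le_order_coeffMap f y hy0'
  exact ⟨hx0', by omega⟩

/-- a polynomial vanishing at a root of an irreducible polynomial is divisible by it. -/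
theorem dvd_of_root {K L : Type} [Field K] [CommRing L] [Nontrivial L] (ι : K →+* L) (x : L)
    (P Q : K[X]) (hP : Irreducible P) (hPx : P.eval₂ ι x = 0) (hQx : Q.eval₂ ι x = 0) : P ∣ Q := by
  rcases hP.isCoprime_or_dvd Q with h | h
  · obtain ⟨a, b, hab⟩ := h
    have := congrArg (Polynomial.eval₂ ι x) hab
    rw [eval₂_add, eval₂_mul, eval₂_mul, hPx, hQx, eval₂_one] at this
    simp at this
  · exact h

/-! ## base change of the analytic data to a field -/

section field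

variable {N : ℕ} [NeZero N] {R : Subring ℂ} (D : AnData N R) {k : Type} [Field k] (π : ↥R →+* k)

theorem split_map :
    (D.Ψ.map (Polynomial.mapRingHom π)).map (evJN N k) = ∏ q, (X - C (coeffMap π (D.r q))) := by
  rw [Polynomial.map_map, ← coeffMap_comp_evJN, ← Polynomial.map_map, D.split,
    Polynomial.map_prod]
  simp

theorem const_map : (D.Ψ.map (Polynomial.mapRingHom π)).coeff 0 = C (π D.c) := by
  rw [Polynomial.coeff_map, D.const]
  simp

theorem c_map_ne_zero : π D.c ≠ 0 := (D.c.isUnit.map π).ne_zero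

theorem r_map_ne_zero (q : Quo N) : coeffMap π (D.r q) ≠ 0 :=
  (order_coeffMap_of_isUnit π _ (D.unit q)).1

theorem r_map_order (q : Quo N) (hq : q ≠ D.q₀) : (coeffMap π (D.r q)).order < 0 := by
  rw [(order_coeffMap_of_isUnit π _ (D.unit q)).2]
  exact D.neg q hq

theorem irreducible_map :
    Irreducible ((D.Ψ.map (Polynomial.mapRingHom π)).map (algebraMap k[X] (RatFunc k))) :=
  irreducible_of_unit_orders D.q₀ (JN N k) (order_JN_neg N k) (fun q => coeffMap π (D.r q))
    (r_map_ne_zero D π) (r_map_order D π) _ (split_map D π) (π D.c) (c_map_ne_zero D π)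
    (const_map D π)

theorem evJN_injective (N : ℕ) [NeZero N] (A : Type) [CommRing A] [IsDomain A] :
    Function.Injective (evJN N A) :=
  eval₂_C_injective (JN N A) (order_JN_neg N A)

theorem monic_Ψ : D.Ψ.Monic := by
  apply Polynomial.monic_of_injective (evJN_injective N ↥R)
  rw [D.split]
  exact monic_prod_of_monic _ _ fun q _ => monic_X_sub_C _

end field

/-! ## formal lemmas on products of linear factors -/

theorem eval_derivative_prod {L Q : Type} [CommRing L] [Fintype Q] [DecidableEq Q] (U : Q → L)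
    (q₀ : Q) :
    (derivative (∏ q, (X - C (U q)))).eval (U q₀) = ∏ q ∈ Finset.univ.erase q₀, (U q₀ - U q) := by
  rw [derivative_prod_finset, Polynomial.eval_finsetSum,
    Finset.sum_eq_single q₀]
  · simp [Polynomial.eval_prod]
  · intro b _ hb
    rw [Polynomial.eval_mul, Polynomial.eval_prod,
      Finset.prod_eq_zero (Finset.mem_erase.mpr ⟨hb.symm, Finset.mem_univ q₀⟩) (by simp), zero_mul]
  · intro h
    exact absurd (Finset.mem_univ q₀) h

theorem order_nonneg_of_const {k : Type} [Field k] {Q : Type} [Fintype Q] [DecidableEq Q]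
    (q₀ : Q) (φ : k[X] →+* LaurentSeries k) (hφ : ∀ a, φ (C a) = HahnSeries.C a)
    (U : Q → LaurentSeries k) (hUne : ∀ q, U q ≠ 0) (hU : ∀ q, q ≠ q₀ → (U q).order < 0)
    (Ψ : k[X][X]) (hΨ : Ψ.map φ = ∏ q, (X - C (U q)))
    (c : k) (hΨ0 : Ψ.coeff 0 = C c) : 0 ≤ (U q₀).order := by
  have hconst : ∏ q, (- U q) = HahnSeries.C c := by
    have h1 := congrArg (fun p => p.coeff 0) hΨ
    simp only [Polynomial.coeff_map, hΨ0] at h1
    rw [Polynomial.coeff_zero_eq_eval_zero, Polynomial.eval_prod] at h1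
    simp only [eval_sub, eval_X, eval_C, zero_sub] at h1
    rw [← h1, hφ]
  have h1 : (∏ q, (- U q)).order = ∑ q, (U q).order := by
    rw [order_finset_prod _ _ fun q _ => neg_ne_zero.mpr (hUne q)]
    simp [HahnSeries.order_neg]
  rw [hconst, HahnSeries.order_C, ← Finset.add_sum_erase _ _ (Finset.mem_univ q₀)] at h1
  have h2 : ∑ q ∈ Finset.univ.erase q₀, (U q).order ≤ 0 :=
    Finset.sum_nonpos fun q hq => (hU q (Finset.ne_of_mem_erase hq)).le
  omega

theorem coeffMap_eval₂ (N : ℕ) [NeZero N] {A B : Type} [CommRing A] [CommRing B] (f : A →+* B)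
    (Q : A[X][X]) (x : LaurentSeries A) :
    coeffMap f (Q.eval₂ (evJN N A) x) =
      (Q.map (Polynomial.mapRingHom f)).eval₂ (evJN N B) (coeffMap f x) := by
  rw [Polynomial.hom_eval₂, coeffMap_comp_evJN, Polynomial.eval₂_map]

/-! ## the data over `ℂ` -/

section complex

variable {N : ℕ} [NeZero N] {R : Subring ℂ} (D : AnData N R)

/-- the polynomial over `ℂ`. -/
noncomputable def Ψc : ℂ[X][X] := D.Ψ.map (Polynomial.mapRingHom R.subtype)

/-- the distinguished root over `ℂ`. -/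
noncomputable def x₀ : LaurentSeries ℂ := coeffMap R.subtype (D.r D.q₀)

theorem x₀_eq : x₀ D = qExpand ℂ N (coeffMap (Int.castRingHom ℂ) D.u) := by
  rw [x₀, D.r₀, coeffMap_qExpand, coeffMap_coeffMap,
    RingHom.ext_int (R.subtype.comp (Int.castRingHom ↥R)) (Int.castRingHom ℂ)]

theorem coeffMap_x₀ (σ : ℂ →+* ℂ) : coeffMap σ (x₀ D) = x₀ D := by
  rw [x₀_eq, coeffMap_qExpand, coeffMap_coeffMap,
    RingHom.ext_int (σ.comp (Int.castRingHom ℂ)) (Int.castRingHom ℂ)]

theorem monic_Ψc : (Ψc D).Monic := (monic_Ψ D).map _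

theorem root_Ψ : D.Ψ.eval₂ (evJN N ↥R) (D.r D.q₀) = 0 := by
  rw [Polynomial.eval₂_eq_eval_map, D.split, Polynomial.eval_prod]
  exact Finset.prod_eq_zero (Finset.mem_univ D.q₀) (by simp)

theorem root_Ψc : (Ψc D).eval₂ (evJN N ℂ) (x₀ D) = 0 := by
  rw [Ψc, x₀, ← coeffMap_eval₂, root_Ψ, map_zero]

theorem eq_zero_of_root_of_degree_lt (Q : ℂ[X][X]) (hQ : Q.eval₂ (evJN N ℂ) (x₀ D) = 0)
    (hdeg : Q.degree < (Ψc D).degree) : Q = 0 := by
  obtain ⟨ι, hι'⟩ : ∃ ι : RatFunc ℂ →+* LaurentSeries ℂ,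
      ∀ x, ι (algebraMap ℂ[X] (RatFunc ℂ) x) = evJN N ℂ x :=
    ⟨IsFractionRing.lift (evJN_injective N ℂ), IsFractionRing.lift_algebraMap _⟩
  have hι : ι.comp (algebraMap ℂ[X] (RatFunc ℂ)) = evJN N ℂ := RingHom.ext hι'
  have hainj : Function.Injective (algebraMap ℂ[X] (RatFunc ℂ)) := IsFractionRing.injective _ _
  have h1 : (Ψc D).map (algebraMap ℂ[X] (RatFunc ℂ)) ∣ Q.map (algebraMap ℂ[X] (RatFunc ℂ)) := by
    apply dvd_of_root ι (x₀ D) _ _ (irreducible_map D R.subtype)
    · rw [Polynomial.eval₂_map, hι]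
      exact root_Ψc D
    · rw [Polynomial.eval₂_map, hι, hQ]
  have h2 := Polynomial.eq_zero_of_dvd_of_degree_lt h1 (by
    rw [Polynomial.degree_map_eq_of_injective hainj, Polynomial.degree_map_eq_of_injective hainj]
    exact hdeg)
  exact (Polynomial.map_eq_zero_iff hainj).mp h2

/-- `Ψ` is invariant under all automorphisms of `ℂ`. -/
theorem Ψc_map (σ : ℂ →+* ℂ) : (Ψc D).map (Polynomial.mapRingHom σ) = Ψc D := by
  have hm : ((Ψc D).map (Polynomial.mapRingHom σ)).Monic := (monic_Ψc D).map _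
  have h1 : Ψc D - (Ψc D).map (Polynomial.mapRingHom σ) = 0 := by
    apply eq_zero_of_root_of_degree_lt D
    · rw [Polynomial.eval₂_sub, root_Ψc, zero_sub, neg_eq_zero]
      have := coeffMap_eval₂ N σ (Ψc D) (x₀ D)
      rw [root_Ψc, map_zero, coeffMap_x₀] at this
      exact this.symm
    · apply Polynomial.degree_sub_lt_left
      · rw [(monic_Ψc D).degree_map]
      · exact (monic_Ψc D).ne_zero
      · rw [(monic_Ψc D).leadingCoeff, hm.leadingCoeff]
  exact (sub_eq_zero.mp h1).symm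

end complex

/-! ## descent from `Rl ℓ` to `ℤ_(ℓ)` -/

theorem mem_range_kap (ℓ : ℕ) [Fact ℓ.Prime] (a : ↥(Rl ℓ)) (h : ∀ σ : ℂ →+* ℂ, σ (a : ℂ) = a) :
    a ∈ Set.range (kap ℓ) := by
  have h1 : (a : ℂ) ∈ Set.range ((↑) : ℚ → ℂ) := by
    by_contra hne
    obtain ⟨σ, hσ⟩ := S23.exists_ringEquiv_ne hne
    exact hσ (h (σ : ℂ →+* ℂ))
  obtain ⟨x, hx⟩ := h1
  have h2 : x ∈ GaloisRep.ratLocalizedAt ℓ := mem_of_ratCast_mem_Rl ℓ x (hx ▸ a.2)
  exact ⟨⟨x, h2⟩, Subtype.ext (by rw [kap_coe, ← hx])⟩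

theorem exists_lift (ℓ : ℕ) [Fact ℓ.Prime] (P : (↥(Rl ℓ))[X][X])
    (h : ∀ σ : ℂ →+* ℂ, (P.map (Polynomial.mapRingHom (Rl ℓ).subtype)).map
      (Polynomial.mapRingHom σ) = P.map (Polynomial.mapRingHom (Rl ℓ).subtype)) :
    ∃ P' : (Zl ℓ)[X][X], P'.map (Polynomial.mapRingHom (kap ℓ)) = P := by
  rw [← Polynomial.mem_lifts, Polynomial.lifts_iff_coeff_lifts]
  intro n
  have h1 : P.coeff n ∈ Polynomial.lifts (kap ℓ) := by
    rw [Polynomial.lifts_iff_coeff_lifts]
    intro m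
    apply mem_range_kap
    intro σ
    have h2 := congrArg (fun p => (p.coeff n).coeff m) (h σ)
    simpa [Polynomial.coeff_map] using h2
  obtain ⟨p, hp⟩ := (Polynomial.mem_lifts _).mp h1
  exact ⟨p, hp⟩

/-! ## from `t = q_N` back to `q` -/

/-- `p ↦ p(j(q))`. -/
noncomputable def ev1 (A : Type) [CommRing A] : A[X] →+* LaurentSeries A :=
  Polynomial.eval₂RingHom HahnSeries.C (jqModC A)

/-- change of coefficients followed by `q ↦ t^N`. -/
noncomputable def Th (N : ℕ) [NeZero N] {A B : Type} [CommRing A] [CommRing B] (f : A →+* B) :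
    LaurentSeries A →+* LaurentSeries B :=
  (qExpand B N).comp (coeffMap f)

theorem Th_apply (N : ℕ) [NeZero N] {A B : Type} [CommRing A] [CommRing B] (f : A →+* B)
    (x : LaurentSeries A) : Th N f x = qExpand B N (coeffMap f x) := rfl

theorem Th_injective (N : ℕ) [NeZero N] {A B : Type} [CommRing A] [CommRing B] (f : A →+* B)
    (hf : Function.Injective f) : Function.Injective (Th N f) :=
  (qExpand_injective N).comp (coeffMap_injective f hf)

theorem Th_comp_ev1 (N : ℕ) [NeZero N] {A B : Type} [CommRing A] [CommRing B] (f : A →+* B) :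
    (Th N f).comp (ev1 A) = (evJN N B).comp (Polynomial.mapRingHom f) := by
  apply Polynomial.ringHom_ext
  · intro a
    simp [evJN, ev1, Th_apply]
  · simp [evJN, ev1, Th_apply, coeffMap_jqModC, JN]

theorem Th_eval₂ (N : ℕ) [NeZero N] {A B : Type} [CommRing A] [CommRing B] (f : A →+* B)
    (Q : A[X][X]) (x : LaurentSeries A) :
    Th N f (Q.eval₂ (ev1 A) x) =
      (Q.map (Polynomial.mapRingHom f)).eval₂ (evJN N B) (Th N f x) := by
  rw [Polynomial.hom_eval₂, Th_comp_ev1, Polynomial.eval₂_map]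

theorem coeffMap_comp_ev1 {A B : Type} [CommRing A] [CommRing B] (f : A →+* B) :
    (coeffMap f).comp (ev1 A) = (ev1 B).comp (Polynomial.mapRingHom f) := by
  apply Polynomial.ringHom_ext
  · intro a
    simp [ev1]
  · simp [ev1, coeffMap_jqModC]

theorem coeffMap_eval₂_ev1 {A B : Type} [CommRing A] [CommRing B] (f : A →+* B)
    (Q : A[X][X]) (x : LaurentSeries A) :
    coeffMap f (Q.eval₂ (ev1 A) x) =
      (Q.map (Polynomial.mapRingHom f)).eval₂ (ev1 B) (coeffMap f x) := by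
  rw [Polynomial.hom_eval₂, coeffMap_comp_ev1, Polynomial.eval₂_map]

/-! ## the Lagrange numerator -/

section lagrange

variable {N : ℕ} [NeZero N] {R : Subring ℂ} (D : AnData N R)

theorem eval₂_derivative_Ψ :
    (derivative D.Ψ).eval₂ (evJN N ↥R) (D.r D.q₀) =
      ∏ q ∈ Finset.univ.erase D.q₀, (D.r D.q₀ - D.r q) := by
  rw [Polynomial.eval₂_eq_eval_map, ← Polynomial.derivative_map, D.split, eval_derivative_prod]

theorem r_ne (q : Quo N) (hq : q ≠ D.q₀) : D.r D.q₀ ≠ D.r q := by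
  intro h
  have h1 : 0 ≤ (coeffMap R.subtype (D.r D.q₀)).order :=
    order_nonneg_of_const D.q₀ (evJN N ℂ) (fun a => by simp [evJN])
      (fun q => coeffMap R.subtype (D.r q)) (r_map_ne_zero D R.subtype) (r_map_order D R.subtype)
      _ (split_map D R.subtype) _ (const_map D R.subtype)
  have h2 := r_map_order D R.subtype q hq
  rw [← h] at h2
  omega

theorem eval₂_derivative_Ψ_ne_zero : (derivative D.Ψ).eval₂ (evJN N ↥R) (D.r D.q₀) ≠ 0 := by
  rw [eval₂_derivative_Ψ, Finset.prod_ne_zero_iff]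
  intro q hq
  exact sub_ne_zero.mpr (r_ne D q (Finset.ne_of_mem_erase hq))

/-- the reduced Lagrange numerator is invariant under all automorphisms of `ℂ`. -/
theorem exists_numerator (d : ℕ) [NeZero d] (hd : d ∣ N) : ∃ G : (↥R)[X][X],
    G.eval₂ (evJN N ↥R) (D.r D.q₀) = qExpand ↥R N (qExpand ↥R d (jqModC ↥R)) *
      (derivative D.Ψ).eval₂ (evJN N ↥R) (D.r D.q₀) ∧
    ∀ σ : ℂ →+* ℂ, (G.map (Polynomial.mapRingHom R.subtype)).map
      (Polynomial.mapRingHom σ) = G.map (Polynomial.mapRingHom R.subtype) := by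
  obtain ⟨G, hG⟩ := D.lagr d hd
  have h1 : (G %ₘ D.Ψ).eval₂ (evJN N ↥R) (D.r D.q₀) =
      qExpand ↥R N (qExpand ↥R d (jqModC ↥R)) *
        (derivative D.Ψ).eval₂ (evJN N ↥R) (D.r D.q₀) := by
    rw [eval₂_derivative_Ψ, ← hG]
    conv_rhs => rw [← Polynomial.modByMonic_add_div G D.Ψ]
    rw [Polynomial.eval₂_add, Polynomial.eval₂_mul, root_Ψ, zero_mul, add_zero]
  refine ⟨G %ₘ D.Ψ, h1, ?_⟩
  intro σ
  set G₁ := (G %ₘ D.Ψ).map (Polynomial.mapRingHom R.subtype) with hG₁
  have hdeg : G₁.degree < (Ψc D).degree := by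
    rw [Ψc, (monic_Ψ D).degree_map]
    exact lt_of_le_of_lt Polynomial.degree_map_le (Polynomial.degree_modByMonic_lt _ (monic_Ψ D))
  have h2 : G₁.eval₂ (evJN N ℂ) (x₀ D) = qExpand ℂ N (qExpand ℂ d (jqModC ℂ)) *
      (derivative (Ψc D)).eval₂ (evJN N ℂ) (x₀ D) := by
    rw [hG₁, x₀, ← coeffMap_eval₂, h1, map_mul, coeffMap_eval₂, coeffMap_qExpand,
      coeffMap_qExpand, coeffMap_jqModC, Ψc, Polynomial.derivative_map]
  have h3 : (G₁.map (Polynomial.mapRingHom σ)).eval₂ (evJN N ℂ) (x₀ D) =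
      qExpand ℂ N (qExpand ℂ d (jqModC ℂ)) * (derivative (Ψc D)).eval₂ (evJN N ℂ) (x₀ D) := by
    have h4 := coeffMap_eval₂ N σ G₁ (x₀ D)
    rw [coeffMap_x₀] at h4
    rw [← h4, h2, map_mul, coeffMap_eval₂, coeffMap_qExpand, coeffMap_qExpand, coeffMap_jqModC,
      coeffMap_x₀, ← Polynomial.derivative_map, Ψc_map]
  have h5 : G₁ - G₁.map (Polynomial.mapRingHom σ) = 0 := by
    apply eq_zero_of_root_of_degree_lt D
    · rw [Polynomial.eval₂_sub, h2, h3, sub_self]
    · exact lt_of_le_of_lt (Polynomial.degree_sub_le _ _)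
        (max_lt hdeg (lt_of_le_of_lt Polynomial.degree_map_le hdeg))
  exact (sub_eq_zero.mp h5).symm

end lagrange

/-! ## membership in the adjoined field -/

theorem eval₂_mem_adjoin (F : IntermediateField ℚ (LaurentSeries ℚ)) (hj : jq ∈ F)
    (x : LaurentSeries ℚ) (hx : x ∈ F) (P : ℚ[X][X]) : P.eval₂ (ev1 ℚ) x ∈ F := by
  have h1 : ∀ p : ℚ[X], ev1 ℚ p ∈ F := by
    intro p
    rw [ev1, Polynomial.coe_eval₂RingHom, Polynomial.eval₂_eq_sum_range]
    refine sum_mem fun i _ => mul_mem ?_ (pow_mem hj i)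
    have : (HahnSeries.C (p.coeff i) : LaurentSeries ℚ) =
        algebraMap ℚ (LaurentSeries ℚ) (p.coeff i) := by
      rw [algebraMap_apply_eq_single]
      rfl
    rw [this]
    exact F.algebraMap_mem _
  rw [Polynomial.eval₂_eq_sum_range]
  exact sum_mem fun i _ => mul_mem (h1 _) (pow_mem hx i)

/-! ## irreducibility mod `ℓ` -/

theorem irreducible_red (ℓ : ℕ) [Fact ℓ.Prime] {k : Type} [Field k] (π : ↥(Rl ℓ) →+* k)
    (hπ : π (ℓ : ↥(Rl ℓ)) = 0) (Ψ : (Zl ℓ)[X][X]) (hm : Ψ.Monic)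
    (h : Irreducible (((Ψ.map (Polynomial.mapRingHom (kap ℓ))).map (Polynomial.mapRingHom π)).map
      (algebraMap k[X] (RatFunc k)))) :
    Irreducible (Ψ.map ((algebraMap (ZMod ℓ)[X] (RatFunc (ZMod ℓ))).comp
      (Polynomial.mapRingHom (red ℓ)))) := by
  have : CharP k ℓ := (CharP.charP_iff_prime_eq_zero (Fact.out : ℓ.Prime)).mpr (by
    rw [← hπ, map_natCast])
  set θ : ZMod ℓ →+* k := ZMod.castHom dvd_rfl k with hθ
  have hcomp : π.comp (kap ℓ) = θ.comp (red ℓ) := Zl_ringHom_ext _ _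
  have hinj : Function.Injective ((algebraMap k[X] (RatFunc k)).comp (Polynomial.mapRingHom θ)) :=
    (IsFractionRing.injective k[X] (RatFunc k)).comp (Polynomial.map_injective θ θ.injective)
  obtain ⟨χ, hχ'⟩ : ∃ χ : RatFunc (ZMod ℓ) →+* RatFunc k,
      ∀ x, χ (algebraMap (ZMod ℓ)[X] (RatFunc (ZMod ℓ)) x) =
        ((algebraMap k[X] (RatFunc k)).comp (Polynomial.mapRingHom θ)) x :=
    ⟨IsFractionRing.lift hinj, IsFractionRing.lift_algebraMap hinj⟩
  have hχ : χ.comp (algebraMap (ZMod ℓ)[X] (RatFunc (ZMod ℓ))) =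
      (algebraMap k[X] (RatFunc k)).comp (Polynomial.mapRingHom θ) := RingHom.ext hχ'
  apply Polynomial.Monic.irreducible_of_irreducible_map χ _ (hm.map _)
  have h1 : (Ψ.map ((algebraMap (ZMod ℓ)[X] (RatFunc (ZMod ℓ))).comp
      (Polynomial.mapRingHom (red ℓ)))).map χ =
      ((Ψ.map (Polynomial.mapRingHom (kap ℓ))).map (Polynomial.mapRingHom π)).map
      (algebraMap k[X] (RatFunc k)) := by
    rw [Polynomial.map_map, Polynomial.map_map, Polynomial.map_map, ← RingHom.comp_assoc, hχ,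
      RingHom.comp_assoc, RingHom.comp_assoc]
    congr 2
    rw [Polynomial.mapRingHom_comp, Polynomial.mapRingHom_comp, hcomp]
  rw [h1]
  exact h

end RAT

open RAT in
theorem igusaData_of_anData (N : ℕ) [NeZero N] (ℓ : ℕ) [Fact ℓ.Prime] (hℓN : ¬ ℓ ∣ N)
    (D : AnData N (Rl ℓ)) : Nonempty (IgusaData N ℓ) := by
  obtain ⟨Ψ, hΨ⟩ := exists_lift ℓ D.Ψ (Ψc_map D)
  obtain ⟨k, _, π, hπ⟩ := exists_residue_Rl ℓ
  have hκ : Function.Injective (Polynomial.mapRingHom (kap ℓ)) :=
    Polynomial.map_injective _ (kap_injective ℓ)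
  have hm : Ψ.Monic := Polynomial.monic_of_injective hκ (hΨ ▸ monic_Ψ D)
  set u : LaurentSeries (Zl ℓ) := coeffMap (Int.castRingHom (Zl ℓ)) D.u with hu
  have hTu : Th N (kap ℓ) u = D.r D.q₀ := by
    rw [Th_apply, hu, coeffMap_coeffMap, D.r₀,
      RingHom.ext_int ((kap ℓ).comp (Int.castRingHom (Zl ℓ))) (Int.castRingHom ↥(Rl ℓ))]
  have hTinj := Th_injective N (kap ℓ) (kap_injective ℓ)
  refine ⟨⟨u, Ψ, hm, ?_, ?_, ?_⟩⟩
  · apply hTinj
    have := Th_eval₂ N (kap ℓ) Ψ u
    rw [hΨ, hTu, root_Ψ] at this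
    rw [map_zero]
    exact this
  · apply irreducible_red ℓ π hπ Ψ hm
    rw [hΨ]
    exact irreducible_map D π
  · intro d _ hd
    obtain ⟨G', hG', hσ⟩ := exists_numerator D d hd
    obtain ⟨G, hG⟩ := exists_lift ℓ G' hσ
    -- the identity over `ℤ_(ℓ)`
    have h1 : G.eval₂ (ev1 (Zl ℓ)) u = qExpand (Zl ℓ) d (jqModC (Zl ℓ)) *
        (derivative Ψ).eval₂ (ev1 (Zl ℓ)) u := by
      apply hTinj
      rw [map_mul, Th_eval₂, Th_eval₂, hTu, hG, ← Polynomial.derivative_map, hΨ, hG', Th_apply,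
        coeffMap_qExpand, coeffMap_jqModC]
    have h2 : (derivative Ψ).eval₂ (ev1 (Zl ℓ)) u ≠ 0 := by
      intro h
      apply eval₂_derivative_Ψ_ne_zero D
      have := Th_eval₂ N (kap ℓ) (derivative Ψ) u
      rw [h, map_zero, hTu, ← Polynomial.derivative_map, hΨ] at this
      exact this.symm
    have hincl : Function.Injective (incl ℓ) := Subtype.val_injective
    -- the identity over `ℚ`
    have h3 := congrArg (coeffMap (incl ℓ)) h1
    rw [map_mul, coeffMap_eval₂_ev1, coeffMap_eval₂_ev1, coeffMap_qExpand, coeffMap_jqModC] at h3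
    have h4 : ((derivative Ψ).map (Polynomial.mapRingHom (incl ℓ))).eval₂ (ev1 ℚ)
        (coeffMap (incl ℓ) u) ≠ 0 := by
      rw [← coeffMap_eval₂_ev1]
      exact fun h => h2 (coeffMap_injective _ hincl (by rw [h, map_zero]))
    have h5 : qExpand ℚ d jq = (G.map (Polynomial.mapRingHom (incl ℓ))).eval₂ (ev1 ℚ)
        (coeffMap (incl ℓ) u) / ((derivative Ψ).map (Polynomial.mapRingHom (incl ℓ))).eval₂ (ev1 ℚ)
        (coeffMap (incl ℓ) u) := by
      rw [eq_div_iff h4]
      exact h3.symm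
    rw [h5]
    have hj : jq ∈ IntermediateField.adjoin ℚ {jq, coeffMap (incl ℓ) u} :=
      IntermediateField.subset_adjoin _ _ (by simp)
    have hx : coeffMap (incl ℓ) u ∈ IntermediateField.adjoin ℚ {jq, coeffMap (incl ℓ) u} :=
      IntermediateField.subset_adjoin _ _ (by simp)
    exact div_mem (eval₂_mem_adjoin _ hj _ hx _) (eval₂_mem_adjoin _ hj _ hx _)

end Fermat.Agent.S28
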