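import Mathlib
import Fermat.Agent.S28.ModDefs

set_option autoImplicit false
set_option maxHeartbeats 400000

/-! # S28 (MB): series and functions with coefficients in `R` -/

namespace Fermat.Agent.S28

open UpperHalfPlane ModularForm Matrix.SpecialLinearGroup ModularCurve Polynomial
open scoped MatrixGroups ModularForm Manifold
open Fermat.Agent.S20 (Quo sl)
open Fermat.Agent.S24 (Mer expInf jfun jdg Dv)

theorem mem_WR {R : Subring ℂ} {x : LaurentSeries ℂ} : x ∈ WR R ↔ ∀ n, x.coeff n ∈ R := by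
  constructor
  · rintro ⟨y, rfl⟩ n
    rw [coeffMap_coeff]
    exact (y.coeff n).2
  · intro h
    have hsupp : Function.support (fun n => (⟨x.coeff n, h n⟩ : ↥R)) ⊆ x.support := by
      intro n hn
      rw [Function.mem_support] at hn
      rw [HahnSeries.mem_support]
      exact fun h0 => hn (Subtype.ext h0)
    refine ⟨⟨fun n => ⟨x.coeff n, h n⟩, x.isPWO_support.mono hsupp⟩, ?_⟩
    ext n
    rfl

theorem mem_RMer {N : ℕ} [NeZero N] {R : Subring ℂ} {s : ℍ → ℂ} :
    s ∈ RMer N R ↔ ∃ hs : s ∈ Mer N, expInf N ⟨s, hs⟩ ∈ WR R := by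
  constructor
  · rintro ⟨f, hf, rfl⟩
    exact ⟨f.2, hf⟩
  · rintro ⟨hs, h⟩
    exact ⟨⟨s, hs⟩, h, rfl⟩

theorem RMer_le_Mer {N : ℕ} [NeZero N] {R : Subring ℂ} {s : ℍ → ℂ} (hs : s ∈ RMer N R) :
    s ∈ Mer N := (mem_RMer.mp hs).1

theorem coeffMap_subtype_injective (R : Subring ℂ) : Function.Injective (coeffMap R.subtype) := by
  intro x y h
  ext n
  have := congrArg (fun z => z.coeff n) h
  simp only [coeffMap_coeff] at this
  exact congrArg Subtype.val (R.subtype_injective this)

theorem order_coeffMap_subtype (R : Subring ℂ) (x : LaurentSeries ↥R) :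
    (coeffMap R.subtype x).order = x.order := by
  by_cases hx : x = 0
  · rw [hx, map_zero, HahnSeries.order_zero, HahnSeries.order_zero]
  · have hx' : coeffMap R.subtype x ≠ 0 := fun h =>
      hx (coeffMap_subtype_injective R (by rw [h, map_zero]))
    apply le_antisymm
    · apply HahnSeries.order_le_of_coeff_ne_zero
      rw [coeffMap_coeff]
      intro h
      exact hx (HahnSeries.coeff_order_eq_zero.mp (R.subtype_injective (by rw [h, map_zero])))
    · apply HahnSeries.order_le_of_coeff_ne_zero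
      intro h
      apply hx'
      apply HahnSeries.coeff_order_eq_zero.mp
      rw [coeffMap_coeff, h, map_zero]

namespace WRaux

theorem exists_expR {N : ℕ} [NeZero N] {R : Subring ℂ} (f : ↥(RMer N R)) :
    ∃ y : LaurentSeries ↥R, coeffMap R.subtype y = expInf N ⟨f.1, RMer_le_Mer f.2⟩ :=
  (mem_RMer.mp f.2).2

end WRaux

open WRaux

/-- the expansion, as a series over `R`. -/
noncomputable def expR (N : ℕ) [NeZero N] (R : Subring ℂ) : ↥(RMer N R) →+* LaurentSeries ↥R where
  toFun f := (exists_expR f).choose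
  map_one' := by
    apply coeffMap_subtype_injective R
    rw [(exists_expR (1 : ↥(RMer N R))).choose_spec, map_one]
    exact map_one (expInf N)
  map_mul' f g := by
    apply coeffMap_subtype_injective R
    rw [(exists_expR (f * g)).choose_spec, map_mul, (exists_expR f).choose_spec,
      (exists_expR g).choose_spec, ← map_mul]
    rfl
  map_zero' := by
    apply coeffMap_subtype_injective R
    rw [(exists_expR (0 : ↥(RMer N R))).choose_spec, map_zero]
    exact map_zero (expInf N)
  map_add' f g := by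
    apply coeffMap_subtype_injective R
    rw [(exists_expR (f + g)).choose_spec, map_add, (exists_expR f).choose_spec,
      (exists_expR g).choose_spec, ← map_add]
    rfl

theorem coeffMap_expR (N : ℕ) [NeZero N] (R : Subring ℂ) (f : ↥(RMer N R)) :
    coeffMap R.subtype (expR N R f) = expInf N ⟨f.1, RMer_le_Mer f.2⟩ :=
  (exists_expR f).choose_spec

theorem val_mem_RMer_of_mem_UG {N : ℕ} [NeZero N] {R : Subring ℂ} {f : (Mer N)ˣ} (hf : f ∈ UG N R) :
    f.1.1 ∈ RMer N R :=
  mem_RMer.mpr ⟨f.1.2, hf.1⟩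

theorem isUnit_expR_of_mem_UG {N : ℕ} [NeZero N] {R : Subring ℂ} {f : (Mer N)ˣ} (hf : f ∈ UG N R) :
    IsUnit (expR N R ⟨f.1.1, val_mem_RMer_of_mem_UG hf⟩) := by
  refine IsUnit.of_mul_eq_one (expR N R ⟨f⁻¹.1.1, val_mem_RMer_of_mem_UG (inv_mem hf)⟩) ?_
  rw [← map_mul, ← map_one (expR N R)]
  congr 1
  apply Subtype.ext
  have h : (f.1 * f⁻¹.1 : Mer N) = 1 := f.mul_inv
  have h' : ((f.1 * f⁻¹.1 : Mer N) : ℍ → ℂ) = ((1 : Mer N) : ℍ → ℂ) := by rw [h]
  exact h'

/-- a series over `ℂ` with integer coefficients, supported on the multiples of `N`. -/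
theorem exists_int_qExpand (N : ℕ) [NeZero N] (x : LaurentSeries ℂ)
    (h1 : x ∈ WR (Int.castRingHom ℂ).range) (h2 : ∀ n : ℤ, ¬ (N : ℤ) ∣ n → x.coeff n = 0) :
    ∃ u : LaurentSeries ℤ, x = qExpand ℂ N (coeffMap (Int.castRingHom ℂ) u) := by
  have h3 : ∀ n, ∃ c : ℤ, (c : ℂ) = x.coeff n := fun n => mem_WR.mp h1 n
  choose c hc using h3
  have hN : (1 : ℤ) ≤ N := by exact_mod_cast Nat.pos_of_ne_zero (NeZero.ne N)
  have hb : BddBelow (Function.support fun k : ℤ => c ((N : ℤ) * k)) := by
    refine ⟨min x.order 0, fun k hk => ?_⟩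
    rw [Function.mem_support] at hk
    by_contra hlt
    rw [not_le, lt_min_iff] at hlt
    apply hk
    have h4 : x.coeff ((N : ℤ) * k) = 0 := by
      apply HahnSeries.coeff_eq_zero_of_lt_order
      nlinarith [hlt.1, hlt.2]
    have h5 := hc ((N : ℤ) * k)
    rw [h4] at h5
    exact_mod_cast h5
  refine ⟨HahnSeries.ofSuppBddBelow _ hb, ?_⟩
  ext n
  by_cases hn : (N : ℤ) ∣ n
  · obtain ⟨k, rfl⟩ := hn
    rw [qExpand_coeff_mul, coeffMap_coeff]
    exact (hc _).symm
  · rw [qExpand_coeff_of_not_dvd N _ hn, h2 n hn]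

end Fermat.Agent.S28
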