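import Mathlib
import Fermat.Agent.S28.WR
import Fermat.Agent.S24.JOrder
import Fermat.Prelude.Thm_ModularCurve_coeffMap_qExpand
import Fermat.Prelude.Thm_ModularCurve_coeff_jqModC_pow_self
import Fermat.Prelude.Thm_ModularCurve_coeff_jqModC_pow_of_lt

set_option autoImplicit false
set_option maxHeartbeats 400000

/-! # S28 (MC): level one functions with expansion over `R` are polynomials in `j` over `R` -/

namespace Fermat.Agent.S28

open UpperHalfPlane ModularForm Matrix.SpecialLinearGroup ModularCurve Polynomial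
open scoped MatrixGroups ModularForm Manifold
open Fermat.Agent.S20 (Quo sl)
open Fermat.Agent.S24 (Mer expInf jfun)

namespace L1

theorem coeffMap_jqModC {A B : Type} [CommRing A] [CommRing B] (f : A →+* B) :
    coeffMap f (jqModC A) = jqModC B := map_jqModC f

theorem coeffMap_JN (N : ℕ) [NeZero N] {A B : Type} [CommRing A] [CommRing B] (f : A →+* B) :
    coeffMap f (JN N A) = JN N B := by
  rw [JN, JN, coeffMap_qExpand, coeffMap_jqModC]

theorem expInf_jfun_eq (N : ℕ) [NeZero N] :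
    expInf N ⟨jfun, S24.jfun_mem_Mer_level N⟩ = JN N ℂ := by
  rw [S24.expInf_jfun_level, S24.JNf, coeffEmb, coeffMap_coeffMap, coeffMap_qExpand, JN,
    ← jqModC_rat, coeffMap_jqModC]

theorem JN_pow (N : ℕ) [NeZero N] (A : Type) [CommRing A] (k : ℕ) :
    JN N A ^ k = qExpand A N (jqModC A ^ k) := by
  rw [JN, map_pow]

theorem JN_pow_coeff_self (N : ℕ) [NeZero N] (A : Type) [CommRing A] (k : ℕ) :
    (JN N A ^ k).coeff (-((N : ℤ) * k)) = 1 := by
  rw [JN_pow, show -((N : ℤ) * k) = (N : ℤ) * (-(k : ℤ)) by ring, qExpand_coeff_mul,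
    coeff_jqModC_pow_self]

theorem JN_pow_coeff_of_lt (N : ℕ) [NeZero N] (A : Type) [CommRing A] (k : ℕ) (n : ℤ)
    (hn : n < -((N : ℤ) * k)) : (JN N A ^ k).coeff n = 0 := by
  rw [JN_pow]
  by_cases hd : (N : ℤ) ∣ n
  · obtain ⟨m, rfl⟩ := hd
    have hN : (0 : ℤ) < N := by exact_mod_cast Nat.pos_of_ne_zero (NeZero.ne N)
    rw [qExpand_coeff_mul, coeff_jqModC_pow_of_lt]
    nlinarith
  · rw [qExpand_coeff_of_not_dvd N _ hd]

theorem JN_pow_coeff_of_not_dvd (N : ℕ) [NeZero N] (A : Type) [CommRing A] (k : ℕ) (n : ℤ)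
    (hn : ¬ (N : ℤ) ∣ n) : (JN N A ^ k).coeff n = 0 := by
  rw [JN_pow, qExpand_coeff_of_not_dvd N _ hn]

theorem JN_pow_mem_WR (N : ℕ) [NeZero N] (R : Subring ℂ) (k : ℕ) : JN N ℂ ^ k ∈ WR R :=
  ⟨JN N ↥R ^ k, by rw [map_pow, coeffMap_JN]⟩

theorem single_mem_WR (R : Subring ℂ) (n : ℤ) {c : ℂ} (hc : c ∈ R) :
    HahnSeries.single n c ∈ WR R :=
  ⟨HahnSeries.single n ⟨c, hc⟩, by rw [coeffMap_single]; rfl⟩

theorem const_mem_RMer (N : ℕ) [NeZero N] (R : Subring ℂ) {c : ℂ} (hc : c ∈ R) :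
    (fun _ => c : ℍ → ℂ) ∈ RMer N R := by
  rw [mem_RMer]
  refine ⟨(Mer N).algebraMap_mem c, ?_⟩
  have e : (⟨fun _ => c, (Mer N).algebraMap_mem c⟩ : Mer N) = algebraMap ℂ (Mer N) c := rfl
  rw [e, AlgHom.commutes, algebraMap_laurentSeries_eq_single]
  exact single_mem_WR R 0 hc

end L1

open L1

theorem jfun_mem_RMer (N : ℕ) [NeZero N] (R : Subring ℂ) : jfun ∈ RMer N R := by
  rw [mem_RMer]
  refine ⟨S24.jfun_mem_Mer_level N, ?_⟩
  rw [expInf_jfun_eq]
  simpa using JN_pow_mem_WR N R 1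

theorem expR_jfun (N : ℕ) [NeZero N] (R : Subring ℂ) :
    expR N R ⟨jfun, jfun_mem_RMer N R⟩ = JN N ↥R := by
  apply coeffMap_subtype_injective R
  rw [coeffMap_expR, coeffMap_JN]
  exact expInf_jfun_eq N

namespace L1

/-- constants. -/
noncomputable def constHom (N : ℕ) [NeZero N] (R : Subring ℂ) : ↥R →+* ↥(RMer N R) where
  toFun c := ⟨fun _ => (c : ℂ), const_mem_RMer N R c.2⟩
  map_one' := rfl
  map_mul' _ _ := rfl
  map_zero' := rfl
  map_add' _ _ := rfl

/-- `p ↦ p(j)` with values in `RMer N R`. -/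
noncomputable def evJ' (N : ℕ) [NeZero N] (R : Subring ℂ) : (↥R)[X] →+* ↥(RMer N R) :=
  Polynomial.eval₂RingHom (constHom N R) ⟨jfun, jfun_mem_RMer N R⟩

theorem subtype_comp_evJ' (N : ℕ) [NeZero N] (R : Subring ℂ) :
    (RMer N R).subtype.comp (evJ' N R) = evJ R := by
  apply Polynomial.ringHom_ext
  · intro c
    simp only [evJ', evJ, RingHom.comp_apply, Polynomial.coe_eval₂RingHom, Polynomial.eval₂_C,
      AlgHom.toRingHom_eq_coe, RingHom.coe_coe, Polynomial.aeval_C]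
    rfl
  · simp only [evJ', evJ, RingHom.comp_apply, Polynomial.coe_eval₂RingHom, Polynomial.eval₂_X,
      AlgHom.toRingHom_eq_coe, RingHom.coe_coe, Polynomial.aeval_X]
    rfl

theorem coe_evJ' (N : ℕ) [NeZero N] (R : Subring ℂ) (p : (↥R)[X]) :
    ((evJ' N R p : ↥(RMer N R)) : ℍ → ℂ) = evJ R p :=
  congrArg (fun f => f p) (subtype_comp_evJ' N R)

theorem expR_constHom (N : ℕ) [NeZero N] (R : Subring ℂ) (c : ↥R) :
    expR N R (constHom N R c) = HahnSeries.C c := by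
  apply coeffMap_subtype_injective R
  rw [coeffMap_expR]
  have e : (⟨(constHom N R c).1, RMer_le_Mer (constHom N R c).2⟩ : Mer N) =
      algebraMap ℂ (Mer N) (c : ℂ) := rfl
  rw [e, AlgHom.commutes, algebraMap_laurentSeries_eq_single]
  show _ = coeffMap R.subtype (HahnSeries.single 0 c)
  rw [coeffMap_single]
  rfl

theorem expR_comp_evJ' (N : ℕ) [NeZero N] (R : Subring ℂ) :
    (expR N R).comp (evJ' N R) = evJN N ↥R := by
  apply Polynomial.ringHom_ext
  · intro c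
    simp only [evJ', evJN, RingHom.comp_apply, Polynomial.coe_eval₂RingHom, Polynomial.eval₂_C]
    exact expR_constHom N R c
  · simp only [evJ', evJN, RingHom.comp_apply, Polynomial.coe_eval₂RingHom, Polynomial.eval₂_X]
    exact expR_jfun N R

end L1

theorem evJ_mem_RMer (N : ℕ) [NeZero N] (R : Subring ℂ) (p : (↥R)[X]) : evJ R p ∈ RMer N R := by
  rw [← coe_evJ' N R p]
  exact (evJ' N R p).2

theorem expR_evJ (N : ℕ) [NeZero N] (R : Subring ℂ) (p : (↥R)[X]) :
    expR N R ⟨evJ R p, evJ_mem_RMer N R p⟩ = evJN N ↥R p := by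
  have e : (⟨evJ R p, evJ_mem_RMer N R p⟩ : ↥(RMer N R)) = evJ' N R p :=
    Subtype.ext (coe_evJ' N R p).symm
  rw [e]
  exact congrArg (fun f => f p) (expR_comp_evJ' N R)

theorem evJ_apply (R : Subring ℂ) (p : (↥R)[X]) (z : ℍ) :
    evJ R p z = Polynomial.aeval (jfun z) p :=
  (Polynomial.aeval_algHom_apply (Pi.evalAlgHom ↥R (fun _ : ℍ => ℂ) z) jfun p).symm

theorem evJ_injective (R : Subring ℂ) : Function.Injective (evJ R) := by
  rw [injective_iff_map_eq_zero]
  intro p hp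
  have h1 : p.map R.subtype = 0 := by
    apply Polynomial.funext
    intro a
    obtain ⟨τ, rfl⟩ := S24.exists_jfun_eq a
    have h2 := congrFun hp τ
    rw [evJ_apply] at h2
    rw [Polynomial.eval_map, Polynomial.eval_zero]
    exact h2
  exact (Polynomial.map_eq_zero_iff R.subtype_injective).mp h1

namespace L1

theorem levelOne_base (N : ℕ) [NeZero N] (s : ℍ → ℂ) (hs : s ∈ Mer N)
    (hinv : ∀ (γ : SL(2, ℤ)) (z : ℍ), s (γ • z) = s z)
    (hM : ∀ n : ℤ, n < 0 → (expInf N ⟨s, hs⟩).coeff n = 0) :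
    ∀ z, s z = (expInf N ⟨s, hs⟩).coeff 0 := by
  have hord : 0 ≤ (expInf N ⟨s, hs⟩).order := by
    by_cases h0 : expInf N ⟨s, hs⟩ = 0
    · rw [h0, HahnSeries.order_zero]
    · by_contra hlt
      rw [not_le] at hlt
      exact h0 (HahnSeries.coeff_order_eq_zero.mp (hM _ hlt))
  have hb : IsBoundedAtImInfty s := S24.isBoundedAtImInfty_of_order_nonneg N ⟨s, hs⟩ hord
  have hL : s ∈ S20.Ls 0 := by
    refine S20.mem_Ls_of hs.1 (fun γ => ?_) hb
    funext z
    rw [ModularForm.SL_slash_apply, hinv]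
    simp
  obtain ⟨c, hc⟩ := S20.exists_const_of_mem_Ls_zero hL
  have e : (⟨s, hs⟩ : Mer N) = algebraMap ℂ (Mer N) c := by
    apply Subtype.ext
    show s = _
    rw [hc]
    rfl
  have h1 : (expInf N ⟨s, hs⟩).coeff 0 = c := by
    rw [e, AlgHom.commutes, algebraMap_laurentSeries_eq_single, HahnSeries.coeff_single_same]
  intro z
  rw [h1, hc]

theorem levelOne_aux (N : ℕ) [NeZero N] (R : Subring ℂ) (M : ℕ) : ∀ (s : ℍ → ℂ) (hs : s ∈ Mer N)
    (_ : ∀ (γ : SL(2, ℤ)) (z : ℍ), s (γ • z) = s z)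
    (_ : expInf N ⟨s, hs⟩ ∈ WR R)
    (_ : ∀ n : ℤ, n < -((N : ℤ) * M) → (expInf N ⟨s, hs⟩).coeff n = 0),
    ∃ p : (↥R)[X], ∀ z, s z = Polynomial.aeval (jfun z) p := by
  induction M with
  | zero =>
    intro s hs hinv hR hM
    refine ⟨Polynomial.C ⟨_, mem_WR.mp hR 0⟩, fun z => ?_⟩
    rw [levelOne_base N s hs hinv (fun n hn => hM n (by simpa using hn)) z, Polynomial.aeval_C]
    rfl
  | succ M ih =>
    intro s hs hinv hR hM
    have hN : (0 : ℤ) < N := by exact_mod_cast Nat.pos_of_ne_zero (NeZero.ne N)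
    set x := expInf N ⟨s, hs⟩ with hx
    set a : ℂ := x.coeff (-((N : ℤ) * (M + 1 : ℕ))) with ha
    have haR : a ∈ R := mem_WR.mp hR _
    set jN : Mer N := ⟨jfun, S24.jfun_mem_Mer_level N⟩ with hjN
    set s' : Mer N := ⟨s, hs⟩ - algebraMap ℂ (Mer N) a * jN ^ (M + 1) with hs'
    have hval : ∀ z, s'.1 z = s z - a * jfun z ^ (M + 1) := fun z => rfl
    have hE : expInf N ⟨s'.1, s'.2⟩ = x - HahnSeries.single 0 a * JN N ℂ ^ (M + 1) := by
      show expInf N s' = _
      rw [hs', map_sub, map_mul, map_pow, AlgHom.commutes, expInf_jfun_eq,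
        algebraMap_laurentSeries_eq_single]
    have hper : ∀ n : ℤ, ¬ (N : ℤ) ∣ n → x.coeff n = 0 := by
      intro n hn
      apply S24.expInf_coeff_eq_zero_of_periodic N _ _ n hn
      intro z
      show s ((1 : ℝ) +ᵥ z) = s z
      rw [← UpperHalfPlane.modular_T_smul, hinv]
    obtain ⟨p, hp⟩ := ih s'.1 s'.2 (fun γ z => by rw [hval, hval, hinv, S24.jfun_smul_aux])
      (by
        rw [hE]
        exact sub_mem hR (mul_mem (single_mem_WR R 0 haR) (JN_pow_mem_WR N R _)))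
      (by
        intro n hn
        rw [hE, HahnSeries.coeff_sub, HahnSeries.coeff_single_mul, sub_zero]
        rcases lt_trichotomy n (-((N : ℤ) * (M + 1 : ℕ))) with h | h | h
        · rw [hM n h, JN_pow_coeff_of_lt N ℂ _ n h]; ring
        · rw [h, JN_pow_coeff_self, ← ha]; ring
        · have hnd : ¬ (N : ℤ) ∣ n := by
            rintro ⟨k, rfl⟩
            push_cast at h
            have h1 : -((M : ℤ) + 1) < k := by nlinarith
            have h2 : k < -(M : ℤ) := by nlinarith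
            omega
          rw [hper n hnd, JN_pow_coeff_of_not_dvd N ℂ _ n hnd]; ring)
    refine ⟨p + Polynomial.C ⟨a, haR⟩ * Polynomial.X ^ (M + 1), fun z => ?_⟩
    rw [map_add, map_mul, map_pow, Polynomial.aeval_C, Polynomial.aeval_X, ← hp z, hval]
    show s z = s z - a * jfun z ^ (M + 1) + a * jfun z ^ (M + 1)
    ring

end L1

theorem levelOne_int (N : ℕ) [NeZero N] (R : Subring ℂ) (s : ℍ → ℂ) (hs : s ∈ RMer N R)
    (hinv : ∀ (γ : SL(2, ℤ)) (z : ℍ), s (γ • z) = s z) : ∃ p : (↥R)[X], evJ R p = s := by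
  obtain ⟨hs1, hs2⟩ := mem_RMer.mp hs
  obtain ⟨p, hp⟩ := levelOne_aux N R (-(expInf N ⟨s, hs1⟩).order).toNat s hs1 hinv hs2
    (fun n hn => by
      apply HahnSeries.coeff_eq_zero_of_lt_order
      have hN : (1 : ℤ) ≤ N := by exact_mod_cast Nat.pos_of_ne_zero (NeZero.ne N)
      have h1 : -(expInf N ⟨s, hs1⟩).order ≤ ((-(expInf N ⟨s, hs1⟩).order).toNat : ℤ) :=
        Int.self_le_toNat _
      have h2 : (0 : ℤ) ≤ ((-(expInf N ⟨s, hs1⟩).order).toNat : ℤ) := Int.natCast_nonneg _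
      nlinarith)
  refine ⟨p, ?_⟩
  funext z
  rw [evJ_apply, hp z]

end Fermat.Agent.S28
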