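import Mathlib
import Fermat.Agent.S28.LevelOneInt

set_option autoImplicit false
set_option maxHeartbeats 400000

/-! # S28 (MH): symmetric functions of the conjugates -/

namespace Fermat.Agent.S28

open UpperHalfPlane ModularForm Matrix.SpecialLinearGroup ModularCurve Polynomial
open scoped MatrixGroups ModularForm Manifold
open Fermat.Agent.S20 (Quo sl)
open Fermat.Agent.S24 (Mer expInf jfun jdg Dv)

theorem conj_mk (N : ℕ) [NeZero N] (g : ℍ → ℂ)
    (hg : ∀ δ ∈ CongruenceSubgroup.Gamma0 N, ∀ z, g (δ • z) = g z) (γ : SL(2, ℤ)) :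
    conj N g (QuotientGroup.mk (sl γ) : Quo N) = fun z => g (γ⁻¹ • z) := by
  funext z
  unfold conj
  set δ := (S20.exists_mk (QuotientGroup.mk (sl γ) : Quo N)).choose with hδ
  have h1 : (QuotientGroup.mk (sl γ) : Quo N) = QuotientGroup.mk (sl δ) :=
    (S20.exists_mk (QuotientGroup.mk (sl γ) : Quo N)).choose_spec
  rw [S20.mk_eq_mk_iff] at h1
  have h2 : δ⁻¹ = (γ⁻¹ * δ)⁻¹ * γ⁻¹ := by group
  rw [h2, mul_smul, hg _ (inv_mem h1)]

theorem conj_smul (N : ℕ) [NeZero N] (g : ℍ → ℂ)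
    (hg : ∀ δ ∈ CongruenceSubgroup.Gamma0 N, ∀ z, g (δ • z) = g z) (q : Quo N) (γ : SL(2, ℤ))
    (z : ℍ) : conj N g q (γ • z) = conj N g (sl γ⁻¹ • q) z := by
  obtain ⟨δ, rfl⟩ := S20.exists_mk q
  rw [S20.sl_smul_mk, conj_mk N g hg, conj_mk N g hg]
  show g (δ⁻¹ • γ • z) = g ((γ⁻¹ * δ)⁻¹ • z)
  rw [← mul_smul]
  congr 2
  group

theorem compHom_conj (N : ℕ) [NeZero N] (g : ℍ → ℂ)
    (hg : ∀ δ ∈ CongruenceSubgroup.Gamma0 N, ∀ z, g (δ • z) = g z) (q : Quo N) (γ : SL(2, ℤ)) :
    S24.Intg.compHom γ (conj N g q) = conj N g (sl γ⁻¹ • q) := by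
  funext z
  rw [S24.Intg.compHom_apply, conj_smul N g hg]

/-- a polynomial whose coefficients are level one functions with expansions over `R` comes from
`R[j][X]`. -/
theorem descend (N : ℕ) [NeZero N] (R : Subring ℂ) (P : (ℍ → ℂ)[X])
    (hmem : ∀ i, P.coeff i ∈ RMer N R)
    (hinv : ∀ γ : SL(2, ℤ), P.map (S24.Intg.compHom γ) = P) :
    ∃ P₀ : (↥R)[X][X], P₀.map (evJ R) = P := by
  have h1 : ∀ i, ∃ p : (↥R)[X], evJ R p = P.coeff i := by
    intro i
    refine levelOne_int N R _ (hmem i) (fun γ z => ?_)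
    conv_rhs => rw [← hinv γ, Polynomial.coeff_map]
    rfl
  choose p hp using h1
  refine ⟨∑ i ∈ Finset.range (P.natDegree + 1), Polynomial.monomial i (p i), ?_⟩
  rw [Polynomial.map_sum]
  conv_rhs => rw [P.as_sum_range]
  refine Finset.sum_congr rfl fun i _ => ?_
  rw [Polynomial.map_monomial, hp]

/-- from identities between functions to identities between expansions. -/
theorem transfer_map (N : ℕ) [NeZero N] (R : Subring ℂ) (P₀ : (↥R)[X][X]) (P : (↥(RMer N R))[X])
    (h : P₀.map (evJ R) = P.map (RMer N R).subtype) :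
    P₀.map (evJN N ↥R) = P.map (expR N R) := by
  have h1 : P₀.map (L1.evJ' N R) = P := by
    apply Polynomial.map_injective (RMer N R).subtype (RMer N R).subtype_injective
    rw [Polynomial.map_map, L1.subtype_comp_evJ', h]
  rw [← h1, Polynomial.map_map, L1.expR_comp_evJ']

theorem prod_X_sub_C_conj_map (N : ℕ) [NeZero N] (g : ℍ → ℂ)
    (hg : ∀ δ ∈ CongruenceSubgroup.Gamma0 N, ∀ z, g (δ • z) = g z) (γ : SL(2, ℤ)) :
    (∏ q : Quo N, (X - C (conj N g q))).map (S24.Intg.compHom γ) =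
      ∏ q : Quo N, (X - C (conj N g q)) := by
  rw [Polynomial.map_prod]
  have h : ∀ q : Quo N, (X - C (conj N g q)).map (S24.Intg.compHom γ) =
      X - C (conj N g (sl γ⁻¹ • q)) := by
    intro q
    rw [Polynomial.map_sub, Polynomial.map_X, Polynomial.map_C, compHom_conj N g hg]
  rw [Finset.prod_congr rfl fun q _ => h q]
  exact Equiv.prod_comp (MulAction.toPerm (sl γ⁻¹ : 𝒮ℒ) : Equiv.Perm (Quo N))
    (fun q => X - C (conj N g q))

theorem prod_conj_smul (N : ℕ) [NeZero N] (g : ℍ → ℂ)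
    (hg : ∀ δ ∈ CongruenceSubgroup.Gamma0 N, ∀ z, g (δ • z) = g z) (γ : SL(2, ℤ)) (z : ℍ) :
    (∏ q : Quo N, conj N g q) (γ • z) = (∏ q : Quo N, conj N g q) z := by
  rw [Finset.prod_apply, Finset.prod_apply]
  rw [Finset.prod_congr rfl fun q _ => conj_smul N g hg q γ z]
  exact Equiv.prod_comp (MulAction.toPerm (sl γ⁻¹ : 𝒮ℒ) : Equiv.Perm (Quo N))
    (fun q => conj N g q z)

/-- the Lagrange interpolation polynomial is invariant. -/
theorem lagrange_conj_map (N : ℕ) [NeZero N] (g h : ℍ → ℂ)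
    (hg : ∀ δ ∈ CongruenceSubgroup.Gamma0 N, ∀ z, g (δ • z) = g z)
    (hh : ∀ δ ∈ CongruenceSubgroup.Gamma0 N, ∀ z, h (δ • z) = h z) (γ : SL(2, ℤ)) :
    (∑ q : Quo N, C (conj N h q) * ∏ q' ∈ Finset.univ.erase q, (X - C (conj N g q'))).map
        (S24.Intg.compHom γ) =
      ∑ q : Quo N, C (conj N h q) * ∏ q' ∈ Finset.univ.erase q, (X - C (conj N g q')) := by
  classical
  set e : Equiv.Perm (Quo N) := MulAction.toPerm (sl γ⁻¹ : 𝒮ℒ) with he
  rw [Polynomial.map_sum]
  have h1 : ∀ q : Quo N,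
      (C (conj N h q) * ∏ q' ∈ Finset.univ.erase q, (X - C (conj N g q'))).map
        (S24.Intg.compHom γ) =
      C (conj N h (e q)) * ∏ q' ∈ Finset.univ.erase (e q), (X - C (conj N g q')) := by
    intro q
    rw [Polynomial.map_mul, Polynomial.map_C, compHom_conj N h hh, Polynomial.map_prod]
    congr 1
    have h2 : ∀ q' : Quo N, (X - C (conj N g q')).map (S24.Intg.compHom γ) =
        X - C (conj N g (e q')) := by
      intro q'
      rw [Polynomial.map_sub, Polynomial.map_X, Polynomial.map_C, compHom_conj N g hg]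
      rfl
    rw [Finset.prod_congr rfl fun q' _ => h2 q']
    have h3 : Finset.univ.erase (e q) = (Finset.univ.erase q).map e.toEmbedding := by
      ext x
      simp only [Finset.mem_erase, Finset.mem_univ, and_true, Finset.mem_map,
        Equiv.coe_toEmbedding]
      constructor
      · intro hx
        exact ⟨e.symm x, fun hc => hx (by rw [← hc, Equiv.apply_symm_apply]),
          Equiv.apply_symm_apply e x⟩
      · rintro ⟨y, hy, rfl⟩ hc
        exact hy (e.injective hc)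
    rw [h3, Finset.prod_map]
    rfl
  rw [Finset.sum_congr rfl fun q _ => h1 q]
  exact Equiv.sum_comp e
    (fun q => C (conj N h q) * ∏ q' ∈ Finset.univ.erase q, (X - C (conj N g q')))

end Fermat.Agent.S28
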