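import Mathlib
import Fermat.Agent.S22.Hermite
import Fermat.Agent.S22.Translate

set_option autoImplicit false

/-! # S28 [HERM]: the Hermite normal form of `diag(N,1) γ`, with the value of the first coefficient -/

namespace Fermat.Agent.S28

open UpperHalfPlane ModularForm Matrix.SpecialLinearGroup
open scoped MatrixGroups ModularForm Manifold

theorem gcd_col_eq_one (γ : SL(2, ℤ)) : Int.gcd (γ 0 0) (γ 1 0) = 1 := by
  have hdet : γ 0 0 * γ 1 1 - γ 0 1 * γ 1 0 = 1 := by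
    have := γ.det_coe
    rw [Matrix.det_fin_two] at this
    exact this
  rw [← Int.isCoprime_iff_gcd_eq_one]
  exact ⟨γ 1 1, -γ 0 1, by linear_combination hdet⟩

/-- In any Hermite decomposition `diag(N,1) γ = γ' [a, b; 0, d]` one has `a = gcd(N, c)`. -/
theorem eq_gcd_of_tri_mul (N : ℕ) (hN : N ≠ 0) (γ γ' : SL(2, ℤ)) (a d : ℕ) (b : ℤ) (ha : a ≠ 0)
    (hd : d ≠ 0)
    (h : S22.tri N 1 0 hN one_ne_zero * mapGL ℝ γ = mapGL ℝ γ' * S22.tri a d b ha hd) :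
    a = Int.gcd N (γ 1 0) := by
  have hm := congrArg (fun M : GL (Fin 2) ℝ => (M : Matrix (Fin 2) (Fin 2) ℝ)) h
  have h00 := congrFun (congrFun hm 0) 0
  have h10 := congrFun (congrFun hm 1) 0
  simp [Matrix.mul_apply, Fin.sum_univ_two] at h00 h10
  have e00 : (N : ℤ) * γ 0 0 = γ' 0 0 * a := by exact_mod_cast h00
  have e10 : γ 1 0 = γ' 1 0 * a := by exact_mod_cast h10
  have h1 : Int.gcd ((N : ℤ) * γ 0 0) (γ 1 0) = Int.gcd N (γ 1 0) :=
    Int.gcd_mul_left_left_of_gcd_eq_one (gcd_col_eq_one γ)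
  rw [← h1, e00, e10, Int.gcd_mul_right, gcd_col_eq_one γ', one_mul, Int.natAbs_natCast]

/-- [HERM] Hermite normal form of `diag(N,1) * γ`, with `a = gcd(N, c)`. -/
theorem hermite_gcd (N : ℕ) (hN : N ≠ 0) (γ : SL(2, ℤ)) :
    ∃ (γ' : SL(2, ℤ)) (a d : ℕ) (b : ℤ) (ha : a ≠ 0) (hd : d ≠ 0), a * d = N ∧
      a = Int.gcd (N : ℤ) (γ 1 0) ∧
      S22.tri N 1 0 hN one_ne_zero * mapGL ℝ γ = mapGL ℝ γ' * S22.tri a d b ha hd := by
  obtain ⟨γ', a, d, b, ha, hd, h1, h2, -⟩ := Fermat.Agent.S22.hermite N hN γ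
  exact ⟨γ', a, d, b, ha, hd, h1, eq_gcd_of_tri_mul N hN γ γ' a d b ha hd h2, h2⟩

theorem disc_smul_aux (γ : SL(2, ℤ)) (z : ℍ) :
    ModularForm.discriminant (γ • z) = denom γ z ^ (12 : ℤ) * ModularForm.discriminant z := by
  have hmem : (mapGL ℝ γ : GL (Fin 2) ℝ) ∈ 𝒮ℒ := ⟨γ, rfl⟩
  exact SlashInvariantForm.slash_action_eqn'' CuspForm.discriminant hmem z

theorem disc_tri_smul (m : ℕ) (hm : m ≠ 0) (γ : SL(2, ℤ)) :
    ∃ (a d : ℕ) (b : ℤ) (ha : a ≠ 0) (hd : d ≠ 0), a * d = m ∧ a = Int.gcd (m : ℤ) (γ 1 0) ∧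
      ∀ z : ℍ, ModularForm.discriminant (S22.tri m 1 0 hm one_ne_zero • (γ • z)) /
          ModularForm.discriminant (γ • z) =
        ((d : ℂ)⁻¹) ^ 12 * (ModularForm.discriminant (S22.tri a d b ha hd • z) /
          ModularForm.discriminant z) := by
  obtain ⟨γ', a, d, b, ha, hd, had, hgcd, heq⟩ := hermite_gcd m hm γ
  refine ⟨a, d, b, ha, hd, had, hgcd, ?_⟩
  intro z
  have hd' : (d : ℂ) ≠ 0 := by exact_mod_cast hd
  have e1 : S22.tri m 1 0 hm one_ne_zero • (γ • z) = γ' • (S22.tri a d b ha hd • z) := by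
    change S22.tri m 1 0 hm one_ne_zero • (mapGL ℝ γ • z) = mapGL ℝ γ' • (S22.tri a d b ha hd • z)
    rw [← mul_smul, ← mul_smul, heq]
  have e2 : denom γ z = denom γ' ((S22.tri a d b ha hd • z : ℍ) : ℂ) * d := by
    have h1 := denom_cocycle_σ (S22.tri m 1 0 hm one_ne_zero) (mapGL ℝ γ) z
    have h2 := denom_cocycle_σ (mapGL ℝ γ') (S22.tri a d b ha hd) z
    rw [heq, h2, S22.denom_tri, S22.denom_tri, S22.σ_tri, Nat.cast_one, map_one, one_mul] at h1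
    exact h1.symm
  have hden : denom γ' ((S22.tri a d b ha hd • z : ℍ) : ℂ) ≠ 0 := denom_ne_zero _ _
  rw [e1, disc_smul_aux, disc_smul_aux, e2]
  have hz := ModularForm.discriminant_ne_zero z
  rw [show ((12 : ℤ)) = ((12 : ℕ) : ℤ) by norm_num, zpow_natCast, zpow_natCast]
  field_simp

end Fermat.Agent.S28
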