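import Mathlib

set_option autoImplicit false

/-! # S28 [NT]: two Möbius sums -/

namespace Fermat.Agent.S28

open ArithmeticFunction
open scoped ArithmeticFunction.Moebius

/-- removing a prime `r` from `m * r` does not change the gcd with `C` if `v_r(C) ≤ v_r(m)`. -/
theorem gcd_mul_prime_eq (m r C : ℕ) (hm : m ≠ 0) (hC : C ≠ 0) (hr : r.Prime)
    (h : C.factorization r ≤ m.factorization r) : Nat.gcd (m * r) C = Nat.gcd m C := by
  apply Nat.eq_of_factorization_eq (Nat.gcd_ne_zero_right hC) (Nat.gcd_ne_zero_right hC)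
  intro q
  rw [Nat.factorization_gcd (mul_ne_zero hm hr.ne_zero) hC, Nat.factorization_gcd hm hC,
    Nat.factorization_mul hm hr.ne_zero, hr.factorization]
  simp only [Finsupp.inf_apply, Finsupp.add_apply]
  by_cases hq : q = r
  · subst hq
    simp only [Finsupp.single_eq_same]
    omega
  · rw [Finsupp.single_eq_of_ne hq, add_zero]

/-- general form: the Möbius sum of any function of `gcd(N/e, C)` vanishes unless `N ∣ C`. -/
theorem sum_moebius_gcd {R : Type*} [Ring R] (F : ℕ → R) (N : ℕ) (hN : N ≠ 0) (C : ℕ)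
    (hC : ¬ N ∣ C) :
    ∑ e ∈ N.divisors, (μ e : R) * F (Nat.gcd (N / e) C) = 0 := by
  have hC0 : C ≠ 0 := by
    rintro rfl
    exact hC (dvd_zero N)
  obtain ⟨r, hr⟩ : ∃ r, C.factorization r < N.factorization r := by
    by_contra hcon
    push Not at hcon
    exact hC ((Nat.factorization_le_iff_dvd hN hC0).mp hcon)
  have hrp : r.Prime := by
    by_contra hnp
    rw [Nat.factorization_eq_zero_of_not_prime N hnp] at hr
    omega
  have hrN : r ∣ N := by
    apply Nat.dvd_of_factorization_pos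
    omega
  have hsub : ∑ e ∈ N.divisors, (μ e : R) * F (Nat.gcd (N / e) C) =
      ∑ e ∈ N.divisors.filter Squarefree, (μ e : R) * F (Nat.gcd (N / e) C) := by
    symm
    apply Finset.sum_filter_of_ne
    intro e _ hne
    by_contra hsq
    rw [moebius_eq_zero_of_not_squarefree hsq] at hne
    simp at hne
  rw [hsub]
  -- the basic cancellation
  have key : ∀ e, e ∣ N → ¬ r ∣ e → e * r ∣ N →
      (μ e : R) * F (Nat.gcd (N / e) C) + (μ (e * r) : R) * F (Nat.gcd (N / (e * r)) C) = 0 := by
    intro e he hre her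
    obtain ⟨m, hm⟩ := her
    have hm0 : m ≠ 0 := by
      rintro rfl
      exact hN (by simpa using hm)
    have he0 : e ≠ 0 := by
      rintro rfl
      exact hN (by simpa using hm)
    have hcop : Nat.Coprime e r := ((Nat.Prime.coprime_iff_not_dvd hrp).mpr hre).symm
    have h1 : N / (e * r) = m := by
      rw [hm]
      exact Nat.mul_div_cancel_left m (Nat.pos_of_ne_zero (mul_ne_zero he0 hrp.ne_zero))
    have h2 : N / e = m * r := by
      rw [hm, mul_assoc, mul_comm r m]
      exact Nat.mul_div_cancel_left _ (Nat.pos_of_ne_zero he0)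
    have h3 : N.factorization r = m.factorization r + 1 := by
      rw [hm, Nat.factorization_mul (mul_ne_zero he0 hrp.ne_zero) hm0,
        Nat.factorization_mul he0 hrp.ne_zero, hrp.factorization]
      simp only [Finsupp.add_apply, Finsupp.single_eq_same]
      rw [Nat.factorization_eq_zero_of_not_dvd hre]
      omega
    rw [h1, h2, gcd_mul_prime_eq m r C hm0 hC0 hrp (by omega),
      isMultiplicative_moebius.map_mul_of_coprime hcop, moebius_apply_prime hrp,
      Int.cast_mul, Int.cast_neg, Int.cast_one, mul_neg_one, neg_mul, add_neg_cancel]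
  refine Finset.sum_involution (fun e _ => if r ∣ e then e / r else e * r) ?_ ?_ ?_ ?_
  · intro e he
    rw [Finset.mem_filter, Nat.mem_divisors] at he
    obtain ⟨⟨heN, _⟩, hsq⟩ := he
    by_cases hre : r ∣ e
    · simp only [if_pos hre]
      obtain ⟨e', rfl⟩ := hre
      have hre' : ¬ r ∣ e' := by
        intro h
        have := hsq r (mul_dvd_mul_left r h)
        exact hrp.one_lt.ne' (Nat.isUnit_iff.mp this)
      rw [Nat.mul_div_cancel_left e' hrp.pos, add_comm, mul_comm r e']
      exact key e' (dvd_trans (Dvd.intro_left r rfl) heN) hre' (by rwa [mul_comm e' r])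
    · simp only [if_neg hre]
      have hcop : Nat.Coprime e r := ((Nat.Prime.coprime_iff_not_dvd hrp).mpr hre).symm
      exact key e heN hre (hcop.mul_dvd_of_dvd_of_dvd heN hrN)
  · intro e he _
    rw [Finset.mem_filter, Nat.mem_divisors] at he
    obtain ⟨⟨heN, _⟩, hsq⟩ := he
    have he0 : 0 < e := Nat.pos_of_ne_zero (by rintro rfl; exact hN (by simpa using heN))
    by_cases hre : r ∣ e
    · simp only [if_pos hre]
      exact (Nat.div_lt_self he0 hrp.one_lt).ne
    · simp only [if_neg hre]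
      have := hrp.one_lt
      intro h
      nlinarith
  · intro e he
    rw [Finset.mem_filter, Nat.mem_divisors] at he ⊢
    obtain ⟨⟨heN, _⟩, hsq⟩ := he
    by_cases hre : r ∣ e
    · simp only [if_pos hre]
      exact ⟨⟨dvd_trans (Nat.div_dvd_of_dvd hre) heN, hN⟩,
        hsq.squarefree_of_dvd (Nat.div_dvd_of_dvd hre)⟩
    · simp only [if_neg hre]
      have hcop : Nat.Coprime e r := ((Nat.Prime.coprime_iff_not_dvd hrp).mpr hre).symm
      exact ⟨⟨hcop.mul_dvd_of_dvd_of_dvd heN hrN, hN⟩,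
        (Nat.squarefree_mul hcop).mpr ⟨hsq, hrp.prime.squarefree⟩⟩
  · intro e he
    rw [Finset.mem_filter, Nat.mem_divisors] at he
    obtain ⟨⟨heN, _⟩, hsq⟩ := he
    by_cases hre : r ∣ e
    · simp only [if_pos hre]
      obtain ⟨e', rfl⟩ := hre
      have hre' : ¬ r ∣ e' := by
        intro h
        have := hsq r (mul_dvd_mul_left r h)
        exact hrp.one_lt.ne' (Nat.isUnit_iff.mp this)
      rw [Nat.mul_div_cancel_left e' hrp.pos, if_neg hre', mul_comm]
    · simp only [if_neg hre]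
      rw [if_pos (Dvd.intro_left e rfl), Nat.mul_div_cancel e hrp.pos]

/-- a sum over the divisors of `N` weighted by `μ` is a sum over the divisors of the radical. -/
theorem sum_divisors_radical {R : Type*} [Ring R] (G : ℕ → R) (N : ℕ) (hN : N ≠ 0) :
    ∑ e ∈ (UniqueFactorizationMonoid.radical N).divisors, (μ e : R) * G e =
      ∑ e ∈ N.divisors, (μ e : R) * G e := by
  apply Finset.sum_subset
  · exact Nat.divisors_subset_of_dvd hN UniqueFactorizationMonoid.radical_dvd_self
  · intro e he hne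
    rw [Nat.mem_divisors] at he hne
    by_cases hsq : Squarefree e
    · exfalso
      apply hne
      refine ⟨?_, UniqueFactorizationMonoid.radical_ne_zero⟩
      rw [Nat.radical_eq_prod_primeFactors]
      conv_lhs => rw [← Nat.prod_primeFactors_of_squarefree hsq]
      exact Finset.prod_dvd_prod_of_subset _ _ _ (Nat.primeFactors_mono he.1 hN)
    · rw [moebius_eq_zero_of_not_squarefree hsq]
      simp

/-- [NT1] -/
theorem sum_moebius_gcd_sq (N : ℕ) (hN : N ≠ 0) (c : ℤ) (hc : ¬ (N : ℤ) ∣ c) :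
    ∑ e ∈ N.divisors, ArithmeticFunction.moebius e *
      ((Int.gcd ((N / e : ℕ) : ℤ) c : ℕ) : ℤ) ^ 2 = 0 := by
  have h := sum_moebius_gcd (fun g => ((g : ℕ) : ℤ) ^ 2) N hN c.natAbs
    (by rwa [← Int.natCast_dvd])
  simp only [Int.cast_id] at h
  exact h

/-- [NT1], summed over the divisors of the radical. -/
theorem sum_moebius_gcd_sq_radical (N : ℕ) (hN : N ≠ 0) (c : ℤ) (hc : ¬ (N : ℤ) ∣ c) :
    ∑ e ∈ (UniqueFactorizationMonoid.radical N).divisors,
      (μ e : ℤ) * ((Int.gcd ((N / e : ℕ) : ℤ) c : ℕ) : ℤ) ^ 2 = 0 := by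
  have h0 := sum_divisors_radical (fun e => ((Int.gcd ((N / e : ℕ) : ℤ) c : ℕ) : ℤ) ^ 2) N hN
  simp only [Int.cast_id] at h0
  rw [h0]
  exact sum_moebius_gcd_sq N hN c hc

/-- the Möbius formula for the totient. -/
theorem sum_moebius_mul_div (n : ℕ) (hn : 0 < n) :
    ∑ e ∈ n.divisors, (μ e : ℤ) * ((n / e : ℕ) : ℤ) = (Nat.totient n : ℤ) := by
  have h := (sum_eq_iff_sum_mul_moebius_eq (R := ℤ) (f := fun n => (Nat.totient n : ℤ))
    (g := fun n => (n : ℤ))).mp (by
      intro n _
      rw [← Nat.cast_sum, Nat.sum_totient]) n hn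
  simp only [Int.cast_id] at h
  rw [← h, Nat.sum_divisorsAntidiagonal (fun i j => (μ i : ℤ) * (j : ℤ))]

/-- [NT2] -/
theorem sum_moebius_div_pos (N : ℕ) (hN : N ≠ 0) :
    0 < ∑ e ∈ N.divisors, ArithmeticFunction.moebius e * ((N / e : ℕ) : ℤ) := by
  rw [sum_moebius_mul_div N (Nat.pos_of_ne_zero hN)]
  exact_mod_cast Nat.totient_pos.mpr (Nat.pos_of_ne_zero hN)

theorem sum_moebius_radical_div (N : ℕ) :
    ∑ e ∈ (UniqueFactorizationMonoid.radical N).divisors,
      (μ e : ℤ) * ((UniqueFactorizationMonoid.radical N / e : ℕ) : ℤ) =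
      (Nat.totient (UniqueFactorizationMonoid.radical N) : ℤ) :=
  sum_moebius_mul_div _ (Nat.pos_of_ne_zero UniqueFactorizationMonoid.radical_ne_zero)

/-- [NT3] the order of the conjugates of the unit at the cusps other than `∞`. -/
theorem order_sum_neg (N : ℕ) (hN : N ≠ 0) (c : ℤ) (hc : ¬ (N : ℤ) ∣ c) (a d : ℕ → ℕ)
    (ha : ∀ e ∈ N.divisors, a e = Int.gcd ((N / e : ℕ) : ℤ) c)
    (had : ∀ e ∈ N.divisors, a e * d e = N / e) :
    ∑ e ∈ N.divisors, (ArithmeticFunction.moebius e * ((N / e : ℕ) : ℤ)) *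
      (((a e * (N / d e) : ℕ) : ℤ) - (N : ℤ)) < 0 := by
  have hNpos : (0 : ℤ) < N := by exact_mod_cast Nat.pos_of_ne_zero hN
  have key : ∀ e ∈ N.divisors, (ArithmeticFunction.moebius e * ((N / e : ℕ) : ℤ)) *
      (((a e * (N / d e) : ℕ) : ℤ) - (N : ℤ)) =
      (N : ℤ) * (ArithmeticFunction.moebius e * ((Int.gcd ((N / e : ℕ) : ℤ) c : ℕ) : ℤ) ^ 2) -
      (N : ℤ) * (ArithmeticFunction.moebius e * ((N / e : ℕ) : ℤ)) := by
    intro e he
    have heN : e ∣ N := (Nat.mem_divisors.mp he).1
    obtain ⟨m, hm⟩ := heN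
    have he0 : e ≠ 0 := by
      rintro rfl
      exact hN (by simpa using hm)
    have h1 : N / e = m := by
      rw [hm]
      exact Nat.mul_div_cancel_left m (Nat.pos_of_ne_zero he0)
    have h2 := had e he
    rw [h1] at h2
    have hd0 : d e ≠ 0 := by
      intro h
      rw [h, mul_zero] at h2
      exact hN (by rw [hm, ← h2, mul_zero])
    have h3 : N / d e = e * a e := by
      rw [hm, ← h2, ← mul_assoc]
      exact Nat.mul_div_cancel _ (Nat.pos_of_ne_zero hd0)
    rw [← ha e he, h3, h1]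
    have h4 : (N : ℤ) = (e : ℤ) * (m : ℤ) := by exact_mod_cast hm
    rw [h4]
    push_cast
    ring
  rw [Finset.sum_congr rfl key, Finset.sum_sub_distrib, ← Finset.mul_sum, ← Finset.mul_sum,
    sum_moebius_gcd_sq N hN c hc, mul_zero, zero_sub, neg_lt_zero]
  exact mul_pos hNpos (sum_moebius_div_pos N hN)

end Fermat.Agent.S28
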