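import Mathlib
import Fermat.Agent.S28.ModDefs

set_option autoImplicit false

/-! # S28 (MD): `f ↦ f((a z + b)/d)` on `Mer 1`, the unit `Δ` -/

namespace Fermat.Agent.S28

open UpperHalfPlane ModularForm Matrix.SpecialLinearGroup ModularCurve Polynomial Filter
open scoped MatrixGroups ModularForm Manifold
open Fermat.Agent.S24 (Mer expInf jfun)

namespace Tri

/-- membership in `WR R`, coefficientwise (private copy). -/
theorem mem_WR_iff {R : Subring ℂ} {x : LaurentSeries ℂ} : x ∈ WR R ↔ ∀ n, x.coeff n ∈ R := by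
  constructor
  · rintro ⟨y, rfl⟩ n
    rw [coeffMap_coeff]
    exact (y.coeff n).2
  · intro h
    refine ⟨⟨fun n => ⟨x.coeff n, h n⟩, ?_⟩, ?_⟩
    · refine x.isPWO_support.mono ?_
      intro n hn
      rw [Function.mem_support] at hn
      rw [HahnSeries.mem_support]
      intro h0
      exact hn (Subtype.ext h0)
    · ext n
      rfl

theorem single_mem_WR (R : Subring ℂ) (k : ℤ) : HahnSeries.single k (1 : ℂ) ∈ WR R := by
  rw [mem_WR_iff]
  intro n
  rw [HahnSeries.coeff_single]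
  split_ifs
  · exact one_mem R
  · exact zero_mem R

theorem ofPowerSeries_map_mem_WR (R : Subring ℂ) (p : PowerSeries ℤ) :
    HahnSeries.ofPowerSeries ℤ ℂ (p.map (Int.castRingHom ℂ)) ∈ WR R := by
  rw [mem_WR_iff]
  intro n
  rcases le_or_gt 0 n with hn | hn
  · lift n to ℕ using hn
    rw [HahnSeries.ofPowerSeries_apply_coeff, PowerSeries.coeff_map]
    exact intCast_mem R _
  · rw [ofPowerSeries_coeff_of_neg _ hn]
    exact zero_mem R

end Tri

/-- `f ↦ f ∘ tri a d b`. -/
noncomputable def triHom (N a d : ℕ) (b : ℤ) (ha : a ≠ 0) (hd : d ≠ 0) [NeZero N] (hdN : d ∣ N) :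
    Mer 1 →+* Mer N where
  toFun f := ⟨_, S24.comp_tri_mem_Mer N a d b ha hd hdN f⟩
  map_one' := rfl
  map_mul' _ _ := rfl
  map_zero' := rfl
  map_add' _ _ := rfl

theorem triHom_apply (N a d : ℕ) (b : ℤ) (ha : a ≠ 0) (hd : d ≠ 0) [NeZero N] (hdN : d ∣ N)
    (f : Mer 1) (z : ℍ) : (triHom N a d b ha hd hdN f).1 z = f.1 (S22.tri a d b ha hd • z) := rfl

theorem expInf_triHom_mem_WR (N a d : ℕ) (b : ℤ) (ha : a ≠ 0) (hd : d ≠ 0) [NeZero N] (hdN : d ∣ N)
    (R : Subring ℂ) (hω : Complex.exp (2 * Real.pi * Complex.I * b / d) ∈ R)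
    (hω' : (Complex.exp (2 * Real.pi * Complex.I * b / d))⁻¹ ∈ R)
    (f : Mer 1) (hf : expInf 1 f ∈ WR R) : expInf N (triHom N a d b ha hd hdN f) ∈ WR R := by
  rw [Tri.mem_WR_iff] at hf ⊢
  intro n
  by_cases hn : ((a * (N / d) : ℕ) : ℤ) ∣ n
  · obtain ⟨k, rfl⟩ := hn
    have h := S24.expInf_comp_tri_coeff_mul N a d b ha hd hdN f k
    have e : (expInf N (triHom N a d b ha hd hdN f)).coeff (((a * (N / d) : ℕ) : ℤ) * k) =
      Complex.exp (2 * Real.pi * Complex.I * b / d) ^ k * (expInf 1 f).coeff k := h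
    rw [e]
    refine mul_mem ?_ (hf k)
    rcases Int.eq_nat_or_neg k with ⟨m, rfl | rfl⟩
    · rw [zpow_natCast]
      exact pow_mem hω m
    · rw [zpow_neg, zpow_natCast, ← inv_pow]
      exact pow_mem hω' m
  · have h := S24.expInf_comp_tri_coeff_of_not_dvd N a d b ha hd hdN f n hn
    have e : (expInf N (triHom N a d b ha hd hdN f)).coeff n = 0 := h
    rw [e]
    exact zero_mem R

theorem expInf_triHom_one (N m : ℕ) [NeZero m] [NeZero N] (f : Mer 1) :
    expInf N (triHom N m 1 0 (NeZero.ne m) one_ne_zero (one_dvd N) f) =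
      qExpand ℂ N (qExpand ℂ m (expInf 1 f)) := by
  have : NeZero (N * m) := ⟨mul_ne_zero (NeZero.ne N) (NeZero.ne m)⟩
  rw [qExpand_qExpand]
  ext n
  have hs : ((m * (N / 1) : ℕ) : ℤ) = ((N * m : ℕ) : ℤ) := by
    rw [Nat.div_one, mul_comm]
  by_cases hn : ((N * m : ℕ) : ℤ) ∣ n
  · obtain ⟨k, rfl⟩ := hn
    have h := S24.expInf_comp_tri_coeff_mul N m 1 0 (NeZero.ne m) one_ne_zero (one_dvd N) f k
    rw [hs] at h
    rw [qExpand_coeff_mul]
    refine Eq.trans h ?_
    simp
  · have h := S24.expInf_comp_tri_coeff_of_not_dvd N m 1 0 (NeZero.ne m) one_ne_zero (one_dvd N) f n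
      (by rw [hs]; exact hn)
    rw [qExpand_coeff_of_not_dvd _ _ hn]
    exact h

namespace Tri

theorem inv_disc_mem_Mer : (fun z : ℍ => (ModularForm.discriminant z)⁻¹) ∈ Mer 1 := by
  refine ⟨?_, fun z => ?_, 1, ?_⟩
  · have h2 : MDiff (fun z : ℍ => ModularForm.discriminant z) := by
      have := S24.discMer.2.1
      have e : S24.discMer.1 = fun z : ℍ => ModularForm.discriminant z := funext S24.discMer_apply
      rwa [e] at this
    rw [UpperHalfPlane.mdifferentiable_iff] at h2 ⊢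
    exact (h2.inv fun z _ => discriminant_ne_zero _)
  · show (ModularForm.discriminant _)⁻¹ = _
    rw [S24.discriminant_vadd]
  · have h2 := S20.qParam_isBigO_discriminant
    obtain ⟨C, hC⟩ := h2.bound
    refine Asymptotics.IsBigO.of_bound C ?_
    filter_upwards [hC] with z hz
    rw [pow_one, norm_mul, norm_inv, ← div_eq_mul_inv,
      div_le_iff₀ (norm_pos_iff.mpr (discriminant_ne_zero z))]
    simpa [S24.qN] using hz

/-- `1 / Δ` in `Mer 1`. -/
noncomputable def invDisc : Mer 1 := ⟨_, inv_disc_mem_Mer⟩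

theorem discMer_mul_invDisc : S24.discMer * invDisc = 1 := by
  apply Subtype.ext
  funext z
  show S24.discMer.1 z * (ModularForm.discriminant z)⁻¹ = 1
  rw [S24.discMer_apply, mul_inv_cancel₀ (discriminant_ne_zero z)]

theorem expInf_discMer_eq : expInf 1 S24.discMer = HahnSeries.single 1 1 *
    HahnSeries.ofPowerSeries ℤ ℂ (dedekindEtaUnit.map (Int.castRingHom ℂ)) := by
  rw [S24.expInf_discMer, dedekindEtaUnit, map_pow, map_pow, S24.etaProd_eq_pentagonal,
    S24.pentagonal_map]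

theorem expInf_invDisc : expInf 1 invDisc = HahnSeries.single (-1) 1 *
    HahnSeries.ofPowerSeries ℤ ℂ (dedekindEtaUnitInv.map (Int.castRingHom ℂ)) := by
  have h1 : (HahnSeries.single (-1 : ℤ) (1 : ℂ)) * HahnSeries.single (1 : ℤ) (1 : ℂ) = 1 := by
    rw [HahnSeries.single_mul_single]
    simp
  have h2 := congrArg (PowerSeries.map (Int.castRingHom ℂ)) dedekindEtaUnit_mul_inv
  rw [map_mul, map_one] at h2
  have h3 := congrArg (HahnSeries.ofPowerSeries ℤ ℂ) h2
  rw [map_mul, map_one] at h3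
  have h4 := congrArg (expInf 1) discMer_mul_invDisc
  rw [map_mul, map_one, expInf_discMer_eq] at h4
  apply mul_left_cancel₀ S24.expInf_discMer_ne_zero
  rw [expInf_discMer_eq, h4]
  linear_combination (-1 : LaurentSeries ℂ) * h1 - (HahnSeries.single (-1 : ℤ) (1 : ℂ)) * HahnSeries.single (1 : ℤ) (1 : ℂ) * h3

end Tri

/-- `Δ` as a unit of `Mer 1`. -/
noncomputable def discU : (Mer 1)ˣ where
  val := S24.discMer
  inv := Tri.invDisc
  val_inv := Tri.discMer_mul_invDisc
  inv_val := by rw [mul_comm]; exact Tri.discMer_mul_invDisc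

theorem discU_apply (z : ℍ) : discU.1.1 z = ModularForm.discriminant z := S24.discMer_apply z

theorem discU_mem_UG (R : Subring ℂ) : discU ∈ UG 1 R := by
  refine ⟨?_, ?_⟩
  · show expInf 1 S24.discMer ∈ WR R
    rw [Tri.expInf_discMer_eq]
    exact mul_mem (Tri.single_mem_WR R 1) (Tri.ofPowerSeries_map_mem_WR R _)
  · show expInf 1 Tri.invDisc ∈ WR R
    rw [Tri.expInf_invDisc]
    exact mul_mem (Tri.single_mem_WR R (-1)) (Tri.ofPowerSeries_map_mem_WR R _)

namespace Tri

theorem coeff_expInf_discMer_one : (expInf 1 S24.discMer).coeff 1 = 1 := by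
  rw [expInf_discMer_eq]
  have h00 := HahnSeries.coeff_single_mul_add (r := (1 : ℂ))
    (x := HahnSeries.ofPowerSeries ℤ ℂ (dedekindEtaUnit.map (Int.castRingHom ℂ))) (a := (0 : ℤ))
    (b := (1 : ℤ))
  rw [zero_add] at h00
  rw [h00]
  have h0 := HahnSeries.ofPowerSeries_apply_coeff (Γ := ℤ) (dedekindEtaUnit.map (Int.castRingHom ℂ)) 0
  simp only [Nat.cast_zero] at h0
  rw [h0, PowerSeries.coeff_map, PowerSeries.coeff_zero_eq_constantCoeff,
    constantCoeff_dedekindEtaUnit]
  simp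

theorem coeff_expInf_discMer_of_le {k : ℤ} (hk : k ≤ 0) : (expInf 1 S24.discMer).coeff k = 0 := by
  rw [expInf_discMer_eq]
  have : k = (k - 1) + 1 := by ring
  rw [this, HahnSeries.coeff_single_mul_add, ofPowerSeries_coeff_of_neg _ (by omega), mul_zero]

end Tri

theorem order_expInf_triHom_discU (N a d : ℕ) (b : ℤ) (ha : a ≠ 0) (hd : d ≠ 0) [NeZero N]
    (hdN : d ∣ N) : (expInf N (triHom N a d b ha hd hdN discU.1)).order = ((a * (N / d) : ℕ) : ℤ) := by
  set x := expInf N (triHom N a d b ha hd hdN discU.1) with hx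
  have hspos : 0 < ((a * (N / d) : ℕ) : ℤ) := by
    have : 0 < N / d := Nat.div_pos (Nat.le_of_dvd (Nat.pos_of_ne_zero (NeZero.ne N)) hdN)
      (Nat.pos_of_ne_zero hd)
    exact_mod_cast Nat.mul_pos (Nat.pos_of_ne_zero ha) this
  have h1 : x.coeff ((a * (N / d) : ℕ) : ℤ) ≠ 0 := by
    have h := S24.expInf_comp_tri_coeff_mul N a d b ha hd hdN discU.1 1
    rw [mul_one] at h
    have e : x.coeff ((a * (N / d) : ℕ) : ℤ) =
      Complex.exp (2 * Real.pi * Complex.I * b / d) ^ (1 : ℤ) * (expInf 1 discU.1).coeff 1 := h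
    rw [e]
    have e2 : (expInf 1 discU.1).coeff 1 = 1 := Tri.coeff_expInf_discMer_one
    rw [e2, mul_one, zpow_one]
    exact Complex.exp_ne_zero _
  have hx0 : x ≠ 0 := by
    intro h0
    rw [h0] at h1
    exact h1 rfl
  apply le_antisymm (HahnSeries.order_le_of_coeff_ne_zero h1)
  rw [HahnSeries.le_order_iff_forall hx0]
  intro n hn
  by_cases hdvd : ((a * (N / d) : ℕ) : ℤ) ∣ n
  · obtain ⟨k, rfl⟩ := hdvd
    have h := S24.expInf_comp_tri_coeff_mul N a d b ha hd hdN discU.1 k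
    have e : x.coeff (((a * (N / d) : ℕ) : ℤ) * k) =
      Complex.exp (2 * Real.pi * Complex.I * b / d) ^ k * (expInf 1 discU.1).coeff k := h
    have hk : k ≤ 0 := by
      by_contra hk
      have : 1 ≤ k := by omega
      nlinarith
    have e2 : (expInf 1 discU.1).coeff k = 0 := Tri.coeff_expInf_discMer_of_le hk
    rw [e, e2, mul_zero]
  · exact S24.expInf_comp_tri_coeff_of_not_dvd N a d b ha hd hdN discU.1 n hdvd

end Fermat.Agent.S28
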