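import Mathlib
import Fermat.Agent.S28.ModDefs
import Fermat.Agent.S28.WR
import Fermat.Agent.S28.Tri
import Fermat.Agent.S28.NT
import Fermat.Agent.S28.Herm

set_option autoImplicit false
set_option linter.unusedSectionVars false

/-! # S28 (MG): the modular unit `u` and its conjugates -/

namespace Fermat.Agent.S28

open UpperHalfPlane ModularForm Matrix.SpecialLinearGroup ModularCurve Polynomial
open scoped MatrixGroups ModularForm Manifold
open Fermat.Agent.S20 (Quo sl)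
open Fermat.Agent.S24 (Mer expInf jfun jdg Dv)

namespace MG

variable (N : ℕ) [NeZero N]

/-- evaluation of a unit of `Mer N` at a point. -/
def evU (z : ℍ) : (Mer N)ˣ →* ℂ where
  toFun f := f.1.1 z
  map_one' := rfl
  map_mul' _ _ := rfl

theorem evU_apply (z : ℍ) (f : (Mer N)ˣ) : evU N z f = f.1.1 z := rfl

theorem expInf_unit_ne_zero (f : (Mer N)ˣ) : expInf N f.1 ≠ 0 :=
  (f.isUnit.map (expInf N)).ne_zero

/-- the order at infinity of a unit. -/
noncomputable def ordU : (Mer N)ˣ →* Multiplicative ℤ where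
  toFun f := Multiplicative.ofAdd (expInf N f.1).order
  map_one' := by
    rw [Units.val_one, map_one, HahnSeries.order_one]
    rfl
  map_mul' f g := by
    rw [Units.val_mul, map_mul,
      HahnSeries.order_mul (expInf_unit_ne_zero N f) (expInf_unit_ne_zero N g)]
    rfl

theorem ordU_apply (f : (Mer N)ˣ) : Multiplicative.toAdd (ordU N f) = (expInf N f.1).order := rfl

theorem ordU_mul (f g : (Mer N)ˣ) : Multiplicative.toAdd (ordU N (f * g)) =
    Multiplicative.toAdd (ordU N f) + Multiplicative.toAdd (ordU N g) := by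
  rw [MonoidHom.map_mul]
  rfl

theorem ordU_inv (f : (Mer N)ˣ) : Multiplicative.toAdd (ordU N f⁻¹) =
    - Multiplicative.toAdd (ordU N f) := by
  rw [MonoidHom.map_inv]
  rfl

/-- nonzero constants. -/
noncomputable def constU (c : ℂ) (hc : c ≠ 0) : (Mer N)ˣ :=
  Units.map (algebraMap ℂ (Mer N)).toMonoidHom (Units.mk0 c hc)

theorem constU_apply (c : ℂ) (hc : c ≠ 0) (z : ℍ) : (constU N c hc).1.1 z = c := rfl

theorem expInf_algebraMap (c : ℂ) : expInf N (algebraMap ℂ (Mer N) c) = HahnSeries.C c := by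
  rw [AlgHom.commutes, S24.algebraMap_laurent_eq_C]
  rfl

theorem C_mem_WR {R : Subring ℂ} {c : ℂ} (hc : c ∈ R) : (HahnSeries.C c : LaurentSeries ℂ) ∈ WR R := by
  rw [mem_WR]
  intro n
  rw [HahnSeries.C_apply, HahnSeries.coeff_single]
  split_ifs
  · exact hc
  · exact zero_mem R

theorem constU_mem_UG {R : Subring ℂ} (c : ℂ) (hc : c ≠ 0) (h1 : c ∈ R) (h2 : c⁻¹ ∈ R) :
    constU N c hc ∈ UG N R := by
  refine ⟨?_, ?_⟩
  · change expInf N (algebraMap ℂ (Mer N) c) ∈ WR R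
    rw [expInf_algebraMap]
    exact C_mem_WR h1
  · change expInf N (algebraMap ℂ (Mer N) c⁻¹) ∈ WR R
    rw [expInf_algebraMap]
    exact C_mem_WR h2

theorem ordU_constU (c : ℂ) (hc : c ≠ 0) : Multiplicative.toAdd (ordU N (constU N c hc)) = 0 := by
  rw [ordU_apply]
  change (expInf N (algebraMap ℂ (Mer N) c)).order = 0
  rw [expInf_algebraMap, HahnSeries.order_C]

/-- `z ↦ Δ((a z + b) / d)` as a unit of `Mer N`. -/
noncomputable def triU (a d : ℕ) (b : ℤ) (ha : a ≠ 0) (hd : d ≠ 0) (hdN : d ∣ N) : (Mer N)ˣ :=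
  Units.map (triHom N a d b ha hd hdN).toMonoidHom discU

theorem triU_apply (a d : ℕ) (b : ℤ) (ha : a ≠ 0) (hd : d ≠ 0) (hdN : d ∣ N) (z : ℍ) :
    (triU N a d b ha hd hdN).1.1 z = ModularForm.discriminant (S22.tri a d b ha hd • z) := by
  change (triHom N a d b ha hd hdN discU.1).1 z = _
  rw [triHom_apply, discU_apply]

theorem triU_mem_UG {R : Subring ℂ} (a d : ℕ) (b : ℤ) (ha : a ≠ 0) (hd : d ≠ 0) (hdN : d ∣ N)
    (hω : Complex.exp (2 * Real.pi * Complex.I * b / d) ∈ R)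
    (hω' : (Complex.exp (2 * Real.pi * Complex.I * b / d))⁻¹ ∈ R) :
    triU N a d b ha hd hdN ∈ UG N R := by
  refine ⟨?_, ?_⟩
  · exact expInf_triHom_mem_WR N a d b ha hd hdN R hω hω' discU.1 (discU_mem_UG R).1
  · exact expInf_triHom_mem_WR N a d b ha hd hdN R hω hω' discU⁻¹.1 (discU_mem_UG R).2

theorem ordU_triU (a d : ℕ) (b : ℤ) (ha : a ≠ 0) (hd : d ≠ 0) (hdN : d ∣ N) :
    Multiplicative.toAdd (ordU N (triU N a d b ha hd hdN)) = ((a * (N / d) : ℕ) : ℤ) :=
  order_expInf_triHom_discU N a d b ha hd hdN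

theorem exp_pow_eq_one (d : ℕ) (b : ℤ) (hd : d ≠ 0) (hdN : d ∣ N) :
    Complex.exp (2 * Real.pi * Complex.I * b / d) ^ N = 1 := by
  obtain ⟨k, hk⟩ := hdN
  have hd' : (d : ℂ) ≠ 0 := by exact_mod_cast hd
  rw [← Complex.exp_nat_mul, Complex.exp_eq_one_iff]
  refine ⟨b * k, ?_⟩
  rw [hk]
  push_cast
  field_simp

/-- the conjugate of `Δ(m z)/Δ(z)` by `γ`. -/
theorem exists_w_conj (R : Subring ℂ) (hR1 : ∀ ω : ℂ, ω ^ N = 1 → ω ∈ R)
    (hR2 : (N : ℂ)⁻¹ ∈ R) (γ : SL(2, ℤ)) (m : ℕ) (hm : m ≠ 0) (hmN : m ∣ N) :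
    ∃ (w : (Mer N)ˣ) (a d : ℕ), (∀ z, w.1.1 z = wfun m hm (γ • z)) ∧ w ∈ UG N R ∧
      a = Int.gcd (m : ℤ) (γ 1 0) ∧ a * d = m ∧
      Multiplicative.toAdd (ordU N w) = ((a * (N / d) : ℕ) : ℤ) - (N : ℤ) := by
  obtain ⟨a, d, b, ha, hd, had, hgcd, hz⟩ := disc_tri_smul m hm γ
  have hdN : d ∣ N := dvd_trans (Dvd.intro_left a had) hmN
  have hd' : (d : ℂ) ≠ 0 := by exact_mod_cast hd
  have hN' : (N : ℂ) ≠ 0 := by exact_mod_cast NeZero.ne N
  have hc : ((d : ℂ)⁻¹) ^ 12 ≠ 0 := pow_ne_zero _ (inv_ne_zero hd')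
  refine ⟨constU N (((d : ℂ)⁻¹) ^ 12) hc * triU N a d b ha hd hdN *
    (triU N 1 1 0 one_ne_zero one_ne_zero (one_dvd N))⁻¹, a, d, ?_, ?_, hgcd, had, ?_⟩
  · intro z
    rw [← evU_apply, map_mul, map_mul, map_inv, evU_apply, evU_apply, evU_apply, constU_apply,
      triU_apply, triU_apply, S24.tri_one_smul_L1, wfun, hz]
    ring
  · refine mul_mem (mul_mem ?_ ?_) (inv_mem ?_)
    · apply constU_mem_UG
      · apply pow_mem
        obtain ⟨k, hk⟩ := hdN
        have : (d : ℂ)⁻¹ = (k : ℂ) * (N : ℂ)⁻¹ := by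
          rw [hk]
          push_cast
          have hk' : (k : ℂ) ≠ 0 := by
            intro h
            apply hN'
            rw [hk]
            push_cast
            rw [h, mul_zero]
          field_simp
        rw [this]
        exact mul_mem (natCast_mem R k) hR2
      · rw [← inv_pow, inv_inv]
        exact pow_mem (natCast_mem R d) 12
    · apply triU_mem_UG
      · exact hR1 _ (exp_pow_eq_one N d b hd hdN)
      · apply hR1
        rw [inv_pow, exp_pow_eq_one N d b hd hdN, inv_one]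
    · apply triU_mem_UG
      · simp only [Int.cast_zero, mul_zero, zero_div, Complex.exp_zero]
        exact one_mem R
      · simp only [Int.cast_zero, mul_zero, zero_div, Complex.exp_zero, inv_one]
        exact one_mem R
  · rw [ordU_mul, ordU_mul, ordU_inv, ordU_constU, ordU_triU, ordU_triU]
    simp
    ring

theorem evU_prod_zpow (s : Finset ℕ) (w : ℕ → (Mer N)ˣ) (n : ℕ → ℤ) (z : ℍ) :
    (∏ e ∈ s, w e ^ n e).1.1 z = ∏ e ∈ s, (w e).1.1 z ^ n e := by
  rw [← evU_apply, map_prod]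
  refine Finset.prod_congr rfl fun e _ => ?_
  rw [map_zpow, evU_apply]

theorem ordU_prod_zpow (s : Finset ℕ) (w : ℕ → (Mer N)ˣ) (n : ℕ → ℤ) :
    (expInf N (∏ e ∈ s, w e ^ n e).1).order =
      ∑ e ∈ s, n e * Multiplicative.toAdd (ordU N (w e)) := by
  rw [← ordU_apply, map_prod, toAdd_prod]
  refine Finset.sum_congr rfl fun e _ => ?_
  rw [map_zpow, toAdd_zpow, smul_eq_mul]

theorem div_ne_zero_of_mem_divisors {e : ℕ} (he : e ∈ N.divisors) : N / e ≠ 0 := by
  have h := (Nat.mem_divisors.mp he)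
  exact (Nat.div_pos (Nat.le_of_dvd (Nat.pos_of_ne_zero h.2) h.1)
    (Nat.pos_of_dvd_of_pos h.1 (Nat.pos_of_ne_zero h.2))).ne'

theorem ufun_eq (z : ℍ) (F : ℕ → ℂ)
    (hF : ∀ e (he : e ∈ N.divisors), F e = wfun (N / e) (div_ne_zero_of_mem_divisors N he) z) :
    ∏ e ∈ N.divisors, F e ^ nexp N e = ufun N z := by
  rw [ufun]
  refine Finset.prod_congr rfl fun e he => ?_
  rw [hF e he, wfun', dif_pos (div_ne_zero_of_mem_divisors N he)]

end MG

open MG

theorem exists_unit_conj (N : ℕ) [NeZero N] (R : Subring ℂ) (hR1 : ∀ ω : ℂ, ω ^ N = 1 → ω ∈ R)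
    (hR2 : (N : ℂ)⁻¹ ∈ R) (γ : SL(2, ℤ)) :
    ∃ f : (Mer N)ˣ, (∀ z, f.1.1 z = ufun N (γ • z)) ∧ f ∈ UG N R ∧
      (γ ∉ CongruenceSubgroup.Gamma0 N → (expInf N f.1).order < 0) := by
  have H : ∀ e : ℕ, ∃ (w : (Mer N)ˣ) (a d : ℕ), ∀ he : e ∈ N.divisors,
      (∀ z, w.1.1 z = wfun (N / e) (div_ne_zero_of_mem_divisors N he) (γ • z)) ∧ w ∈ UG N R ∧
      a = Int.gcd ((N / e : ℕ) : ℤ) (γ 1 0) ∧ a * d = N / e ∧
      Multiplicative.toAdd (ordU N w) = ((a * (N / d) : ℕ) : ℤ) - (N : ℤ) := by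
    intro e
    by_cases he : e ∈ N.divisors
    · obtain ⟨w, a, d, h⟩ := exists_w_conj N R hR1 hR2 γ (N / e) (div_ne_zero_of_mem_divisors N he)
        (Nat.div_dvd_of_dvd (Nat.mem_divisors.mp he).1)
      exact ⟨w, a, d, fun _ => h⟩
    · exact ⟨1, 0, 0, fun h => absurd h he⟩
  choose w a d hw using H
  refine ⟨∏ e ∈ N.divisors, w e ^ nexp N e, ?_, ?_, ?_⟩
  · intro z
    rw [evU_prod_zpow]
    exact ufun_eq N (γ • z) _ fun e he => (hw e he).1 z
  · exact Subgroup.prod_mem _ fun e he => Subgroup.zpow_mem _ (hw e he).2.1 _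
  · intro hγ
    rw [ordU_prod_zpow]
    have hc : ¬ (N : ℤ) ∣ γ 1 0 := by
      intro h
      apply hγ
      rw [CongruenceSubgroup.Gamma0_mem, ZMod.intCast_zmod_eq_zero_iff_dvd]
      exact h
    have h := order_sum_neg N (NeZero.ne N) (γ 1 0) hc a d (fun e he => (hw e he).2.2.1)
      (fun e he => (hw e he).2.2.2.1)
    refine lt_of_eq_of_lt (Finset.sum_congr rfl fun e he => ?_) h
    rw [(hw e he).2.2.2.2, nexp]

theorem exists_unit_one (N : ℕ) [NeZero N] :
    ∃ f : (Mer N)ˣ, (∀ z, f.1.1 z = ufun N z) ∧ f ∈ UG N (Int.castRingHom ℂ).range := by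
  set R : Subring ℂ := (Int.castRingHom ℂ).range with hR
  have H : ∀ e : ℕ, ∃ (w : (Mer N)ˣ), ∀ he : e ∈ N.divisors,
      (∀ z, w.1.1 z = wfun (N / e) (div_ne_zero_of_mem_divisors N he) z) ∧ w ∈ UG N R := by
    intro e
    by_cases he : e ∈ N.divisors
    · refine ⟨triU N (N / e) 1 0 (div_ne_zero_of_mem_divisors N he) one_ne_zero (one_dvd N) *
        (triU N 1 1 0 one_ne_zero one_ne_zero (one_dvd N))⁻¹, fun _ => ⟨?_, ?_⟩⟩
      · intro z
        rw [← evU_apply, map_mul, map_inv, evU_apply, evU_apply, triU_apply, triU_apply,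
          S24.tri_one_smul_L1, wfun]
        rfl
      · refine mul_mem ?_ (inv_mem ?_)
        · apply triU_mem_UG
          · simp only [Int.cast_zero, mul_zero, zero_div, Complex.exp_zero]
            exact one_mem R
          · simp only [Int.cast_zero, mul_zero, zero_div, Complex.exp_zero, inv_one]
            exact one_mem R
        · apply triU_mem_UG
          · simp only [Int.cast_zero, mul_zero, zero_div, Complex.exp_zero]
            exact one_mem R
          · simp only [Int.cast_zero, mul_zero, zero_div, Complex.exp_zero, inv_one]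
            exact one_mem R
    · exact ⟨1, fun h => absurd h he⟩
  choose w hw using H
  refine ⟨∏ e ∈ N.divisors, w e ^ nexp N e, ?_, ?_⟩
  · intro z
    rw [evU_prod_zpow]
    exact ufun_eq N z _ fun e he => (hw e he).1 z
  · exact Subgroup.prod_mem _ fun e he => Subgroup.zpow_mem _ (hw e he).2 _

theorem disc_tri_int (m : ℕ) (hm : m ≠ 0) (b : ℤ) (z : ℍ) :
    ModularForm.discriminant (S22.tri m 1 b hm one_ne_zero • z) =
      ModularForm.discriminant (S22.tri m 1 0 hm one_ne_zero • z) := by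
  have e : S22.tri m 1 b hm one_ne_zero • z =
      (ModularGroup.T ^ b : SL(2, ℤ)) • (S22.tri m 1 0 hm one_ne_zero • z) := by
    ext
    rw [UpperHalfPlane.modular_T_zpow_smul, UpperHalfPlane.coe_vadd, S22.coe_tri_smul,
      S22.coe_tri_smul]
    push_cast
    ring
  rw [e, disc_smul_aux]
  have : denom (ModularGroup.T ^ b : SL(2, ℤ)) (S22.tri m 1 0 hm one_ne_zero • z : ℍ) = 1 := by
    have h10 : (ModularGroup.T ^ b : SL(2, ℤ)) 1 0 = 0 := by
      rw [ModularGroup.coe_T_zpow]; rfl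
    have h11 : (ModularGroup.T ^ b : SL(2, ℤ)) 1 1 = 1 := by
      rw [ModularGroup.coe_T_zpow]; rfl
    rw [ModularGroup.denom_apply, h10, h11]
    simp
  rw [this, one_zpow, one_mul]

theorem wfun_Gamma0 (m : ℕ) (hm : m ≠ 0) (δ : SL(2, ℤ)) (hδ : (m : ℤ) ∣ δ 1 0) (z : ℍ) :
    wfun m hm (δ • z) = wfun m hm z := by
  obtain ⟨a, d, b, ha, hd, had, hgcd, hz⟩ := disc_tri_smul m hm δ
  have ham : a = m := by
    rw [hgcd]
    exact Nat.gcd_eq_left (Int.natCast_dvd.mp hδ)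
  subst ham
  have hd1 : d = 1 := by
    have h : a * d = a * 1 := by rw [had, mul_one]
    exact Nat.eq_of_mul_eq_mul_left (Nat.pos_of_ne_zero ha) h
  subst hd1
  rw [wfun, hz, wfun, disc_tri_int]
  simp

theorem ufun_Gamma0 (N : ℕ) [NeZero N] (δ : SL(2, ℤ)) (hδ : δ ∈ CongruenceSubgroup.Gamma0 N)
    (z : ℍ) : ufun N (δ • z) = ufun N z := by
  rw [CongruenceSubgroup.Gamma0_mem, ZMod.intCast_zmod_eq_zero_iff_dvd] at hδ
  rw [ufun, ufun]
  refine Finset.prod_congr rfl fun e he => ?_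
  have hm := div_ne_zero_of_mem_divisors N he
  rw [wfun', wfun', dif_pos hm, dif_pos hm, wfun_Gamma0 (N / e) hm δ ?_ z]
  refine dvd_trans ?_ hδ
  exact_mod_cast Nat.div_dvd_of_dvd (Nat.mem_divisors.mp he).1

end Fermat.Agent.S28
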