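import Mathlib
import Fermat.Prelude.Def_ModularCurve_LaurentCoeff

set_option autoImplicit false

/-! # S28: contents and the Gauss valuation ring (abstract part) -/

namespace Fermat.Agent.S28

open Polynomial

/-- `π` generates the kernel of `ρ` and all multiplicities of `π` are finite. -/
structure Good {A k : Type*} [CommRing A] [CommRing k] (π : A) (ρ : A →+* k) : Prop where
  map_eq_zero : ρ π = 0
  ker : ∀ a, ρ a = 0 → π ∣ a
  fin : ∀ a, a ≠ 0 → FiniteMultiplicity π a

section Good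

variable {A k : Type*} [CommRing A] [CommRing k] {π : A} {ρ : A →+* k}

theorem Good.content (h : Good π ρ) {a : A} (ha : a ≠ 0) :
    ∃ (j : ℕ) (a₀ : A), a = π ^ j * a₀ ∧ ρ a₀ ≠ 0 := by
  obtain ⟨c, hc, hnd⟩ := (h.fin a ha).exists_eq_pow_mul_and_not_dvd
  exact ⟨_, c, hc, fun h0 => hnd (h.ker c h0)⟩

theorem Good.polynomial (h : Good π ρ) : Good (C π) (mapRingHom ρ) where
  map_eq_zero := by simp [h.map_eq_zero]
  ker p hp := by
    rw [C_dvd_iff_dvd_coeff]
    intro i
    apply h.ker
    have := congrArg (fun q => q.coeff i) hp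
    simpa using this
  fin p hp := by
    obtain ⟨i, hi⟩ : ∃ i, p.coeff i ≠ 0 := by
      by_contra hcon
      push Not at hcon
      exact hp (Polynomial.ext hcon)
    obtain ⟨n, hn⟩ := h.fin _ hi
    refine ⟨n, fun hd => hn ?_⟩
    rw [← C_pow, C_dvd_iff_dvd_coeff] at hd
    exact hd i

theorem Good.laurent [IsDomain A] (hπ : π ≠ 0) (h : Good π ρ) :
    Good (HahnSeries.C π : LaurentSeries A) (ModularCurve.coeffMap ρ) where
  map_eq_zero := by
    rw [HahnSeries.C_apply, ModularCurve.coeffMap_single, h.map_eq_zero, HahnSeries.single_eq_zero]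
  ker a ha := by
    classical
    have h1 : ∀ i, π ∣ a.coeff i := fun i => by
      apply h.ker
      have := congrArg (fun q => q.coeff i) ha
      simpa using this
    choose b hb using h1
    have hsupp : Function.support b ⊆ a.support := by
      intro i hi
      rw [HahnSeries.mem_support, hb i]
      exact mul_ne_zero hπ hi
    refine ⟨⟨b, a.isPWO_support.mono hsupp⟩, ?_⟩
    ext i
    rw [HahnSeries.C_mul_eq_smul, HahnSeries.coeff_smul, hb i, smul_eq_mul]
  fin a ha := by
    obtain ⟨i, hi⟩ : ∃ i, a.coeff i ≠ 0 := by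
      by_contra hcon
      push Not at hcon
      exact ha (HahnSeries.ext (funext hcon))
    obtain ⟨n, hn⟩ := h.fin _ hi
    refine ⟨n, fun hd => hn ?_⟩
    obtain ⟨c, rfl⟩ := hd
    rw [← map_pow, HahnSeries.C_mul_eq_smul, HahnSeries.coeff_smul, smul_eq_mul]
    exact dvd_mul_right _ _

end Good

section Gauss

variable {W E k : Type*} [CommRing W] [Field E] [Field k] (ι : W →+* E) (ρ : W →+* k)

/-- The subring of fractions `a / s` with `ρ s ≠ 0`. -/
def gaussRing : Subring E where
  carrier := {x | ∃ s a : W, ρ s ≠ 0 ∧ ι s * x = ι a}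
  mul_mem' := by
    rintro x y ⟨s, a, hs, h⟩ ⟨s', a', hs', h'⟩
    exact ⟨s * s', a * a', by simp [hs, hs'], by rw [map_mul, map_mul, ← h, ← h']; ring⟩
  one_mem' := ⟨1, 1, by simp, by simp⟩
  add_mem' := by
    rintro x y ⟨s, a, hs, h⟩ ⟨s', a', hs', h'⟩
    exact ⟨s * s', a * s' + a' * s, by simp [hs, hs'], by
      rw [map_mul, map_add, map_mul, map_mul, ← h, ← h']; ring⟩
  zero_mem' := ⟨1, 0, by simp, by simp⟩
  neg_mem' := by
    rintro x ⟨s, a, hs, h⟩
    exact ⟨s, -a, hs, by rw [map_neg, ← h]; ring⟩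

variable {ι ρ}

theorem mem_gaussRing {x : E} : x ∈ gaussRing ι ρ ↔ ∃ s a : W, ρ s ≠ 0 ∧ ι s * x = ι a := Iff.rfl

theorem map_mem_gaussRing (a : W) : ι a ∈ gaussRing ι ρ := ⟨1, a, by simp, by simp⟩

variable (ι ρ) in
/-- the value of the reduction map, as a total function -/
noncomputable def gaussFun (x : E) : k := by
  classical
  exact if h : x ∈ gaussRing ι ρ then ρ h.choose_spec.choose / ρ h.choose else 0

theorem gaussFun_spec (hι : Function.Injective ι) {x : E} (hx : x ∈ gaussRing ι ρ) {s a : W}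
    (h : ι s * x = ι a) : ρ a = ρ s * gaussFun ι ρ x := by
  rw [gaussFun, dif_pos hx]
  have h1 : ρ hx.choose ≠ 0 := hx.choose_spec.choose_spec.1
  have h2 : ι hx.choose * x = ι hx.choose_spec.choose := hx.choose_spec.choose_spec.2
  have h3 : s * hx.choose_spec.choose = hx.choose * a := by
    apply hι
    rw [map_mul, map_mul, ← h2, ← h]
    ring
  have h4 := congrArg ρ h3
  rw [map_mul, map_mul] at h4
  rw [← mul_div_assoc, h4, mul_div_cancel_left₀ _ h1]

theorem gaussFun_eq_div (hι : Function.Injective ι) {x : E} {s a : W} (hs : ρ s ≠ 0)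
    (h : ι s * x = ι a) : gaussFun ι ρ x = ρ a / ρ s := by
  rw [gaussFun_spec hι ⟨s, a, hs, h⟩ h, mul_div_cancel_left₀ _ hs]

theorem gaussFun_map (hι : Function.Injective ι) (a : W) : gaussFun ι ρ (ι a) = ρ a := by
  rw [gaussFun_eq_div hι (s := 1) (a := a) (by simp) (by simp)]; simp

variable (ρ) in
/-- the reduction map on the Gauss ring -/
noncomputable def gaussMap (hι : Function.Injective ι) : gaussRing ι ρ →+* k where
  toFun x := gaussFun ι ρ x
  map_one' := by
    have := gaussFun_map (ρ := ρ) hι 1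
    simpa using this
  map_zero' := by
    have := gaussFun_map (ρ := ρ) hι 0
    simpa using this
  map_mul' := by
    rintro ⟨x, s, a, hs, h⟩ ⟨y, s', a', hs', h'⟩
    show gaussFun ι ρ (x * y) = gaussFun ι ρ x * gaussFun ι ρ y
    rw [gaussFun_eq_div hι hs h, gaussFun_eq_div hι hs' h',
      gaussFun_eq_div hι (s := s * s') (a := a * a') (by simp [hs, hs'])
        (by rw [map_mul, map_mul, ← h, ← h']; ring), map_mul, map_mul]
    field_simp
  map_add' := by
    rintro ⟨x, s, a, hs, h⟩ ⟨y, s', a', hs', h'⟩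
    show gaussFun ι ρ (x + y) = gaussFun ι ρ x + gaussFun ι ρ y
    rw [gaussFun_eq_div hι hs h, gaussFun_eq_div hι hs' h',
      gaussFun_eq_div hι (s := s * s') (a := a * s' + a' * s) (by simp [hs, hs'])
        (by rw [map_mul, map_add, map_mul, map_mul, ← h, ← h']; ring), map_mul, map_add, map_mul,
        map_mul]
    field_simp

theorem gaussMap_apply (hι : Function.Injective ι) (x : gaussRing ι ρ) :
    gaussMap ρ hι x = gaussFun ι ρ x := rfl

/-- the kernel of the reduction map is generated by `π` -/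
theorem exists_of_gaussFun_eq_zero {π : W} (hG : Good π ρ) (hι : Function.Injective ι) {x : E}
    (hx : x ∈ gaussRing ι ρ) (h0 : gaussFun ι ρ x = 0) :
    ∃ y ∈ gaussRing ι ρ, x = ι π * y := by
  obtain ⟨s, a, hs, h⟩ := hx
  rw [gaussFun_eq_div hι hs h, div_eq_zero_iff, or_iff_left hs] at h0
  obtain ⟨b, rfl⟩ := hG.ker a h0
  have hs0 : ι s ≠ 0 := by
    rw [Ne, map_eq_zero_iff _ hι]
    rintro rfl
    simp at hs
  refine ⟨ι b / ι s, ⟨s, b, hs, by field_simp⟩, ?_⟩
  rw [map_mul] at h
  field_simp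
  rw [← h]; ring

/-- the Gauss ring is a valuation ring of the fraction field of `W` -/
theorem mem_gaussRing_or_inv_mem {π : W} (hG : Good π ρ) (hι : Function.Injective ι) {x : E}
    {s a : W} (hs : s ≠ 0) (h : ι s * x = ι a) : x ∈ gaussRing ι ρ ∨ x⁻¹ ∈ gaussRing ι ρ := by
  have hs0 : ι s ≠ 0 := by rwa [Ne, map_eq_zero_iff _ hι]
  rcases eq_or_ne a 0 with rfl | ha
  · left
    rw [map_zero, mul_eq_zero, or_iff_right hs0] at h
    rw [h]; exact zero_mem _
  have ha0 : ι a ≠ 0 := by rwa [Ne, map_eq_zero_iff _ hι]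
  obtain ⟨i, s₀, rfl, hs₀⟩ := hG.content hs
  obtain ⟨j, a₀, rfl, ha₀⟩ := hG.content ha
  rw [map_mul, map_pow] at hs0 ha0
  rw [map_mul, map_pow, map_mul, map_pow] at h
  rcases le_or_gt i j with hij | hij
  · left
    obtain ⟨d, rfl⟩ := Nat.exists_eq_add_of_le hij
    refine ⟨s₀, π ^ d * a₀, hs₀, ?_⟩
    apply mul_left_cancel₀ (left_ne_zero_of_mul hs0)
    rw [map_mul, map_pow, ← mul_assoc, h, pow_add]
    ring
  · right
    obtain ⟨d, rfl⟩ := Nat.exists_eq_add_of_le hij.le
    refine ⟨a₀, π ^ d * s₀, ha₀, ?_⟩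
    have hx : x ≠ 0 := by
      rintro rfl
      rw [mul_zero] at h
      exact ha0 h.symm
    have h5 : ι π ^ d * ι s₀ * x = ι a₀ := by
      apply mul_left_cancel₀ (left_ne_zero_of_mul ha0)
      rw [← h, pow_add]
      ring
    rw [map_mul, map_pow, ← h5]
    field_simp

end Gauss

end Fermat.Agent.S28
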