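import Mathlib
import Fermat.Agent.S28.ModDefs
import Fermat.Agent.S28.WR
import Fermat.Agent.S28.Tri
import Fermat.Agent.S28.LevelOneInt

set_option autoImplicit false

/-! # S28 (MI): the conjugates of `j(d z)` have expansions over `R` -/

namespace Fermat.Agent.S28

open UpperHalfPlane ModularForm Matrix.SpecialLinearGroup ModularCurve Polynomial
open scoped MatrixGroups ModularForm Manifold
open Fermat.Agent.S20 (Quo sl)
open Fermat.Agent.S24 (Mer expInf jfun jdg Dv)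

namespace MI

theorem exp_pow_eq_one' (N d : ℕ) (b : ℤ) (hd : d ≠ 0) (hdN : d ∣ N) :
    Complex.exp (2 * Real.pi * Complex.I * b / d) ^ N = 1 := by
  obtain ⟨k, hk⟩ := hdN
  have hd' : (d : ℂ) ≠ 0 := by exact_mod_cast hd
  rw [← Complex.exp_nat_mul, Complex.exp_eq_one_iff]
  refine ⟨b * k, ?_⟩
  rw [hk]
  push_cast
  field_simp

theorem expInf_jfun_one : expInf 1 ⟨jfun, S24.jfun_mem_Mer⟩ = jqModC ℂ := by
  rw [S24.expInf_jfun]
  exact map_jqModC (algebraMap ℚ ℂ)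

theorem expInf_jfun_mem_WR (R : Subring ℂ) : expInf 1 ⟨jfun, S24.jfun_mem_Mer⟩ ∈ WR R := by
  rw [expInf_jfun_one]
  exact ⟨jqModC ↥R, L1.coeffMap_jqModC R.subtype⟩

end MI

open MI

theorem jdg_mem_RMer (N : ℕ) [NeZero N] (R : Subring ℂ) (hR1 : ∀ ω : ℂ, ω ^ N = 1 → ω ∈ R)
    (d : Dv N) (γ : SL(2, ℤ)) : jdg N d γ ∈ RMer N R := by
  obtain ⟨a, d', b, ha, hd', had, h⟩ := S24.jdg_eq_tri N d γ
  have hd'N : d' ∣ N := dvd_trans (Dvd.intro_left a had) d.2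
  have hmem : jdg N d γ ∈ Mer N := S24.jdg_mem_Mer N d γ
  have e : (⟨jdg N d γ, hmem⟩ : Mer N) = triHom N a d' b ha hd' hd'N ⟨jfun, S24.jfun_mem_Mer⟩ := by
    apply Subtype.ext
    show jdg N d γ = _
    rw [h]
    funext z
    exact (triHom_apply N a d' b ha hd' hd'N ⟨jfun, S24.jfun_mem_Mer⟩ z).symm
  rw [mem_RMer]
  refine ⟨hmem, ?_⟩
  rw [e]
  refine expInf_triHom_mem_WR N a d' b ha hd' hd'N R ?_ ?_ _ (expInf_jfun_mem_WR R)
  · exact hR1 _ (exp_pow_eq_one' N d' b hd' hd'N)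
  · apply hR1
    rw [inv_pow, exp_pow_eq_one' N d' b hd' hd'N, inv_one]

theorem expR_jdg_one (N : ℕ) [NeZero N] (R : Subring ℂ) (hR1 : ∀ ω : ℂ, ω ^ N = 1 → ω ∈ R)
    (d : ℕ) [NeZero d] (hd : d ∣ N) :
    expR N R ⟨jdg N ⟨d, hd⟩ 1, jdg_mem_RMer N R hR1 ⟨d, hd⟩ 1⟩ =
      qExpand ↥R N (qExpand ↥R d (jqModC ↥R)) := by
  apply coeffMap_subtype_injective R
  rw [coeffMap_expR, coeffMap_qExpand, coeffMap_qExpand, L1.coeffMap_jqModC, ← expInf_jfun_one,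
    ← expInf_triHom_one]
  have e : ∀ hm : jdg N ⟨d, hd⟩ 1 ∈ Mer N, (⟨jdg N ⟨d, hd⟩ 1, hm⟩ : Mer N) =
      triHom N d 1 0 (NeZero.ne d) one_ne_zero (one_dvd N) ⟨jfun, S24.jfun_mem_Mer⟩ := by
    intro hm
    apply Subtype.ext
    show jdg N ⟨d, hd⟩ 1 = _
    funext z
    rw [triHom_apply]
    show jfun (S22.tri d 1 0 _ one_ne_zero • ((1 : SL(2, ℤ)) • z)) = _
    rw [one_smul]
  exact congrArg (expInf N) (e _)

end Fermat.Agent.S28
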