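import Mathlib
import Fermat.Agent.S28.LevelOneInt
import Fermat.Agent.S28.Unit
import Fermat.Agent.S28.Sym
import Fermat.Agent.S28.JConj

set_option autoImplicit false
set_option maxHeartbeats 400000

/-! # S28 (MJ): assembly of the analytic part -/

namespace Fermat.Agent.S28

open UpperHalfPlane ModularForm Matrix.SpecialLinearGroup ModularCurve Polynomial
open scoped MatrixGroups ModularForm Manifold
open Fermat.Agent.S20 (Quo sl)
open Fermat.Agent.S24 (Mer expInf jfun jdg Dv)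

namespace AnAux

theorem T_mem_Gamma0 (N : ℕ) : ModularGroup.T ∈ CongruenceSubgroup.Gamma0 N := by
  rw [CongruenceSubgroup.Gamma0_mem]
  simp [ModularGroup.T]

theorem not_mem_Gamma0_of_ne (N : ℕ) [NeZero N] (q : Quo N)
    (hq : q ≠ (QuotientGroup.mk (sl 1) : Quo N)) :
    (S20.exists_mk q).choose⁻¹ ∉ CongruenceSubgroup.Gamma0 N := by
  intro h
  apply hq
  conv_lhs => rw [(S20.exists_mk q).choose_spec]
  rw [S20.mk_eq_mk_iff, mul_one]
  exact h

theorem jdg_one_Gamma0 (N : ℕ) [NeZero N] (d : Dv N) (δ : SL(2, ℤ))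
    (hδ : δ ∈ CongruenceSubgroup.Gamma0 N) (z : ℍ) : jdg N d 1 (δ • z) = jdg N d 1 z := by
  rw [← S24.jdg_mul, one_mul, ← mul_one δ, S24.jdg_Gamma0_mul N d δ 1 hδ]

theorem conj_jdg_one (N : ℕ) [NeZero N] (d : Dv N) (q : Quo N) :
    conj N (jdg N d 1) q = jdg N d (S20.exists_mk q).choose⁻¹ := by
  funext z
  show jdg N d 1 ((S20.exists_mk q).choose⁻¹ • z) = _
  rw [← S24.jdg_mul, one_mul]

theorem conj_one (N : ℕ) [NeZero N] (g : ℍ → ℂ)
    (hg : ∀ δ ∈ CongruenceSubgroup.Gamma0 N, ∀ z, g (δ • z) = g z) :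
    conj N g (QuotientGroup.mk (sl 1) : Quo N) = g := by
  rw [conj_mk N g hg 1]
  funext z
  rw [inv_one, one_smul]

end AnAux

open AnAux

theorem exists_anData (N : ℕ) [NeZero N] (R : Subring ℂ) (hR1 : ∀ ω : ℂ, ω ^ N = 1 → ω ∈ R)
    (hR2 : (N : ℂ)⁻¹ ∈ R) : Nonempty (AnData N R) := by
  classical
  have hg : ∀ δ ∈ CongruenceSubgroup.Gamma0 N, ∀ z, ufun N (δ • z) = ufun N z :=
    fun δ hδ z => ufun_Gamma0 N δ hδ z
  set q₀ : Quo N := QuotientGroup.mk (sl 1) with hq₀
  set ρ : Quo N → ℍ → ℂ := conj N (ufun N) with hρdef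
  have hex : ∀ q : Quo N, ∃ f : (Mer N)ˣ, f.1.1 = ρ q ∧ f ∈ UG N R ∧
      (q ≠ q₀ → (expInf N f.1).order < 0) := by
    intro q
    obtain ⟨f, h1, h2, h3⟩ := exists_unit_conj N R hR1 hR2 (S20.exists_mk q).choose⁻¹
    exact ⟨f, funext h1, h2, fun hq => h3 (not_mem_Gamma0_of_ne N q hq)⟩
  choose f hf1 hf2 hf3 using hex
  have hρ : ∀ q, ρ q ∈ RMer N R := fun q => hf1 q ▸ val_mem_RMer_of_mem_UG (hf2 q)
  set ρ' : Quo N → ↥(RMer N R) := fun q => ⟨ρ q, hρ q⟩ with hρ'
  set r : Quo N → LaurentSeries ↥R := fun q => expR N R (ρ' q) with hr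
  have hfρ : ∀ q, (⟨(f q).1.1, val_mem_RMer_of_mem_UG (hf2 q)⟩ : ↥(RMer N R)) = ρ' q :=
    fun q => Subtype.ext (hf1 q)
  have hunit : ∀ q, IsUnit (r q) := by
    intro q
    have := isUnit_expR_of_mem_UG (hf2 q)
    rwa [hfρ q] at this
  have hexp : ∀ q, coeffMap R.subtype (r q) = expInf N (f q).1 := by
    intro q
    rw [hr]
    simp only
    rw [coeffMap_expR]
    congr 1
    exact Subtype.ext (hf1 q).symm
  have hneg : ∀ q, q ≠ q₀ → (r q).order < 0 := by
    intro q hq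
    rw [← order_coeffMap_subtype, hexp q]
    exact hf3 q hq
  -- the characteristic polynomial
  set P' : (↥(RMer N R))[X] := ∏ q, (X - C (ρ' q)) with hP'
  have hP'map : P'.map (RMer N R).subtype = ∏ q, (X - C (ρ q)) := by
    rw [hP', Polynomial.map_prod]
    refine Finset.prod_congr rfl fun q _ => ?_
    rw [Polynomial.map_sub, Polynomial.map_X, Polynomial.map_C]
    rfl
  obtain ⟨Ψ, hΨ⟩ := descend N R (∏ q, (X - C (ρ q)))
    (fun i => by
      rw [← hP'map, Polynomial.coeff_map]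
      exact (P'.coeff i).2)
    (fun γ => prod_X_sub_C_conj_map N (ufun N) hg γ)
  have hsplit : Ψ.map (evJN N ↥R) = ∏ q, (X - C (r q)) := by
    rw [transfer_map N R Ψ P' (by rw [hΨ, hP'map]), hP', Polynomial.map_prod]
    refine Finset.prod_congr rfl fun q _ => ?_
    rw [Polynomial.map_sub, Polynomial.map_X, Polynomial.map_C]
  -- the expansion of `u` itself
  have hρ₀ : ρ q₀ = ufun N := conj_one N (ufun N) hg
  obtain ⟨u, hu⟩ : ∃ u : LaurentSeries ℤ,
      r q₀ = qExpand ↥R N (coeffMap (Int.castRingHom ↥R) u) := by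
    obtain ⟨f₁, h1, h2⟩ := exists_unit_one N
    have e1 : f₁.1 = (f q₀).1 := by
      apply Subtype.ext
      rw [hf1 q₀, hρ₀]
      exact funext h1
    obtain ⟨u, hu⟩ := exists_int_qExpand N (expInf N f₁.1) h2.1 (by
      intro n hn
      apply S24.expInf_coeff_eq_zero_of_periodic N _ _ n hn
      intro z
      rw [h1, h1, ← UpperHalfPlane.modular_T_smul, hg _ (T_mem_Gamma0 N)])
    refine ⟨u, ?_⟩
    apply coeffMap_subtype_injective R
    rw [hexp q₀, ← e1, hu, coeffMap_qExpand, coeffMap_coeffMap]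
    congr 2
  -- the constant term
  obtain ⟨c, hc⟩ : ∃ c : (↥R)ˣ, Ψ.coeff 0 = C (c : ↥R) := by
    set s : ℍ → ℂ := ∏ q, ρ q with hs
    set s' : ℍ → ℂ := ∏ q, (f q)⁻¹.1.1 with hs'
    have hss' : s * s' = 1 := by
      rw [hs, hs', ← Finset.prod_mul_distrib]
      refine Finset.prod_eq_one fun q _ => ?_
      rw [← hf1 q]
      have := congrArg Subtype.val (f q).mul_inv
      exact this
    have hsmem : s ∈ RMer N R := Subring.prod_mem _ fun q _ => hρ q
    have hs'mem : s' ∈ RMer N R :=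
      Subring.prod_mem _ fun q _ => val_mem_RMer_of_mem_UG (inv_mem (hf2 q))
    have hsinv : ∀ (γ : SL(2, ℤ)) (z : ℍ), s (γ • z) = s z :=
      fun γ z => prod_conj_smul N (ufun N) hg γ z
    have hpt : ∀ z, s z * s' z = 1 := fun z => congrFun hss' z
    have hs'inv : ∀ (γ : SL(2, ℤ)) (z : ℍ), s' (γ • z) = s' z := by
      intro γ z
      have h1 := hpt (γ • z)
      have h2 := hpt z
      rw [hsinv] at h1
      have h3 : s z ≠ 0 := left_ne_zero_of_mul_eq_one h2
      exact mul_left_cancel₀ h3 (h1.trans h2.symm)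
    obtain ⟨p, hp⟩ := levelOne_int N R s hsmem hsinv
    obtain ⟨p', hp'⟩ := levelOne_int N R s' hs'mem hs'inv
    have hpp' : p * p' = 1 := by
      apply evJ_injective R
      rw [map_mul, hp, hp', hss', map_one]
    have hpu : IsUnit p := IsUnit.of_mul_eq_one p' hpp'
    obtain ⟨c, hc, hcp⟩ := Polynomial.isUnit_iff.mp hpu
    have h0 : Ψ.coeff 0 = C ((-1) ^ Fintype.card (Quo N) * c) := by
      apply evJ_injective R
      rw [← Polynomial.coeff_map, hΨ, Polynomial.coeff_zero_eq_eval_zero, Polynomial.eval_prod,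
        map_mul, map_mul, hcp, hp, hs]
      simp only [Polynomial.eval_sub, Polynomial.eval_X, Polynomial.eval_C, zero_sub]
      rw [Finset.prod_neg]
      simp
    exact ⟨((-1) ^ Fintype.card (Quo N) : (↥R)ˣ) * hc.unit, by rw [h0]; simp⟩
  refine ⟨{ u := u, Ψ := Ψ, r := r, q₀ := q₀, unit := hunit, neg := hneg, split := hsplit,
            r₀ := hu, c := c, const := hc, lagr := ?_ }⟩
  -- Lagrange interpolation
  intro d _ hd
  set h : ℍ → ℂ := jdg N ⟨d, hd⟩ 1 with hh
  have hhinv : ∀ δ ∈ CongruenceSubgroup.Gamma0 N, ∀ z, h (δ • z) = h z :=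
    fun δ hδ z => jdg_one_Gamma0 N ⟨d, hd⟩ δ hδ z
  have hhmem : ∀ q, conj N h q ∈ RMer N R := by
    intro q
    rw [hh, conj_jdg_one]
    exact jdg_mem_RMer N R hR1 _ _
  set h' : Quo N → ↥(RMer N R) := fun q => ⟨conj N h q, hhmem q⟩ with hh'
  set L' : (↥(RMer N R))[X] :=
    ∑ q, C (h' q) * ∏ q' ∈ Finset.univ.erase q, (X - C (ρ' q')) with hL'
  have hL'map : L'.map (RMer N R).subtype =
      ∑ q, C (conj N h q) * ∏ q' ∈ Finset.univ.erase q, (X - C (ρ q')) := by
    rw [hL', Polynomial.map_sum]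
    refine Finset.sum_congr rfl fun q _ => ?_
    rw [Polynomial.map_mul, Polynomial.map_C, Polynomial.map_prod]
    congr 1
    refine Finset.prod_congr rfl fun q' _ => ?_
    rw [Polynomial.map_sub, Polynomial.map_X, Polynomial.map_C]
    rfl
  obtain ⟨G, hG⟩ := descend N R
    (∑ q, C (conj N h q) * ∏ q' ∈ Finset.univ.erase q, (X - C (ρ q')))
    (fun i => by
      rw [← hL'map, Polynomial.coeff_map]
      exact (L'.coeff i).2)
    (fun γ => lagrange_conj_map N (ufun N) h hg hhinv γ)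
  refine ⟨G, ?_⟩
  rw [Polynomial.eval₂_eq_eval_map, transfer_map N R G L' (by rw [hG, hL'map]), hL',
    Polynomial.map_sum, Polynomial.eval_finsetSum]
  rw [Finset.sum_eq_single q₀]
  · rw [Polynomial.map_mul, Polynomial.map_C, Polynomial.map_prod, Polynomial.eval_mul,
      Polynomial.eval_C, Polynomial.eval_prod]
    congr 1
    · have e : h' q₀ = ⟨jdg N ⟨d, hd⟩ 1, jdg_mem_RMer N R hR1 ⟨d, hd⟩ 1⟩ :=
        Subtype.ext (conj_one N h hhinv)
      rw [e, expR_jdg_one N R hR1 d hd]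
    · refine Finset.prod_congr rfl fun q' _ => ?_
      rw [Polynomial.map_sub, Polynomial.map_X, Polynomial.map_C, Polynomial.eval_sub,
        Polynomial.eval_X, Polynomial.eval_C]
  · intro q _ hq
    rw [Polynomial.map_mul, Polynomial.map_prod, Polynomial.eval_mul, Polynomial.eval_prod]
    rw [Finset.prod_eq_zero (Finset.mem_erase.mpr ⟨Ne.symm hq, Finset.mem_univ q₀⟩), mul_zero]
    rw [Polynomial.map_sub, Polynomial.map_X, Polynomial.map_C, Polynomial.eval_sub,
      Polynomial.eval_X, Polynomial.eval_C, sub_self]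
  · intro h
    exact absurd (Finset.mem_univ q₀) h

end Fermat.Agent.S28
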