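import Mathlib
import Fermat.Agent.S28.Defs
import Fermat.Agent.S28.Gauss

set_option autoImplicit false

/-! # S28: facts on `ℤ_(ℓ)` -/

namespace Fermat.Agent.S28

open Polynomial ModularCurve

theorem Good.prime {A k : Type*} [CommRing A] [CommRing k] [IsDomain k] {π : A} {ρ : A →+* k}
    (h : Good π ρ) (hπ : π ≠ 0) : Prime π := by
  refine ⟨hπ, fun hu => ?_, fun a b hab => ?_⟩
  · have := hu.map ρ
    rw [h.map_eq_zero] at this
    exact not_isUnit_zero this
  · obtain ⟨c, hc⟩ := hab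
    have h1 : ρ a * ρ b = 0 := by rw [← map_mul, hc, map_mul, h.map_eq_zero, zero_mul]
    rcases mul_eq_zero.mp h1 with h2 | h2
    · exact Or.inl (h.ker a h2)
    · exact Or.inr (h.ker b h2)

theorem Good.not_dvd {A k : Type*} [CommRing A] [CommRing k] {π : A} {ρ : A →+* k}
    (h : Good π ρ) {a : A} (ha : ρ a ≠ 0) : ¬ π ∣ a := by
  rintro ⟨c, rfl⟩
  rw [map_mul, h.map_eq_zero, zero_mul] at ha
  exact ha rfl

variable (ℓ : ℕ) [Fact ℓ.Prime]

theorem toPadicInt_injective : Function.Injective (toPadicInt ℓ) := by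
  intro a b hab
  have h1 : (((toPadicInt ℓ a : ℤ_[ℓ]) : ℚ_[ℓ])) = ((toPadicInt ℓ b : ℤ_[ℓ]) : ℚ_[ℓ]) := by rw [hab]
  have h2 : (((a : ℚ) : ℚ_[ℓ])) = (((b : ℚ) : ℚ_[ℓ])) := h1
  exact Subtype.ext (Rat.cast_injective h2)

theorem ell_ne_zero : (ℓ : Zl ℓ) ≠ 0 := by
  have : (ℓ : ℚ) ≠ 0 := by exact_mod_cast (Fact.out : ℓ.Prime).ne_zero
  intro h
  apply this
  have := congrArg (Subtype.val) h
  simpa using this

theorem inv_natCast_mem {d : ℕ} (hd : d.Coprime ℓ) : ((d : ℚ)⁻¹) ∈ GaloisRep.ratLocalizedAt ℓ := by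
  show ((d : ℚ)⁻¹).den.Coprime ℓ
  rw [Rat.inv_natCast_den]
  split_ifs
  · simp
  · exact hd

theorem good_red : Good (ℓ : Zl ℓ) (red ℓ) where
  map_eq_zero := by simp
  ker a ha := by
    have h1 : a * ((a : ℚ).den : Zl ℓ) = ((a : ℚ).num : Zl ℓ) := by
      apply Subtype.ext
      push_cast
      exact Rat.mul_den_eq_num _
    have h2 := congrArg (red ℓ) h1
    rw [map_mul, ha, zero_mul, map_intCast] at h2
    obtain ⟨m, hm⟩ := (ZMod.intCast_zmod_eq_zero_iff_dvd _ _).mp h2.symm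
    refine ⟨⟨(m : ℚ) * ((a : ℚ).den : ℚ)⁻¹, mul_mem (intCast_mem _ m) (inv_natCast_mem ℓ a.2)⟩, ?_⟩
    apply Subtype.ext
    push_cast
    have h3 : ((a : ℚ).den : ℚ) ≠ 0 := by exact_mod_cast (a : ℚ).den_nz
    have h4 : (a : ℚ) * ((a : ℚ).den : ℚ) = ((a : ℚ).num : ℚ) := Rat.mul_den_eq_num _
    rw [hm] at h4
    push_cast at h4
    field_simp
    linarith
  fin a ha := by
    have h1 : toPadicInt ℓ a ≠ 0 := by
      rwa [Ne, map_eq_zero_iff _ (toPadicInt_injective ℓ)]
    obtain ⟨n, hn⟩ := FiniteMultiplicity.of_not_isUnit (PadicInt.prime_p (p := ℓ)).not_unit h1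
    refine ⟨n, fun hd => hn ?_⟩
    have := map_dvd (toPadicInt ℓ) hd
    simpa using this

theorem prime_ell : Prime (ℓ : Zl ℓ) := (good_red ℓ).prime (ell_ne_zero ℓ)

/-- `ℤ_(ℓ)` as a valuation subring of `ℚ` -/
def zlValuationSubring : ValuationSubring ℚ where
  __ := GaloisRep.ratLocalizedAt ℓ
  mem_or_inv_mem' x := by
    by_cases hx : x.den.Coprime ℓ
    · exact Or.inl hx
    · right
      show (x⁻¹).den.Coprime ℓ
      have hx0 : x ≠ 0 := by
        rintro rfl
        simp at hx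
      rw [Rat.den_inv_of_ne_zero hx0]
      have hℓ : ℓ.Prime := Fact.out
      have h1 : ℓ ∣ x.den := by
        by_contra h
        exact hx ((Nat.Prime.coprime_iff_not_dvd hℓ).mpr h).symm
      apply Nat.Coprime.symm
      rw [Nat.Prime.coprime_iff_not_dvd hℓ]
      intro h2
      have := Nat.dvd_gcd h2 h1
      rw [x.reduced] at this
      exact hℓ.one_lt.ne' (Nat.dvd_one.mp this)

instance isIntegrallyClosed_Zl_ch : IsIntegrallyClosed (Zl ℓ) :=
  inferInstanceAs (IsIntegrallyClosed (zlValuationSubring ℓ).toSubring)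

theorem incl_injective_ch : Function.Injective (incl ℓ) := Subtype.val_injective

theorem coeffMap_injective_ch {R S : Type*} [CommRing R] [CommRing S] {f : R →+* S}
    (hf : Function.Injective f) : Function.Injective (coeffMap f) := by
  intro a b hab
  ext i
  apply hf
  rw [← coeffMap_coeff, hab, coeffMap_coeff]

end Fermat.Agent.S28
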