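import Mathlib
import Fermat.Agent.S28.Defs
import Fermat.Agent.S28.Gauss
import Fermat.Agent.S28.ZlFacts
import Fermat.Agent.S28.Irr

set_option autoImplicit false
set_option synthInstance.maxHeartbeats 400000

/-! # S28: the reduction map on the chart algebras -/

namespace Fermat.Agent.S28

open Polynomial ModularCurve ModularCurve.IgusaScheme

/-- elements of `ℚ(S)` are fractions of elements of any ring containing `S` -/
theorem exists_frac_of_mem_adjoin {W E : Type*} [CommRing W] [Field E] [Algebra ℚ E] (f : W →+* E)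
    (S : Set E) (hS : S ⊆ Set.range f) {x : E} (hx : x ∈ IntermediateField.adjoin ℚ S) :
    ∃ s a : W, f s ≠ 0 ∧ f s * x = f a := by
  have h1 : x ∈ Subfield.closure (Set.range (algebraMap ℚ E) ∪ S) := hx
  have h2 : Subfield.closure (Set.range (algebraMap ℚ E) ∪ S) ≤ Subfield.closure (Set.range f) := by
    rw [Subfield.closure_le]
    rintro y (⟨r, rfl⟩ | hy)
    · rw [eq_ratCast]
      exact SubfieldClass.ratCast_mem _ r
    · exact Subfield.subset_closure (hS hy)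
  obtain ⟨y, hy, z, hz, rfl⟩ := Subfield.mem_closure_iff.mp (h2 h1)
  rw [← RingHom.coe_range, Subring.closure_eq] at hy hz
  obtain ⟨a, rfl⟩ := hy
  obtain ⟨s, rfl⟩ := hz
  by_cases hs : f s = 0
  · exact ⟨1, 0, by simp, by simp [hs]⟩
  · exact ⟨s, a, hs, by field_simp⟩

variable (ℓ : ℕ) [Fact ℓ.Prime]

/-- `ℤ_(ℓ)((q)) → ℚ((q))` -/
noncomputable abbrev iW : LaurentSeries (Zl ℓ) →+* LaurentSeries ℚ := coeffMap (incl ℓ)

/-- `ℤ_(ℓ)((q)) → 𝔽_ℓ((q))` -/
noncomputable abbrev rW : LaurentSeries (Zl ℓ) →+* LaurentSeries (ZMod ℓ) := coeffMap (red ℓ)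

theorem iW_injective : Function.Injective (iW ℓ) := coeffMap_injective_ch (incl_injective_ch ℓ)

theorem good_W : Good (HahnSeries.C (ℓ : Zl ℓ) : LaurentSeries (Zl ℓ)) (rW ℓ) :=
  (good_red ℓ).laurent (ell_ne_zero ℓ)

/-- the Gauss valuation ring inside `ℚ((q))` -/
noncomputable abbrev Lring : Subring (LaurentSeries ℚ) := gaussRing (iW ℓ) (rW ℓ)

/-- the reduction (total function) -/
noncomputable abbrev rFun : LaurentSeries ℚ → LaurentSeries (ZMod ℓ) := gaussFun (iW ℓ) (rW ℓ)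

theorem iW_jq : iW ℓ (jqModC (Zl ℓ)) = jq := coeffMap_jqModC _

theorem rW_jq : rW ℓ (jqModC (Zl ℓ)) = jqModC (ZMod ℓ) := coeffMap_jqModC _

theorem jq_mem_Lring : jq ∈ Lring ℓ := by
  rw [← iW_jq ℓ]; exact map_mem_gaussRing _

theorem jq_inv_mem_Lring : jq⁻¹ ∈ Lring ℓ := by
  refine ⟨jqModC (Zl ℓ), 1, ?_, ?_⟩
  · rw [rW_jq]; exact jqModC_ne_zero_of_nontrivial _
  · rw [iW_jq, map_one, mul_inv_cancel₀ jq_ne_zero]

variable (N : ℕ) [NeZero N]

theorem exists_frac_of_mem_full {x : LaurentSeries ℚ} (hx : x ∈ modularFunctionFieldFull N) :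
    ∃ s a : LaurentSeries (Zl ℓ), s ≠ 0 ∧ iW ℓ s * x = iW ℓ a := by
  obtain ⟨s, a, hs, h⟩ := exists_frac_of_mem_adjoin (iW ℓ) (divisorExpansions N) (by
    rintro y ⟨d, hd, -, rfl⟩
    refine ⟨jqNModC (Zl ℓ) d, ?_⟩
    rw [coeffMap_jqNModC]
    rfl) hx
  exact ⟨s, a, fun h0 => hs (by rw [h0, map_zero]), h⟩

/-- the Gauss valuation ring of the function field -/
noncomputable def gaussV : ValuationSubring ↥(modularFunctionFieldFull N) where
  __ := (Lring ℓ).comap (algebraMap ↥(modularFunctionFieldFull N) (LaurentSeries ℚ))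
  mem_or_inv_mem' x := by
    obtain ⟨s, a, hs, h⟩ := exists_frac_of_mem_full ℓ N x.2
    exact mem_gaussRing_or_inv_mem (good_W ℓ) (iW_injective ℓ) hs h

theorem mem_gaussV {x : ↥(modularFunctionFieldFull N)} :
    x ∈ gaussV ℓ N ↔ (x : LaurentSeries ℚ) ∈ Lring ℓ := Iff.rfl

theorem coe_algebraMap_Zl (r : Zl ℓ) :
    ((algebraMap (Zl ℓ) ↥(modularFunctionFieldFull N) r : ↥(modularFunctionFieldFull N)) :
      LaurentSeries ℚ) = iW ℓ (HahnSeries.C r) := by
  rw [HahnSeries.C_apply, coeffMap_single, ← algebraMap_laurentSeries_eq_single]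
  have h : algebraMap (Zl ℓ) ↥(modularFunctionFieldFull N) r =
      algebraMap ℚ ↥(modularFunctionFieldFull N) (algebraMap (Zl ℓ) ℚ r) := rfl
  rw [h, eq_ratCast, eq_ratCast]
  rfl

theorem adjoin_le_gaussV (S : Set ↥(modularFunctionFieldFull N))
    (hS : ∀ x ∈ S, (x : LaurentSeries ℚ) ∈ Lring ℓ) (y : ↥(modularFunctionFieldFull N))
    (hy : y ∈ Algebra.adjoin (Zl ℓ) S) : y ∈ gaussV ℓ N := by
  induction hy using Algebra.adjoin_induction with
  | mem y hy => exact hS y hy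
  | algebraMap r =>
    rw [mem_gaussV, coe_algebraMap_Zl]
    exact map_mem_gaussRing _
  | add y z _ _ hy hz => exact add_mem hy hz
  | mul y z _ _ hy hz => exact mul_mem hy hz

theorem chartAlg_le_gaussV (S : Set ↥(modularFunctionFieldFull N))
    (hS : ∀ x ∈ S, (x : LaurentSeries ℚ) ∈ Lring ℓ) (y : ↥(modularFunctionFieldFull N))
    (hy : y ∈ chartAlg N ℓ S) : (y : LaurentSeries ℚ) ∈ Lring ℓ := by
  rw [mem_chartAlg_iff] at hy
  have h1 : IsIntegral (gaussV ℓ N) y :=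
    hy.map_of_comp_eq (RingHom.codRestrict (Algebra.adjoin (Zl ℓ) S).val.toRingHom (gaussV ℓ N)
      (fun x => adjoin_le_gaussV ℓ N S hS x x.2)) (RingHom.id _) (by ext; rfl)
  obtain ⟨z, hz⟩ := IsIntegrallyClosed.isIntegral_iff.mp h1
  rw [← hz]
  exact z.2

/-- the reduction map on a chart algebra -/
noncomputable def psi (S : Set ↥(modularFunctionFieldFull N))
    (hS : ∀ x ∈ S, (x : LaurentSeries ℚ) ∈ Lring ℓ) :
    ↥(chartAlg N ℓ S) →+* LaurentSeries (ZMod ℓ) :=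
  (gaussMap (rW ℓ) (iW_injective ℓ)).comp
    (RingHom.codRestrict ((algebraMap ↥(modularFunctionFieldFull N) (LaurentSeries ℚ)).comp
      (chartAlg N ℓ S).val.toRingHom) (Lring ℓ) (fun x => chartAlg_le_gaussV ℓ N S hS x x.2))

theorem psi_apply (S : Set ↥(modularFunctionFieldFull N))
    (hS : ∀ x ∈ S, (x : LaurentSeries ℚ) ∈ Lring ℓ) (b : ↥(chartAlg N ℓ S)) :
    psi ℓ N S hS b = rFun ℓ ((b : ↥(modularFunctionFieldFull N)) : LaurentSeries ℚ) := rfl

theorem nonempty_psi_mid : Nonempty (↥(chartAlgMid N ℓ) →+* LaurentSeries (ZMod ℓ)) := by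
  refine ⟨psi ℓ N _ ?_⟩
  rintro x (rfl | rfl)
  · exact jq_mem_Lring ℓ
  · exact jq_inv_mem_Lring ℓ

end Fermat.Agent.S28
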