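import Mathlib
import Fermat.Agent.S28.ChartA

set_option autoImplicit false
set_option synthInstance.maxHeartbeats 400000

/-! # S28: the Igusa step: denominators prime to `ℓ` -/

namespace Fermat.Agent.S28

open Polynomial ModularCurve ModularCurve.IgusaScheme

theorem eval₂_ne_zero_of_irreducible {K L : Type*} [Field K] [Field L] (φ : K →+* L) {Ψ G : K[X]}
    (hΨ : Irreducible Ψ) {u : L} (hu : Ψ.eval₂ φ u = 0) (hG : G ≠ 0) (hdeg : G.degree < Ψ.degree) :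
    G.eval₂ φ u ≠ 0 := by
  intro h0
  rcases (EuclideanDomain.dvd_or_coprime Ψ G hΨ) with hd | hc
  · exact absurd (degree_le_of_dvd hd hG) (not_le.mpr hdeg)
  · obtain ⟨a, b, hab⟩ := hc
    have := congrArg (eval₂ φ u) hab
    simp [eval₂_add, eval₂_mul, hu, h0] at this

theorem order_jqModC_neg_ch (R : Type*) [CommRing R] [Nontrivial R] : (jqModC R).order < 0 := by
  have h : (jqModC R).coeff (-1) ≠ 0 := by rw [coeff_jqModC_neg_one]; exact one_ne_zero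
  have := HahnSeries.order_le_of_coeff_ne_zero h
  omega

variable (ℓ : ℕ) [Fact ℓ.Prime]

/-- `ℤ_(ℓ)[Y] → ℤ_(ℓ)((q))`, `Y ↦ j` -/
noncomputable abbrev ev : (Zl ℓ)[X] →+* LaurentSeries (Zl ℓ) :=
  Polynomial.eval₂RingHom HahnSeries.C (jqModC (Zl ℓ))

/-- `𝔽_ℓ[Y] → 𝔽_ℓ((q))`, `Y ↦ j` -/
noncomputable abbrev evBar : (ZMod ℓ)[X] →+* LaurentSeries (ZMod ℓ) :=
  Polynomial.eval₂RingHom HahnSeries.C (jqModC (ZMod ℓ))

theorem ev_injective : Function.Injective (ev ℓ) :=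
  eval₂_C_injective _ (order_jqModC_neg_ch _)

theorem evBar_injective : Function.Injective (evBar ℓ) :=
  eval₂_C_injective _ (order_jqModC_neg_ch _)

theorem rW_comp_ev : (rW ℓ).comp (ev ℓ) = (evBar ℓ).comp (Polynomial.mapRingHom (red ℓ)) := by
  apply Polynomial.ringHom_ext
  · intro a
    simp [HahnSeries.C_apply]
  · simp [rW_jq]

theorem rW_ev (s : (Zl ℓ)[X]) : rW ℓ (ev ℓ s) = evBar ℓ (s.map (red ℓ)) :=
  congrArg (fun f => f s) (rW_comp_ev ℓ)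

/-- `𝔽_ℓ(Y) → 𝔽_ℓ((q))` -/
noncomputable def phiBar : RatFunc (ZMod ℓ) →+* LaurentSeries (ZMod ℓ) :=
  IsFractionRing.lift (evBar_injective ℓ)

theorem phiBar_algebraMap (s : (ZMod ℓ)[X]) :
    phiBar ℓ (algebraMap (ZMod ℓ)[X] (RatFunc (ZMod ℓ)) s) = evBar ℓ s :=
  IsFractionRing.lift_algebraMap _ _

variable {ℓ} {N : ℕ} [NeZero N] (D : IgusaData N ℓ)

/-- `ℤ_(ℓ)[Y][X] → ℤ_(ℓ)((q))`, `Y ↦ j`, `X ↦ u` -/
noncomputable abbrev IgusaData.EV : (Zl ℓ)[X][X] →+* LaurentSeries (Zl ℓ) :=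
  Polynomial.eval₂RingHom (ev ℓ) D.u

theorem IgusaData.rW_EV (P : (Zl ℓ)[X][X]) :
    rW ℓ (D.EV P) = (P.map ((algebraMap (ZMod ℓ)[X] (RatFunc (ZMod ℓ))).comp
      (Polynomial.mapRingHom (red ℓ)))).eval₂ (phiBar ℓ) (rW ℓ D.u) := by
  rw [Polynomial.eval₂_map, IgusaData.EV, Polynomial.coe_eval₂RingHom, Polynomial.hom_eval₂]
  congr 1
  rw [rW_comp_ev]
  refine RingHom.ext fun s => ?_
  simp [phiBar_algebraMap]

theorem IgusaData.rW_EV_ne_zero {P : (Zl ℓ)[X][X]}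
    (hP : P.map (Polynomial.mapRingHom (red ℓ)) ≠ 0) (hdeg : P.degree < D.Ψ.degree) :
    rW ℓ (D.EV P) ≠ 0 := by
  rw [D.rW_EV]
  apply eval₂_ne_zero_of_irreducible (phiBar ℓ) D.irr
  · rw [← D.rW_EV, IgusaData.EV, Polynomial.coe_eval₂RingHom, D.root, map_zero]
  · rw [← Polynomial.map_map]
    rwa [Ne, Polynomial.map_eq_zero_iff (IsFractionRing.injective (ZMod ℓ)[X] (RatFunc (ZMod ℓ)))]
  · rw [D.monic.degree_map]
    exact lt_of_le_of_lt (Polynomial.degree_map_le) hdeg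

theorem IgusaData.isIntegralElem_EV (P : (Zl ℓ)[X][X]) : (ev ℓ).IsIntegralElem (D.EV P) := by
  letI := (ev ℓ).toAlgebra
  have hu : IsIntegral (Zl ℓ)[X] D.u := ⟨D.Ψ, D.monic, D.root⟩
  have hle : Algebra.adjoin (Zl ℓ)[X] {D.u} ≤
      integralClosure (Zl ℓ)[X] (LaurentSeries (Zl ℓ)) :=
    Algebra.adjoin_le (Set.singleton_subset_iff.mpr hu)
  exact hle (aeval_mem_adjoin_singleton (Zl ℓ)[X] D.u (p := P))

theorem IgusaData.exists_mul_eq (Q : (Zl ℓ)[X][X]) (hQ : D.EV Q ≠ 0) :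
    ∃ (T : (Zl ℓ)[X][X]) (t : (Zl ℓ)[X]), t ≠ 0 ∧ D.EV Q * D.EV T = ev ℓ t := by
  letI := (ev ℓ).toAlgebra
  have h1 : IsIntegral (Zl ℓ)[X] (D.EV Q) := D.isIntegralElem_EV Q
  obtain ⟨b, hb, t, ht, h⟩ :=
    h1.isAlgebraic.exists_nonzero_eq_adjoin_mul (mem_nonZeroDivisors_of_ne_zero hQ)
  obtain ⟨T', rfl⟩ := Algebra.adjoin_mem_exists_aeval _ _ hb
  refine ⟨T'.comp Q, t, ht, ?_⟩
  have h2 : D.EV (T'.comp Q) = aeval (D.EV Q) T' := aeval_comp (p := T') (q := Q) D.u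
  rw [h2, h]
  rfl

theorem iW_C_ell_ne_zero : iW ℓ (HahnSeries.C (ℓ : Zl ℓ)) ≠ 0 := by
  rw [Ne, map_eq_zero_iff _ (iW_injective ℓ), map_eq_zero_iff _ HahnSeries.C_injective]
  exact ell_ne_zero ℓ


theorem exists_frac_of_mem_adjoin' {E : Type*} [Field E] [Algebra ℚ E] (B : Subring E)
    (S : Set E) (hS : S ⊆ B) {x : E} (hx : x ∈ IntermediateField.adjoin ℚ S) :
    ∃ s ∈ B, ∃ a ∈ B, s ≠ 0 ∧ s * x = a := by
  have h1 : x ∈ Subfield.closure (Set.range (algebraMap ℚ E) ∪ S) := hx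
  have h2 : Subfield.closure (Set.range (algebraMap ℚ E) ∪ S) ≤ Subfield.closure (B : Set E) := by
    rw [Subfield.closure_le]
    rintro y (⟨r, rfl⟩ | hy)
    · rw [eq_ratCast]
      exact SubfieldClass.ratCast_mem _ r
    · exact Subfield.subset_closure (hS hy)
  obtain ⟨a, ha, s, hs, rfl⟩ := Subfield.mem_closure_iff.mp (h2 h1)
  rw [Subring.closure_eq] at ha hs
  by_cases hs0 : s = 0
  · exact ⟨1, one_mem _, 0, zero_mem _, by simp, by simp [hs0]⟩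
  · exact ⟨s, hs, a, ha, hs0, by field_simp⟩

noncomputable def IgusaData.B : Subring (LaurentSeries ℚ) := RingHom.range (R := (Zl ℓ)[X][X]) ((iW ℓ).comp D.EV)

theorem IgusaData.mem_B {x : LaurentSeries ℚ} : x ∈ D.B ↔ ∃ P, iW ℓ (D.EV P) = x := Iff.rfl

theorem IgusaData.hsub : ({jq, iW ℓ D.u} : Set (LaurentSeries ℚ)) ⊆ (D.B : Set (LaurentSeries ℚ)) := by
    rintro y (rfl | rfl)
    · exact D.mem_B.mpr ⟨C X, by simp [iW_jq]⟩
    · exact D.mem_B.mpr ⟨X, by simp⟩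

theorem IgusaData.frac0 {z : LaurentSeries ℚ} (hz : z ∈ IntermediateField.adjoin ℚ {jq, iW ℓ D.u}) :
    ∃ Q P₀ : (Zl ℓ)[X][X], iW ℓ (D.EV Q) ≠ 0 ∧ iW ℓ (D.EV Q) * z = iW ℓ (D.EV P₀) := by
  obtain ⟨s, hs, a, ha, h1, h2⟩ := exists_frac_of_mem_adjoin' D.B _ D.hsub hz
  obtain ⟨Q, rfl⟩ := D.mem_B.mp hs
  obtain ⟨P, rfl⟩ := D.mem_B.mp ha
  exact ⟨Q, P, h1, h2⟩

theorem IgusaData.igusa_frac {z : LaurentSeries ℚ} (hzF : z ∈ modularFunctionFieldFull N) :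
    ∃ (t : (Zl ℓ)[X]) (P : (Zl ℓ)[X][X]), t ≠ 0 ∧ P.degree < D.Ψ.degree ∧
      iW ℓ (ev ℓ t) * z = iW ℓ (D.EV P) := by
  have hle : modularFunctionFieldFull N ≤ IntermediateField.adjoin ℚ {jq, iW ℓ D.u} := by
    rw [modularFunctionFieldFull, IntermediateField.adjoin_le_iff]
    rintro x ⟨d, hd, hdN, rfl⟩
    exact D.gen d hdN
  obtain ⟨Q, P₀, hQ, h⟩ := D.frac0 (hle hzF)
  have hQ' : D.EV Q ≠ 0 := fun h0 => hQ (by rw [h0, map_zero])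
  obtain ⟨T, t, ht, hT⟩ := D.exists_mul_eq Q hQ'
  have h1 : iW ℓ (ev ℓ t) * z = iW ℓ (D.EV (P₀ * T)) := by
    rw [← hT, map_mul, map_mul, map_mul, ← h]
    ring
  have h2 : D.EV ((P₀ * T) %ₘ D.Ψ) = D.EV (P₀ * T) :=
    Polynomial.eval₂_modByMonic_eq_self_of_root D.root
  exact ⟨t, (P₀ * T) %ₘ D.Ψ, ht, degree_modByMonic_lt _ D.monic, by rw [h2, h1]⟩

theorem IgusaData.igusa_step {z : LaurentSeries ℚ} (hzF : z ∈ modularFunctionFieldFull N)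
    (hzL : z ∈ Lring ℓ) :
    ∃ (s : (Zl ℓ)[X]) (P : (Zl ℓ)[X][X]), s.map (red ℓ) ≠ 0 ∧
      iW ℓ (ev ℓ s) * z = iW ℓ (D.EV P) := by
  obtain ⟨t, P₁, ht, hdeg, h1⟩ := D.igusa_frac hzF
  rcases eq_or_ne P₁ 0 with h0 | h0
  · refine ⟨1, 0, by simp, ?_⟩
    rw [h0, map_zero, map_zero, mul_eq_zero] at h1
    have h3 : iW ℓ (ev ℓ t) ≠ 0 := by
      rwa [Ne, map_eq_zero_iff _ (iW_injective ℓ), map_eq_zero_iff _ (ev_injective ℓ)]
    simp [h1.resolve_left h3]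
  obtain ⟨i, t₂, rfl, ht₂⟩ := (good_red ℓ).polynomial.content ht
  obtain ⟨k, P₂, hP₂, hP₂'⟩ := (good_red ℓ).polynomial.polynomial.content h0
  have hπ := iW_C_ell_ne_zero (ℓ := ℓ)
  have e1 : ev ℓ (C (ℓ : Zl ℓ)) = HahnSeries.C (ℓ : Zl ℓ) := by simp
  have e2 : D.EV (C (C (ℓ : Zl ℓ))) = HahnSeries.C (ℓ : Zl ℓ) := by simp
  rw [hP₂, map_mul (ev ℓ), map_mul D.EV, map_pow (ev ℓ), map_pow D.EV, e1, e2, map_mul, map_mul,
    map_pow, map_pow] at h1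
  rcases le_or_gt i k with hik | hik
  · obtain ⟨d, rfl⟩ := Nat.exists_eq_add_of_le hik
    refine ⟨t₂, C (C (ℓ : Zl ℓ)) ^ d * P₂, ht₂, ?_⟩
    apply mul_left_cancel₀ (pow_ne_zero i hπ)
    rw [map_mul, map_pow, e2, map_mul, map_pow, ← mul_assoc, h1, pow_add]
    ring
  · exfalso
    obtain ⟨d, rfl⟩ := Nat.exists_eq_add_of_lt hik
    have h4 : iW ℓ (HahnSeries.C (ℓ : Zl ℓ) ^ (d + 1) * ev ℓ t₂) * z = iW ℓ (D.EV P₂) := by
      apply mul_left_cancel₀ (pow_ne_zero k hπ)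
      rw [← h1, map_mul, map_pow]
      ring
    have h5 := gaussFun_spec (iW_injective ℓ) hzL h4
    rw [map_mul, map_pow, (good_W ℓ).map_eq_zero, zero_pow (Nat.succ_ne_zero d), zero_mul,
      zero_mul] at h5
    refine D.rW_EV_ne_zero hP₂' ?_ h5
    have h6 : P₁.degree = P₂.degree := by
      rw [hP₂, ← C_pow, ← C_pow]
      apply degree_C_mul
      rw [Ne, map_eq_zero_iff _ C_injective]
      exact pow_ne_zero _ (ell_ne_zero ℓ)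
    rwa [← h6]

end Fermat.Agent.S28
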