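import Mathlib

set_option autoImplicit false

/-! # S28: an integrality criterion over a normal domain -/

namespace Fermat.Agent.S28

open Polynomial

/-- If `A` is a normal domain, `π` a prime element, `π ∤ s`, and both `π z` and `s z` are
integral over `A`, then so is `z`. -/
theorem isIntegral_of_prime_smul_of_smul {A L : Type*} [CommRing A] [IsDomain A]
    [IsIntegrallyClosed A] [Field L] [Algebra A L] [FaithfulSMul A L] {π s : A} (hπ : Prime π)
    (hs : ¬ π ∣ s) {z : L} (h1 : IsIntegral A (π • z)) (h2 : IsIntegral A (s • z)) :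
    IsIntegral A z := by
  let K := FractionRing A
  letI : Algebra K L := FractionRing.liftAlgebra A L
  haveI : IsScalarTower A K L := FractionRing.isScalarTower_liftAlgebra A L
  have hinj : Function.Injective (algebraMap A K) := IsFractionRing.injective A K
  have hπ0 : algebraMap A K π ≠ 0 := by
    rw [Ne, map_eq_zero_iff _ hinj]; exact hπ.ne_zero
  have hs0 : algebraMap A K s ≠ 0 := by
    rw [Ne, map_eq_zero_iff _ hinj]; exact fun h => hs (h ▸ dvd_zero π)
  have hzK : IsIntegral K z := by
    have h3 : IsIntegral K (π • z) := h1.tower_top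
    have h4 : z = (algebraMap A K π)⁻¹ • (π • z) := by
      rw [← algebraMap_smul K π z, smul_smul, inv_mul_cancel₀ hπ0, one_smul]
    rw [h4]
    exact h3.smul _
  set m := minpoly K z with hm
  have e1 : (minpoly A (π • z)).map (algebraMap A K) = m.scaleRoots (algebraMap A K π) := by
    rw [← minpoly.isIntegrallyClosed_eq_field_fractions' K h1, hm,
      ← IsIntegrallyClosed.minpoly_smul hπ0 hzK, algebraMap_smul]
  have e2 : (minpoly A (s • z)).map (algebraMap A K) = m.scaleRoots (algebraMap A K s) := by
    rw [← minpoly.isIntegrallyClosed_eq_field_fractions' K h2, hm,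
      ← IsIntegrallyClosed.minpoly_smul hs0 hzK, algebraMap_smul]
  have hc : ∀ i, ∃ a : A, algebraMap A K a = m.coeff i := by
    intro i
    have c1 := congrArg (fun p => p.coeff i) e1
    have c2 := congrArg (fun p => p.coeff i) e2
    simp only [coeff_map, coeff_scaleRoots] at c1 c2
    set k := m.natDegree - i
    set a1 := (minpoly A (π • z)).coeff i
    set a2 := (minpoly A (s • z)).coeff i
    have h5 : a1 * s ^ k = a2 * π ^ k := by
      apply hinj
      rw [map_mul, map_mul, map_pow, map_pow, c1, c2]
      ring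
    obtain ⟨a, ha⟩ : π ^ k ∣ a1 :=
      hπ.pow_dvd_of_dvd_mul_right k (fun h => hs (hπ.dvd_of_dvd_pow h)) (Dvd.intro_left _ h5.symm)
    refine ⟨a, ?_⟩
    rw [ha, map_mul, map_pow, mul_comm] at c1
    exact mul_right_cancel₀ (pow_ne_zero k hπ0) c1
  have hlifts : m ∈ Polynomial.lifts (algebraMap A K) :=
    (Polynomial.lifts_iff_coeff_lifts m).mpr fun i => hc i
  obtain ⟨m', hm'm, -, hm'monic⟩ :=
    Polynomial.lifts_and_natDegree_eq_and_monic hlifts (minpoly.monic hzK)
  refine ⟨m', hm'monic, ?_⟩
  rw [← aeval_def, ← aeval_map_algebraMap K, hm'm, minpoly.aeval]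

end Fermat.Agent.S28
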