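import Mathlib
import Fermat.Agent.S28.ChartB
import Fermat.Agent.S28.Cop

set_option autoImplicit false
set_option synthInstance.maxHeartbeats 400000

/-! # S28: the kernel of the reduction map on a chart algebra -/

namespace Fermat.Agent.S28

open Polynomial ModularCurve ModularCurve.IgusaScheme

variable {ℓ : ℕ} [Fact ℓ.Prime] {N : ℕ} [NeZero N]

theorem coe_aeval_jFull (s : (Zl ℓ)[X]) :
    ((aeval (jFull N) s : ↥(modularFunctionFieldFull N)) : LaurentSeries ℚ) = iW ℓ (ev ℓ s) := by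
  have h : ((algebraMap ↥(modularFunctionFieldFull N) (LaurentSeries ℚ)).comp
      (aeval (jFull N) : (Zl ℓ)[X] →ₐ[Zl ℓ] ↥(modularFunctionFieldFull N)).toRingHom) =
      (iW ℓ).comp (ev ℓ) := by
    apply Polynomial.ringHom_ext
    · intro a
      have := coe_algebraMap_Zl ℓ N a
      simpa using this
    · simp [iW_jq]
  exact congrArg (fun f => f s) h

theorem transcendental_jFull : Transcendental (Zl ℓ) (jFull N) := by
  rw [transcendental_iff_injective]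
  intro p q hpq
  apply ev_injective ℓ
  apply iW_injective ℓ
  rw [← coe_aeval_jFull (N := N), ← coe_aeval_jFull (N := N), hpq]

theorem transcendental_jFull_inv : Transcendental (Zl ℓ) (jFull N)⁻¹ :=
  fun h => transcendental_jFull (IsAlgebraic.inv_iff.mp h)

theorem natCast_laurent_zmod : ((ℓ : ℕ) : LaurentSeries (ZMod ℓ)) = 0 := by
  rw [← map_natCast (HahnSeries.C : ZMod ℓ →+* LaurentSeries (ZMod ℓ)), ZMod.natCast_self, map_zero]

theorem iW_C_ell : iW ℓ (HahnSeries.C (ℓ : Zl ℓ)) = ((ℓ : ℕ) : LaurentSeries ℚ) := by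
  rw [map_natCast, map_natCast]

theorem exists_psi_of (t : ↥(modularFunctionFieldFull N)) (ht : Transcendental (Zl ℓ) t)
    (htL : (t : LaurentSeries ℚ) ∈ Lring ℓ)
    (hc : ∀ z : ↥(modularFunctionFieldFull N), (z : LaurentSeries ℚ) ∈ Lring ℓ →
      ∃ s' ∈ Algebra.adjoin (Zl ℓ) {t}, rFun ℓ (s' : LaurentSeries ℚ) ≠ 0 ∧
        s' * z ∈ chartAlg N ℓ {t}) :
    ∃ ψ : ↥(chartAlg N ℓ {t}) →+* LaurentSeries (ZMod ℓ),
      ∀ b, ψ b = 0 → ∃ b', b = (ℓ : ↥(chartAlg N ℓ {t})) * b' := by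
  have hS : ∀ x ∈ ({t} : Set ↥(modularFunctionFieldFull N)), (x : LaurentSeries ℚ) ∈ Lring ℓ := by
    rintro x rfl; exact htL
  refine ⟨psi ℓ N {t} hS, fun b hb => ?_⟩
  rw [psi_apply] at hb
  obtain ⟨y, hy, hby⟩ := exists_of_gaussFun_eq_zero (good_W ℓ) (iW_injective ℓ)
    (chartAlg_le_gaussV ℓ N _ hS b b.2) hb
  have hℓF : ((ℓ : ℕ) : ↥(modularFunctionFieldFull N)) ≠ 0 :=
    Nat.cast_ne_zero.mpr (Fact.out : ℓ.Prime).ne_zero
  have hℓE : ((ℓ : ℕ) : LaurentSeries ℚ) ≠ 0 := by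
    rw [← iW_C_ell]; exact iW_C_ell_ne_zero
  set z : ↥(modularFunctionFieldFull N) := ((ℓ : ℕ) : ↥(modularFunctionFieldFull N))⁻¹ * b with hz
  have hbz : (b : ↥(modularFunctionFieldFull N)) = ((ℓ : ℕ) : ↥(modularFunctionFieldFull N)) * z := by
    rw [hz]; field_simp
  have hzy : (z : LaurentSeries ℚ) = y := by
    apply mul_left_cancel₀ hℓE
    rw [← iW_C_ell, ← hby, hbz, iW_C_ell]
    push_cast
    rfl
  obtain ⟨s', hs', hs'0, hs'z⟩ := hc z (hzy ▸ hy)
  have hIC : IsIntegrallyClosed ↥(Algebra.adjoin (Zl ℓ) {t}) :=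
    IsIntegrallyClosed.of_equiv (Polynomial.algEquivOfTranscendental (Zl ℓ) t ht).toRingEquiv
  have hFS : FaithfulSMul ↥(Algebra.adjoin (Zl ℓ) {t}) ↥(modularFunctionFieldFull N) :=
    (faithfulSMul_iff_algebraMap_injective _ _).mpr Subtype.val_injective
  have hprime : Prime ((ℓ : ℕ) : ↥(Algebra.adjoin (Zl ℓ) {t})) := by
    have h1 : Prime (C (ℓ : Zl ℓ)) :=
      (good_red ℓ).polynomial.prime (by
        rw [Ne, map_eq_zero_iff _ C_injective]; exact ell_ne_zero ℓ)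
    have h2 := (MulEquiv.prime_iff (Polynomial.algEquivOfTranscendental (Zl ℓ) t ht)).mpr h1
    have h3 : Polynomial.algEquivOfTranscendental (Zl ℓ) t ht (C (ℓ : Zl ℓ)) =
        ((ℓ : ℕ) : ↥(Algebra.adjoin (Zl ℓ) {t})) := by
      rw [map_natCast, map_natCast]
    rwa [h3] at h2
  have hnd : ¬ ((ℓ : ℕ) : ↥(Algebra.adjoin (Zl ℓ) {t})) ∣ ⟨s', hs'⟩ := by
    rintro ⟨c, hc'⟩
    apply hs'0
    have h1 : s' = ((ℓ : ℕ) : ↥(modularFunctionFieldFull N)) * (c : ↥(modularFunctionFieldFull N)) := by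
      have := congrArg Subtype.val hc'
      simpa using this
    have h2 : (⟨s', adjoin_le_chartAlg N ℓ _ hs'⟩ : ↥(chartAlg N ℓ {t})) =
        ((ℓ : ℕ) : ↥(chartAlg N ℓ {t})) * ⟨c, adjoin_le_chartAlg N ℓ _ c.2⟩ :=
      Subtype.ext (by simpa using h1)
    have h3 : psi ℓ N {t} hS ⟨s', adjoin_le_chartAlg N ℓ _ hs'⟩ = 0 := by
      rw [h2, map_mul, map_natCast, natCast_laurent_zmod, zero_mul]
    exact h3
  have hint : IsIntegral ↥(Algebra.adjoin (Zl ℓ) {t}) z := by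
    refine isIntegral_of_prime_smul_of_smul hprime hnd ?_ ?_
    · have h4 : ((ℓ : ℕ) : ↥(Algebra.adjoin (Zl ℓ) {t})) • z = b := by
        rw [hbz, Subalgebra.smul_def]
        simp
      rw [h4]
      exact b.2
    · exact hs'z
  refine ⟨⟨z, hint⟩, Subtype.ext ?_⟩
  simpa using hbz

end Fermat.Agent.S28
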