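import Mathlib
import Fermat.Agent.S28.ChartC

set_option autoImplicit false
set_option synthInstance.maxHeartbeats 400000

/-! # S28: ALG: the reduction maps on the three chart algebras -/

namespace Fermat.Agent.S28

open Polynomial ModularCurve ModularCurve.IgusaScheme

variable {ℓ : ℕ} [Fact ℓ.Prime] {N : ℕ} [NeZero N]

theorem gaussFun_mul {W E k : Type*} [CommRing W] [Field E] [Field k] {ι : W →+* E} {ρ : W →+* k}
    (hι : Function.Injective ι) {x y : E} (hx : x ∈ gaussRing ι ρ) (hy : y ∈ gaussRing ι ρ) :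
    gaussFun ι ρ (x * y) = gaussFun ι ρ x * gaussFun ι ρ y :=
  map_mul (gaussMap ρ hι) ⟨x, hx⟩ ⟨y, hy⟩

theorem gaussFun_pow {W E k : Type*} [CommRing W] [Field E] [Field k] {ι : W →+* E} {ρ : W →+* k}
    (hι : Function.Injective ι) {x : E} (hx : x ∈ gaussRing ι ρ) (n : ℕ) :
    gaussFun ι ρ (x ^ n) = gaussFun ι ρ x ^ n :=
  map_pow (gaussMap ρ hι) ⟨x, hx⟩ n

theorem gaussFun_one {W E k : Type*} [CommRing W] [Field E] [Field k] {ι : W →+* E} {ρ : W →+* k}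
    (hι : Function.Injective ι) : gaussFun ι ρ 1 = 1 :=
  map_one (gaussMap ρ hι)

theorem rFun_mul {x y : LaurentSeries ℚ} (hx : x ∈ Lring ℓ) (hy : y ∈ Lring ℓ) :
    rFun ℓ (x * y) = rFun ℓ x * rFun ℓ y :=
  gaussFun_mul (iW_injective ℓ) hx hy

theorem rFun_pow {x : LaurentSeries ℚ} (hx : x ∈ Lring ℓ) (n : ℕ) :
    rFun ℓ (x ^ n) = rFun ℓ x ^ n :=
  gaussFun_pow (iW_injective ℓ) hx n

theorem rFun_one : rFun ℓ 1 = 1 := gaussFun_one (iW_injective ℓ)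

theorem rFun_iW (a : LaurentSeries (Zl ℓ)) : rFun ℓ (iW ℓ a) = rW ℓ a :=
  gaussFun_map (iW_injective ℓ) a

theorem IgusaData.isIntegral_of_coe_eq (D : IgusaData N ℓ) (y : ↥(modularFunctionFieldFull N))
    (P : (Zl ℓ)[X][X]) (hy : (y : LaurentSeries ℚ) = iW ℓ (D.EV P)) :
    IsIntegral ↥(Algebra.adjoin (Zl ℓ) {jFull N}) y := by
  obtain ⟨p, hp, hp0⟩ := D.isIntegralElem_EV P
  set φ : (Zl ℓ)[X] →+* ↥(Algebra.adjoin (Zl ℓ) {jFull N}) :=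
    (aeval (⟨jFull N, Algebra.self_mem_adjoin_singleton _ _⟩ :
      ↥(Algebra.adjoin (Zl ℓ) {jFull N}))).toRingHom with hφ
  refine ⟨p.map φ, hp.map φ, ?_⟩
  rw [eval₂_map]
  apply Subtype.val_injective
  have h1 : (algebraMap ↥(modularFunctionFieldFull N) (LaurentSeries ℚ)).comp
      ((algebraMap ↥(Algebra.adjoin (Zl ℓ) {jFull N}) ↥(modularFunctionFieldFull N)).comp φ) =
      (iW ℓ).comp (ev ℓ) := by
    refine RingHom.ext fun s => ?_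
    rw [RingHom.comp_apply, RingHom.comp_apply, RingHom.comp_apply, ← coe_aeval_jFull (N := N)]
    have h4 : ((φ s : ↥(Algebra.adjoin (Zl ℓ) {jFull N})) : ↥(modularFunctionFieldFull N)) =
        aeval (jFull N) s :=
      (Subalgebra.aeval_coe (Algebra.adjoin (Zl ℓ) {jFull N})
        ⟨jFull N, Algebra.self_mem_adjoin_singleton _ _⟩ s).symm
    exact congrArg Subtype.val h4
  have h2 : algebraMap ↥(modularFunctionFieldFull N) (LaurentSeries ℚ)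
      (eval₂ ((algebraMap ↥(Algebra.adjoin (Zl ℓ) {jFull N}) ↥(modularFunctionFieldFull N)).comp φ)
        y p) = 0 := by
    rw [hom_eval₂, h1]
    have h3 : algebraMap ↥(modularFunctionFieldFull N) (LaurentSeries ℚ) y = iW ℓ (D.EV P) := hy
    rw [h3, ← hom_eval₂, hp0, map_zero]
  exact h2

theorem IgusaData.hc_fin (D : IgusaData N ℓ) (z : ↥(modularFunctionFieldFull N))
    (hz : (z : LaurentSeries ℚ) ∈ Lring ℓ) :
    ∃ s' ∈ Algebra.adjoin (Zl ℓ) {jFull N}, rFun ℓ (s' : LaurentSeries ℚ) ≠ 0 ∧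
      s' * z ∈ chartAlg N ℓ {jFull N} := by
  obtain ⟨s, P, hs, h⟩ := D.igusa_step z.2 hz
  refine ⟨aeval (jFull N) s, aeval_mem_adjoin_singleton _ _, ?_, ?_⟩
  · rw [coe_aeval_jFull, rFun_iW, rW_ev, Ne,
      map_eq_zero_iff _ (evBar_injective ℓ)]
    exact hs
  · rw [mem_chartAlg_iff]
    apply D.isIntegral_of_coe_eq _ P
    rw [← h, ← coe_aeval_jFull (N := N)]
    rfl

theorem IgusaData.hc_inf (D : IgusaData N ℓ) (z : ↥(modularFunctionFieldFull N))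
    (hz : (z : LaurentSeries ℚ) ∈ Lring ℓ) :
    ∃ s' ∈ Algebra.adjoin (Zl ℓ) {(jFull N)⁻¹}, rFun ℓ (s' : LaurentSeries ℚ) ≠ 0 ∧
      s' * z ∈ chartAlg N ℓ {(jFull N)⁻¹} := by
  obtain ⟨s₁, hs₁, hs₁0, hs₁z⟩ := D.hc_fin z hz
  have hw0 : (jFull N)⁻¹ ≠ 0 := inv_ne_zero (jFull_ne_zero N)
  have hsub : ({jFull N} : Set ↥(modularFunctionFieldFull N)) ⊆
      insert (jFull N)⁻¹⁻¹ {(jFull N)⁻¹} := by
    rw [inv_inv]
    exact Set.singleton_subset_iff.mpr (Set.mem_insert _ _)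
  obtain ⟨m, hm⟩ := exists_pow_mul_mem_adjoin (ℓ := ℓ) (Set.mem_singleton (jFull N)⁻¹) hw0
    (Algebra.adjoin_mono hsub hs₁)
  obtain ⟨n, hn⟩ := exists_pow_mul_mem_chartAlg (Set.mem_singleton (jFull N)⁻¹) hw0
    (chartAlg_mono N ℓ hsub hs₁z)
  refine ⟨(jFull N)⁻¹ ^ n * ((jFull N)⁻¹ ^ m * s₁),
    mul_mem (pow_mem (Algebra.self_mem_adjoin_singleton _ _) n) hm, ?_, ?_⟩
  · have hs₁L : (s₁ : LaurentSeries ℚ) ∈ Lring ℓ :=
      adjoin_le_gaussV ℓ N {jFull N} (by rintro x rfl; exact jq_mem_Lring ℓ) s₁ hs₁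
    have hwL := jq_inv_mem_Lring ℓ
    have hw : rFun ℓ (jq⁻¹) ≠ 0 := by
      intro h0
      have h1 := rFun_mul hwL (jq_mem_Lring ℓ)
      rw [inv_mul_cancel₀ jq_ne_zero, rFun_one, h0, zero_mul] at h1
      exact one_ne_zero h1
    have h2 : (((jFull N)⁻¹ ^ n * ((jFull N)⁻¹ ^ m * s₁) : ↥(modularFunctionFieldFull N)) :
        LaurentSeries ℚ) = jq⁻¹ ^ n * (jq⁻¹ ^ m * (s₁ : LaurentSeries ℚ)) := by
      push_cast
      rfl
    rw [h2, rFun_mul (pow_mem hwL n) (mul_mem (pow_mem hwL m) hs₁L),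
      rFun_mul (pow_mem hwL m) hs₁L, rFun_pow hwL, rFun_pow hwL]
    exact mul_ne_zero (pow_ne_zero _ hw) (mul_ne_zero (pow_ne_zero _ hw) hs₁0)
  · have h3 : (jFull N)⁻¹ ^ n * ((jFull N)⁻¹ ^ m * s₁) * z =
        (jFull N)⁻¹ ^ m * ((jFull N)⁻¹ ^ n * (s₁ * z)) := by ring
    rw [h3]
    exact mul_mem (pow_mem (subset_chartAlg N ℓ {(jFull N)⁻¹} (Set.mem_singleton _)) m) hn

theorem exists_psi_fin (D : IgusaData N ℓ) :
    ∃ ψ : ↥(chartAlgFin N ℓ) →+* LaurentSeries (ZMod ℓ),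
      ∀ b, ψ b = 0 → ∃ b', b = (ℓ : ↥(chartAlgFin N ℓ)) * b' :=
  exists_psi_of (jFull N) transcendental_jFull (jq_mem_Lring ℓ) D.hc_fin

theorem exists_psi_inf (D : IgusaData N ℓ) :
    ∃ ψ : ↥(chartAlgInf N ℓ) →+* LaurentSeries (ZMod ℓ),
      ∀ b, ψ b = 0 → ∃ b', b = (ℓ : ↥(chartAlgInf N ℓ)) * b' :=
  exists_psi_of (jFull N)⁻¹ transcendental_jFull_inv (jq_inv_mem_Lring ℓ) D.hc_inf

theorem exists_psi_mid (_D : IgusaData N ℓ) :
    Nonempty (↥(chartAlgMid N ℓ) →+* LaurentSeries (ZMod ℓ)) :=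
  nonempty_psi_mid ℓ N

end Fermat.Agent.S28
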