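import Mathlib
import Fermat.Agent.S28.AnData
import Fermat.Agent.S28.Rat

set_option autoImplicit false

/-! # S28 (MOD): the output of the modular part -/

namespace Fermat.Agent.S28

/-- MOD -/
theorem exists_igusaData (N : ℕ) [NeZero N] (ℓ : ℕ) [Fact ℓ.Prime] (hℓN : ¬ ℓ ∣ N) :
    Nonempty (IgusaData N ℓ) := by
  obtain ⟨D⟩ := exists_anData N (Rl ℓ) (fun ω h => mem_Rl_of_pow_eq_one ℓ ω N (NeZero.ne N) h)
    (natCast_inv_mem_Rl ℓ N hℓN)
  exact igusaData_of_anData N ℓ hℓN D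

end Fermat.Agent.S28
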