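import Mathlib
import Fermat.Prelude.Def_ModularCurve_IgusaScheme

set_option autoImplicit false

/-! # S28 [SCH]: the scheme-theoretic glue -/

open AlgebraicGeometry CategoryTheory CategoryTheory.Limits ModularCurve ModularCurve.IgusaScheme

namespace Fermat.Agent.S28

universe u

/-- a scheme covered by integral open subschemes all meeting a fixed one is integral. -/
theorem isIntegral_of_openCover {P : Scheme.{u}} (𝒱 : P.OpenCover) [∀ i, IsIntegral (𝒱.X i)]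
    (i₀ : 𝒱.I₀) (h : ∀ i, (Set.range (𝒱.f i) ∩ Set.range (𝒱.f i₀)).Nonempty) : IsIntegral P := by
  have : IsReduced P := IsReduced.of_openCover P 𝒱
  have hirr : ∀ i, IsIrreducible (Set.range (𝒱.f i)) := by
    intro i
    rw [← Set.image_univ]
    exact (IrreducibleSpace.isIrreducible_univ (𝒱.X i)).image _ (𝒱.f i).continuous.continuousOn
  have hopen : IsOpen (Set.range (𝒱.f i₀)) := (𝒱.f i₀).isOpenEmbedding.isOpen_range
  have hsub : ∀ i, Set.range (𝒱.f i) ⊆ closure (Set.range (𝒱.f i₀)) := by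
    intro i
    refine (subset_closure_inter_of_isPreirreducible_of_isOpen (hirr i).isPreirreducible hopen
      (h i)).trans (closure_mono Set.inter_subset_right)
  have huniv : closure (Set.range (𝒱.f i₀)) = Set.univ := by
    rw [Set.eq_univ_iff_forall]
    intro x
    obtain ⟨i, y, rfl⟩ := 𝒱.exists_eq x
    exact hsub i ⟨y, rfl⟩
  have : IrreducibleSpace P := by
    rw [irreducibleSpace_def, Set.top_eq_univ, ← huniv]
    exact (hirr i₀).closure
  exact isIntegral_of_irreducibleSpace_of_isReduced P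

/-- base change of a cover by charts all receiving a map from a fixed chart. -/
theorem isIntegral_pullback_of_openCover {X Y Z : Scheme.{u}} (f : X ⟶ Z) (g : Y ⟶ Z)
    (𝒰 : X.OpenCover) (i₀ : 𝒰.I₀) (hint : ∀ i, IsIntegral (pullback (𝒰.f i ≫ f) g))
    (ht : ∀ i, ∃ t : 𝒰.X i₀ ⟶ 𝒰.X i, t ≫ 𝒰.f i = 𝒰.f i₀) : IsIntegral (pullback f g) := by
  have : ∀ i, IsIntegral ((Scheme.Pullback.openCoverOfLeft 𝒰 f g).X i) := hint
  refine isIntegral_of_openCover (Scheme.Pullback.openCoverOfLeft 𝒰 f g) i₀ ?_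
  intro (i : 𝒰.I₀)
  obtain ⟨t, ht⟩ := ht i
  obtain ⟨y⟩ : Nonempty ↥(pullback (𝒰.f i₀ ≫ f) g) := inferInstance
  let h : pullback (𝒰.f i₀ ≫ f) g ⟶ pullback (𝒰.f i ≫ f) g :=
    pullback.map _ _ _ _ t (𝟙 _) (𝟙 _) (by rw [Category.comp_id, ← Category.assoc, ht]) (by simp)
  have hh : h ≫ pullback.map (𝒰.f i ≫ f) g f g (𝒰.f i) (𝟙 Y) (𝟙 Z) (by simp) (by simp) =
      pullback.map (𝒰.f i₀ ≫ f) g f g (𝒰.f i₀) (𝟙 Y) (𝟙 Z) (by simp) (by simp) := by
    apply pullback.hom_ext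
    · rw [Category.assoc, pullback.lift_fst, pullback.lift_fst, pullback.lift_fst_assoc,
        Category.assoc, ht]
    · rw [Category.assoc, pullback.lift_snd, pullback.lift_snd, pullback.lift_snd_assoc,
        Category.comp_id, Category.comp_id]
  have hh' : h ≫ (Scheme.Pullback.openCoverOfLeft 𝒰 f g).f i =
      (Scheme.Pullback.openCoverOfLeft 𝒰 f g).f i₀ := hh
  refine ⟨(Scheme.Pullback.openCoverOfLeft 𝒰 f g).f i₀ y, ⟨h y, ?_⟩, ⟨y, rfl⟩⟩
  rw [← hh']
  rfl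

section

variable (N : ℕ) [NeZero N] (ℓ : ℕ) [Fact ℓ.Prime] (K : Type) [Field K]
  [Algebra ↥(GaloisRep.ratLocalizedAt ℓ) K]

set_option quotPrecheck false in
local notation "ℤℓ" => ↥(GaloisRep.ratLocalizedAt ℓ)

omit [Fact ℓ.Prime] in
lemma isIntegral_pullback_Spec (B : Type) [CommRing B] [Algebra ℤℓ B]
    (hB : IsDomain (TensorProduct ℤℓ B K)) {f : Spec (CommRingCat.of B) ⟶ Spec (CommRingCat.of ℤℓ)}
    (hf : f = Spec.map (CommRingCat.ofHom (algebraMap ℤℓ B))) :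
    IsIntegral (pullback f (Spec.map (CommRingCat.ofHom (algebraMap ℤℓ K)))) := by
  subst hf
  have : IsDomain (CommRingCat.of (TensorProduct ℤℓ B K)) := hB
  exact IsIntegral.of_isIso (pullbackSpecIso ℤℓ B K).inv

lemma mid_igusaTo : (fFin N ℓ ≫ ιFin N ℓ) ≫ igusaTo N ℓ =
    Spec.map (CommRingCat.ofHom (algebraMap ℤℓ (chartAlgMid N ℓ))) := by
  rw [Category.assoc, ιFin_igusaTo, ← Spec.map_comp, ← CommRingCat.ofHom_comp]
  congr 2

theorem isIntegral_pullback_of_isDomain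
    (hFin : IsDomain (TensorProduct ℤℓ ↥(chartAlgFin N ℓ) K))
    (hInf : IsDomain (TensorProduct ℤℓ ↥(chartAlgInf N ℓ) K))
    (hMid : IsDomain (TensorProduct ℤℓ ↥(chartAlgMid N ℓ) K)) :
    IsIntegral ↑(pullback (igusaTo N ℓ)
      (Spec.map (CommRingCat.ofHom (algebraMap ℤℓ K)))) := by
  have wFin : fFin N ℓ ≫ ιFin N ℓ = colimit.ι (span (fFin N ℓ) (fInf N ℓ)) WalkingSpan.zero :=
    colimit.w (span (fFin N ℓ) (fInf N ℓ)) WalkingSpan.Hom.fst
  have wInf : fInf N ℓ ≫ ιInf N ℓ = colimit.ι (span (fFin N ℓ) (fInf N ℓ)) WalkingSpan.zero :=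
    colimit.w (span (fFin N ℓ) (fInf N ℓ)) WalkingSpan.Hom.snd
  refine isIntegral_pullback_of_openCover (igusaTo N ℓ) _
    (Scheme.IsLocallyDirected.openCover (span (fFin N ℓ) (fInf N ℓ))) WalkingSpan.zero ?_ ?_
  · rintro (_ | _ | _)
    · refine isIntegral_pullback_Spec ℓ K _ hMid ?_
      exact (congrArg (· ≫ igusaTo N ℓ) wFin.symm).trans (mid_igusaTo N ℓ)
    · exact isIntegral_pullback_Spec ℓ K _ hFin (ιFin_igusaTo N ℓ)
    · exact isIntegral_pullback_Spec ℓ K _ hInf (ιInf_igusaTo N ℓ)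
  · rintro (_ | _ | _)
    · exact ⟨𝟙 _, Category.id_comp _⟩
    · exact ⟨fFin N ℓ, wFin⟩
    · exact ⟨fInf N ℓ, wInf⟩

end

end Fermat.Agent.S28
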