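import Mathlib
import Fermat.Agent.S28.Defs
import Fermat.Agent.S28.Sch

set_option autoImplicit false

/-! # S28 [SCH]: final form -/

open AlgebraicGeometry CategoryTheory CategoryTheory.Limits ModularCurve ModularCurve.IgusaScheme
open TensorProduct

namespace Fermat.Agent.S28

universe u

/-- a chart mapping to an integral chart is integral as soon as it is nonempty. -/
theorem isIntegral_pullback_of_factor {X Y Z : Scheme.{u}} (f : X ⟶ Z) (g : Y ⟶ Z)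
    (𝒰 : X.OpenCover) (i i₀ : 𝒰.I₀) (t : 𝒰.X i₀ ⟶ 𝒰.X i) (ht : t ≫ 𝒰.f i = 𝒰.f i₀)
    (hint : IsIntegral (pullback (𝒰.f i ≫ f) g)) (hne : Nonempty ↥(pullback (𝒰.f i₀ ≫ f) g)) :
    IsIntegral (pullback (𝒰.f i₀ ≫ f) g) := by
  let h : pullback (𝒰.f i₀ ≫ f) g ⟶ pullback (𝒰.f i ≫ f) g :=
    pullback.map _ _ _ _ t (𝟙 _) (𝟙 _) (by rw [Category.comp_id, ← Category.assoc, ht]) (by simp)
  have hh : h ≫ pullback.map (𝒰.f i ≫ f) g f g (𝒰.f i) (𝟙 Y) (𝟙 Z) (by simp) (by simp) =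
      pullback.map (𝒰.f i₀ ≫ f) g f g (𝒰.f i₀) (𝟙 Y) (𝟙 Z) (by simp) (by simp) := by
    apply pullback.hom_ext
    · rw [Category.assoc, pullback.lift_fst, pullback.lift_fst, pullback.lift_fst_assoc,
        Category.assoc, ht]
    · rw [Category.assoc, pullback.lift_snd, pullback.lift_snd, pullback.lift_snd_assoc,
        Category.comp_id, Category.comp_id]
  have h1 : IsOpenImmersion (pullback.map (𝒰.f i ≫ f) g f g (𝒰.f i) (𝟙 Y) (𝟙 Z) (by simp)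
      (by simp)) :=
    (Scheme.Pullback.openCoverOfLeft 𝒰 f g).map_prop i
  have h2 : IsOpenImmersion (h ≫ pullback.map (𝒰.f i ≫ f) g f g (𝒰.f i) (𝟙 Y) (𝟙 Z) (by simp)
      (by simp)) := by
    rw [hh]
    exact (Scheme.Pullback.openCoverOfLeft 𝒰 f g).map_prop i₀
  have h3 : IsOpenImmersion h := IsOpenImmersion.of_comp h
    (pullback.map (𝒰.f i ≫ f) g f g (𝒰.f i) (𝟙 Y) (𝟙 Z) _ _)
  exact isIntegral_of_isOpenImmersion h

lemma nonempty_pullback_Spec (ℓ : ℕ) (K : Type) [Field K] [Algebra (Zl ℓ) K]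
    (B : Type) [CommRing B] [Algebra (Zl ℓ) B]
    (hB : Nontrivial (B ⊗[Zl ℓ] K)) {f : Spec (CommRingCat.of B) ⟶ Spec (CommRingCat.of (Zl ℓ))}
    (hf : f = Spec.map (CommRingCat.ofHom (algebraMap (Zl ℓ) B))) :
    Nonempty ↥(pullback f (Spec.map (CommRingCat.ofHom (algebraMap (Zl ℓ) K)))) := by
  subst hf
  have : Nontrivial (CommRingCat.of (B ⊗[Zl ℓ] K)) := hB
  obtain ⟨x⟩ : Nonempty ↥(Spec (CommRingCat.of (B ⊗[Zl ℓ] K))) :=
    inferInstanceAs (Nonempty (PrimeSpectrum (B ⊗[Zl ℓ] K)))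
  exact ⟨(pullbackSpecIso (Zl ℓ) B K).inv x⟩

/-- SCH -/
theorem sch (N : ℕ) [NeZero N] (ℓ : ℕ) [Fact ℓ.Prime] (K : Type) [Field K] [Algebra (Zl ℓ) K]
    (hFin : IsDomain (↥(chartAlgFin N ℓ) ⊗[Zl ℓ] K))
    (hInf : IsDomain (↥(chartAlgInf N ℓ) ⊗[Zl ℓ] K))
    (hMid : Nontrivial (↥(chartAlgMid N ℓ) ⊗[Zl ℓ] K)) :
    IsIntegral ↑(pullback (igusaTo N ℓ)
      (Spec.map (CommRingCat.ofHom (algebraMap (Zl ℓ) K)))) := by
  have wFin : fFin N ℓ ≫ ιFin N ℓ = colimit.ι (span (fFin N ℓ) (fInf N ℓ)) WalkingSpan.zero :=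
    colimit.w (span (fFin N ℓ) (fInf N ℓ)) WalkingSpan.Hom.fst
  have wInf : fInf N ℓ ≫ ιInf N ℓ = colimit.ι (span (fFin N ℓ) (fInf N ℓ)) WalkingSpan.zero :=
    colimit.w (span (fFin N ℓ) (fInf N ℓ)) WalkingSpan.Hom.snd
  have iFin := isIntegral_pullback_Spec ℓ K _ hFin (ιFin_igusaTo N ℓ)
  refine isIntegral_pullback_of_openCover (igusaTo N ℓ) _
    (Scheme.IsLocallyDirected.openCover (span (fFin N ℓ) (fInf N ℓ))) WalkingSpan.zero ?_ ?_
  · rintro (_ | _ | _)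
    · refine isIntegral_pullback_of_factor (igusaTo N ℓ) _
        (Scheme.IsLocallyDirected.openCover (span (fFin N ℓ) (fInf N ℓ))) WalkingSpan.left
        WalkingSpan.zero (fFin N ℓ) wFin iFin ?_
      refine nonempty_pullback_Spec ℓ K _ hMid ?_
      exact (congrArg (· ≫ igusaTo N ℓ) wFin.symm).trans (mid_igusaTo N ℓ)
    · exact iFin
    · exact isIntegral_pullback_Spec ℓ K _ hInf (ιInf_igusaTo N ℓ)
  · rintro (_ | _ | _)
    · exact ⟨𝟙 _, Category.id_comp _⟩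
    · exact ⟨fFin N ℓ, wFin⟩
    · exact ⟨fInf N ℓ, wInf⟩

end Fermat.Agent.S28
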