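import Mathlib
import Fermat.Agent.S28.Defs
import Fermat.Agent.S28.Rings

set_option autoImplicit false

/-! # S28 ALG (e): the coprime lemma for integrality -/

namespace Fermat.Agent.S28.Alg

open Polynomial

/-- the minimal polynomial of `c * z`. -/
theorem minpoly_mul_eq_scaleRoots {K M : Type} [Field K] [Field M] [Algebra K M] (c : K)
    (hc : c ≠ 0) (z : M) (hz : IsIntegral K z) :
    minpoly K (algebraMap K M c * z) = (minpoly K z).scaleRoots c := by
  have hcz : IsIntegral K (algebraMap K M c * z) := isIntegral_algebraMap.mul hz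
  have h1 : aeval (algebraMap K M c * z) ((minpoly K z).scaleRoots c) = 0 :=
    scaleRoots_aeval_eq_zero (minpoly.aeval K z)
  have h2 : aeval z ((minpoly K (algebraMap K M c * z)).scaleRoots c⁻¹) = 0 := by
    have := scaleRoots_aeval_eq_zero (r := c⁻¹) (minpoly.aeval K (algebraMap K M c * z))
    rwa [← mul_assoc, ← map_mul, inv_mul_cancel₀ hc, map_one, one_mul] at this
  have h3 : (minpoly K z).natDegree ≤ (minpoly K (algebraMap K M c * z)).natDegree := by
    have := Polynomial.natDegree_le_of_dvd (minpoly.dvd K z h2)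
      (scaleRoots_ne_zero (minpoly.ne_zero hcz) _)
    rwa [natDegree_scaleRoots] at this
  exact (Polynomial.eq_of_monic_of_dvd_of_natDegree_le (minpoly.monic hcz)
    ((monic_scaleRoots_iff c).mpr (minpoly.monic hz)) (minpoly.dvd K _ h1)
    (by rw [natDegree_scaleRoots]; exact h3)).symm

theorem isIntegral_of_mul {A K : Type} [CommRing A] [IsDomain A] [IsIntegrallyClosed A] [Field K]
    [Algebra A K] [IsFractionRing A K] {M : Type} [Field M] [Algebra K M] [Algebra A M]
    [IsScalarTower A K M] (l s : A) (hl : Prime l) (hs : ¬ l ∣ s) (z : M)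
    (h1 : IsIntegral A (algebraMap A M l * z)) (h2 : IsIntegral A (algebraMap A M s * z)) :
    IsIntegral A z := by
  have hinj : Function.Injective (algebraMap A K) := IsFractionRing.injective A K
  have hl0 : algebraMap A K l ≠ 0 := by
    rw [Ne, map_eq_zero_iff _ hinj]
    exact hl.ne_zero
  have hs0 : algebraMap A K s ≠ 0 := by
    rw [Ne, map_eq_zero_iff _ hinj]
    rintro rfl
    exact hs (dvd_zero l)
  have hz : IsIntegral K z := by
    have h3 : IsIntegral K (algebraMap K M (algebraMap A K l) * z) := by
      rw [← IsScalarTower.algebraMap_apply]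
      exact h1.tower_top
    have h4 : IsIntegral K (algebraMap K M (algebraMap A K l)⁻¹ *
        (algebraMap K M (algebraMap A K l) * z)) := isIntegral_algebraMap.mul h3
    rwa [← mul_assoc, ← map_mul, inv_mul_cancel₀ hl0, map_one, one_mul] at h4
  set m := minpoly K z with hm
  -- the key fact
  have key : ∀ c : A, algebraMap A K c ≠ 0 → IsIntegral A (algebraMap A M c * z) → ∀ i,
      ∃ a : A, algebraMap A K a = m.coeff i * (algebraMap A K c) ^ (m.natDegree - i) := by
    intro c hc hcz i
    have h3 := minpoly.isIntegrallyClosed_eq_field_fractions' K hcz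
    rw [IsScalarTower.algebraMap_apply A K M, minpoly_mul_eq_scaleRoots _ hc z hz] at h3
    refine ⟨(minpoly A (algebraMap K M (algebraMap A K c) * z)).coeff i, ?_⟩
    rw [← Polynomial.coeff_map, ← h3, coeff_scaleRoots]
  have hlift : m ∈ Polynomial.lifts (algebraMap A K) := by
    rw [Polynomial.lifts_iff_coeff_lifts]
    intro i
    obtain ⟨a, ha⟩ := key l hl0 h1 i
    obtain ⟨a', ha'⟩ := key s hs0 h2 i
    have h3 : a * s ^ (m.natDegree - i) = a' * l ^ (m.natDegree - i) := by
      apply hinj
      rw [map_mul, map_mul, map_pow, map_pow, ha, ha']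
      ring
    have h4 : l ^ (m.natDegree - i) ∣ a :=
      hl.pow_dvd_of_dvd_mul_right _ (fun h => hs (hl.dvd_of_dvd_pow h))
        (h3.symm ▸ Dvd.intro_left a' rfl)
    obtain ⟨d, hd⟩ := h4
    refine ⟨d, ?_⟩
    have h5 : algebraMap A K d * (algebraMap A K l) ^ (m.natDegree - i) =
        m.coeff i * (algebraMap A K l) ^ (m.natDegree - i) := by
      rw [← ha, hd, map_mul, map_pow]
      ring
    exact mul_right_cancel₀ (pow_ne_zero _ hl0) h5
  obtain ⟨m', hm', -, hmon⟩ := Polynomial.lifts_and_natDegree_eq_and_monic hlift (minpoly.monic hz)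
  refine ⟨m', hmon, ?_⟩
  have h3 : aeval z m = 0 := minpoly.aeval K z
  rw [← hm', Polynomial.aeval_def, Polynomial.eval₂_map, ← IsScalarTower.algebraMap_eq] at h3
  exact h3

/-- the instance-free form. -/
theorem isIntegralElem_of_mul {P L : Type} [CommRing P] [IsDomain P] [IsIntegrallyClosed P]
    [Field L] (φ : P →+* L) (hφ : Function.Injective φ) (l s : P) (hl : Prime l) (hs : ¬ l ∣ s)
    (x : L) (h1 : φ.IsIntegralElem (φ l * x)) (h2 : φ.IsIntegralElem (φ s * x)) :
    φ.IsIntegralElem x := by
  letI : Algebra P L := φ.toAlgebra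
  letI : Algebra (FractionRing P) L := (IsFractionRing.lift hφ : FractionRing P →+* L).toAlgebra
  haveI : IsScalarTower P (FractionRing P) L := IsScalarTower.of_algebraMap_eq fun a =>
    (IsFractionRing.lift_algebraMap hφ a).symm
  exact isIntegral_of_mul (A := P) (K := FractionRing P) (M := L) l s hl hs x h1 h2

end Fermat.Agent.S28.Alg
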