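import Mathlib
import Fermat.Agent.S28.Rat

set_option autoImplicit false

/-! # S28 ALG (c): `1, ū, …, ū^(n-1)` are linearly independent over `𝔽_ℓ(j̄)` -/

namespace Fermat.Agent.S28.Alg

open ModularCurve Polynomial

theorem order_jqModC_neg (A : Type) [CommRing A] [Nontrivial A] : (jqModC A).order < 0 := by
  have h2 : (jqModC A).order ≤ -1 :=
    HahnSeries.order_le_of_coeff_ne_zero (by rw [coeff_jqModC_neg_one]; exact one_ne_zero)
  linarith

theorem ev1_injective (A : Type) [CommRing A] [IsDomain A] : Function.Injective (RAT.ev1 A) :=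
  eval₂_C_injective (jqModC A) (order_jqModC_neg A)

variable {N : ℕ} [NeZero N] {ℓ : ℕ} [Fact ℓ.Prime] (D : IgusaData N ℓ)

theorem root_red : (D.Ψ.map (Polynomial.mapRingHom (red ℓ))).eval₂ (RAT.ev1 (ZMod ℓ))
    (coeffMap (red ℓ) D.u) = 0 := by
  rw [← RAT.coeffMap_eval₂_ev1]
  have := D.root
  rw [RAT.ev1, this, map_zero]

theorem eq_zero_of_eval₂_eq_zero (y : (ZMod ℓ)[X][X]) (hdeg : y.degree < D.Ψ.degree)
    (h : y.eval₂ (RAT.ev1 (ZMod ℓ)) (coeffMap (red ℓ) D.u) = 0) : y = 0 := by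
  obtain ⟨ι, hι'⟩ : ∃ ι : RatFunc (ZMod ℓ) →+* LaurentSeries (ZMod ℓ),
      ∀ x, ι (algebraMap (ZMod ℓ)[X] (RatFunc (ZMod ℓ)) x) = RAT.ev1 (ZMod ℓ) x :=
    ⟨IsFractionRing.lift (ev1_injective (ZMod ℓ)), IsFractionRing.lift_algebraMap _⟩
  have hι : ι.comp (algebraMap (ZMod ℓ)[X] (RatFunc (ZMod ℓ))) = RAT.ev1 (ZMod ℓ) :=
    RingHom.ext hι'
  have hainj : Function.Injective (algebraMap (ZMod ℓ)[X] (RatFunc (ZMod ℓ))) :=
    IsFractionRing.injective _ _
  have hirr := D.irr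
  rw [← Polynomial.map_map] at hirr
  have h1 : (D.Ψ.map (Polynomial.mapRingHom (red ℓ))).map
      (algebraMap (ZMod ℓ)[X] (RatFunc (ZMod ℓ))) ∣
      y.map (algebraMap (ZMod ℓ)[X] (RatFunc (ZMod ℓ))) := by
    apply RAT.dvd_of_root ι (coeffMap (red ℓ) D.u) _ _ hirr
    · rw [Polynomial.eval₂_map, hι]
      exact root_red D
    · rw [Polynomial.eval₂_map, hι, h]
  have h2 := Polynomial.eq_zero_of_dvd_of_degree_lt h1 (by
    rw [Polynomial.degree_map_eq_of_injective hainj, Polynomial.degree_map_eq_of_injective hainj,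
      D.monic.degree_map]
    exact hdeg)
  exact (Polynomial.map_eq_zero_iff hainj).mp h2

end Fermat.Agent.S28.Alg
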