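import Mathlib
import Fermat.Agent.S28.Defs

set_option autoImplicit false
set_option maxHeartbeats 400000

/-! # S28 (ALG, a): the ring `𝒪` of series with `ℓ`-integral "content" and its reduction -/

namespace Fermat.Agent.S28.Alg

open ModularCurve Polynomial

variable (ℓ : ℕ) [Fact ℓ.Prime]

theorem red_natCast_self : red ℓ (ℓ : Zl ℓ) = 0 := by
  rw [map_natCast]
  exact ZMod.natCast_self ℓ

theorem den_mul_eq_num (a : Zl ℓ) : (((a : ℚ).den : ℕ) : Zl ℓ) * a = (((a : ℚ).num : ℤ) : Zl ℓ) := by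
  apply Subtype.ext
  push_cast
  exact Rat.den_mul_eq_num _

theorem red_eq_zero {a : Zl ℓ} (h : red ℓ a = 0) : ∃ a' : Zl ℓ, a = (ℓ : Zl ℓ) * a' := by
  have hℓ : ℓ.Prime := Fact.out
  have h1 := congrArg (red ℓ) (den_mul_eq_num ℓ a)
  rw [map_mul, h, mul_zero, map_intCast] at h1
  have h2 : (ℓ : ℤ) ∣ (a : ℚ).num := (ZMod.intCast_zmod_eq_zero_iff_dvd _ _).mp h1.symm
  obtain ⟨n', hn'⟩ := h2
  have hden : ((n' : ℚ) / ((a : ℚ).den : ℚ)).den.Coprime ℓ := by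
    have h3 : ((n' : ℚ) / ((a : ℚ).den : ℚ)).den ∣ (a : ℚ).den := by
      have := Rat.den_dvd n' ((a : ℚ).den : ℤ)
      exact_mod_cast this
    exact Nat.Coprime.coprime_dvd_left h3 a.2
  refine ⟨⟨(n' : ℚ) / ((a : ℚ).den : ℚ), hden⟩, ?_⟩
  apply Subtype.ext
  push_cast
  have h4 : ((a : ℚ).den : ℚ) ≠ 0 := by exact_mod_cast (a : ℚ).den_ne_zero
  have h5 : (a : ℚ) = ((a : ℚ).num : ℚ) / ((a : ℚ).den : ℚ) := (Rat.num_div_den _).symm
  rw [mul_div_assoc', eq_div_iff h4]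
  have h6 : (a : ℚ) * ((a : ℚ).den : ℚ) = ((a : ℚ).num : ℚ) := Rat.mul_den_eq_num _
  rw [h6, hn']
  push_cast
  ring

theorem exists_not_pow_dvd {c : Zl ℓ} (hc : c ≠ 0) : ∃ a : ℕ, ¬ (ℓ : Zl ℓ) ^ a ∣ c := by
  have hℓ : ℓ.Prime := Fact.out
  refine ⟨(c : ℚ).num.natAbs, ?_⟩
  rintro ⟨c', hc'⟩
  set a := (c : ℚ).num.natAbs with ha
  have hnum : (c : ℚ).num ≠ 0 := by
    rw [Rat.num_ne_zero]
    exact fun h => hc (Subtype.ext h)
  have h1 : (c : ℚ) = (ℓ : ℚ) ^ a * (c' : ℚ) := by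
    have := congrArg Subtype.val hc'
    simpa using this
  have h2 : (c : ℚ).num * ((c' : ℚ).den : ℤ) = (ℓ : ℤ) ^ a * (c' : ℚ).num * ((c : ℚ).den : ℤ) := by
    have e1 : (c : ℚ) * ((c : ℚ).den : ℚ) = ((c : ℚ).num : ℚ) := Rat.mul_den_eq_num _
    have e2 : (c' : ℚ) * ((c' : ℚ).den : ℚ) = ((c' : ℚ).num : ℚ) := Rat.mul_den_eq_num _
    have : (((c : ℚ).num * ((c' : ℚ).den : ℤ) : ℤ) : ℚ) =
        (((ℓ : ℤ) ^ a * (c' : ℚ).num * ((c : ℚ).den : ℤ) : ℤ) : ℚ) := by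
      push_cast
      rw [← e1, ← e2, h1]
      ring
    exact_mod_cast this
  have h3 : (ℓ : ℤ) ^ a ∣ (c : ℚ).num * ((c' : ℚ).den : ℤ) :=
    ⟨(c' : ℚ).num * ((c : ℚ).den : ℤ), by rw [h2]; ring⟩
  have h4 : IsCoprime ((ℓ : ℤ) ^ a) ((c' : ℚ).den : ℤ) := by
    apply IsCoprime.pow_left
    rw [Nat.isCoprime_iff_coprime]
    exact (Nat.Coprime.symm c'.2)
  have h5 : (ℓ : ℤ) ^ a ∣ (c : ℚ).num := h4.dvd_of_dvd_mul_right h3
  have h6 := Int.natAbs_le_of_dvd_ne_zero h5 hnum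
  rw [Int.natAbs_pow, Int.natAbs_natCast, ← ha] at h6
  exact absurd h6 (not_le.mpr (Nat.lt_pow_self hℓ.one_lt))

/-- the inclusion `ℤ_(ℓ)((q)) → ℚ((q))`. -/
noncomputable abbrev io : LaurentSeries (Zl ℓ) →+* LaurentSeries ℚ := coeffMap (incl ℓ)

/-- the reduction `ℤ_(ℓ)((q)) → 𝔽_ℓ((q))`. -/
noncomputable abbrev rh : LaurentSeries (Zl ℓ) →+* LaurentSeries (ZMod ℓ) := coeffMap (red ℓ)

omit [Fact ℓ.Prime] in
theorem io_injective : Function.Injective (io ℓ) := by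
  intro x y h
  ext n
  have := congrArg (fun z => z.coeff n) h
  simp only [coeffMap_coeff] at this
  exact congrArg Subtype.val (Subtype.ext this)

omit [Fact ℓ.Prime] in
theorem natCast_mul_coeff {A : Type} [CommRing A] (m : ℕ) (w : LaurentSeries A) (n : ℤ) :
    ((m : LaurentSeries A) * w).coeff n = (m : A) * w.coeff n := by
  have : (m : LaurentSeries A) = HahnSeries.C (m : A) := (map_natCast HahnSeries.C m).symm
  rw [this, HahnSeries.C_mul_eq_smul, HahnSeries.coeff_smul, smul_eq_mul]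

theorem rh_eq_zero {w : LaurentSeries (Zl ℓ)} (h : rh ℓ w = 0) :
    ∃ w' : LaurentSeries (Zl ℓ), w = (ℓ : LaurentSeries (Zl ℓ)) * w' := by
  have h1 : ∀ n, ∃ a' : Zl ℓ, w.coeff n = (ℓ : Zl ℓ) * a' := by
    intro n
    apply red_eq_zero
    have := congrArg (fun z => z.coeff n) h
    simpa using this
  choose c hc using h1
  have hsupp : Function.support c ⊆ w.support := by
    intro n hn
    rw [Function.mem_support] at hn
    rw [HahnSeries.mem_support, hc n]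
    have hℓ0 : (ℓ : Zl ℓ) ≠ 0 := by
      intro h0
      have := congrArg Subtype.val h0
      simp at this
      exact (Fact.out : ℓ.Prime).ne_zero this
    exact mul_ne_zero hℓ0 hn
  refine ⟨⟨c, w.isPWO_support.mono hsupp⟩, ?_⟩
  ext n
  rw [natCast_mul_coeff]
  exact congrArg Subtype.val (hc n)

theorem rh_natCast_self : rh ℓ (ℓ : LaurentSeries (Zl ℓ)) = 0 := by
  rw [map_natCast]
  have : ((ℓ : ℕ) : LaurentSeries (ZMod ℓ)) = HahnSeries.C ((ℓ : ℕ) : ZMod ℓ) :=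
    (map_natCast HahnSeries.C ℓ).symm
  rw [this, ZMod.natCast_self, map_zero]

/-- extraction of the content. -/
theorem exists_content {w : LaurentSeries (Zl ℓ)} (hw : w ≠ 0) :
    ∃ (a : ℕ) (w' : LaurentSeries (Zl ℓ)), w = (ℓ : LaurentSeries (Zl ℓ)) ^ a * w' ∧
      rh ℓ w' ≠ 0 := by
  classical
  obtain ⟨n, hn⟩ : ∃ n, w.coeff n ≠ 0 := by
    by_contra hcon
    push Not at hcon
    exact hw (HahnSeries.ext (funext hcon))
  have hex : ∃ a : ℕ, ¬ (ℓ : LaurentSeries (Zl ℓ)) ^ a ∣ w := by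
    obtain ⟨a, ha⟩ := exists_not_pow_dvd ℓ hn
    refine ⟨a, ?_⟩
    rintro ⟨w', hw'⟩
    apply ha
    refine ⟨w'.coeff n, ?_⟩
    rw [hw', ← Nat.cast_pow, natCast_mul_coeff]
    push_cast
    rfl
  set a := Nat.find hex with ha
  have ha1 : ¬ (ℓ : LaurentSeries (Zl ℓ)) ^ a ∣ w := Nat.find_spec hex
  have ha0 : a ≠ 0 := by
    intro h0
    rw [h0, pow_zero] at ha1
    exact ha1 (one_dvd _)
  obtain ⟨b, hb⟩ := Nat.exists_eq_succ_of_ne_zero ha0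
  have hb1 : (ℓ : LaurentSeries (Zl ℓ)) ^ b ∣ w := by
    by_contra hcon
    have := Nat.find_min' hex hcon
    omega
  obtain ⟨w', hw'⟩ := hb1
  refine ⟨b, w', hw', ?_⟩
  intro h0
  obtain ⟨w'', hw''⟩ := rh_eq_zero ℓ h0
  apply ha1
  rw [hb, Nat.succ_eq_add_one, pow_succ]
  exact ⟨w'', by rw [hw', hw'']; ring⟩

/-- the subring `𝒪` of `ℚ((q))`. -/
noncomputable def Ol : Subring (LaurentSeries ℚ) where
  carrier := {y | ∃ s w : LaurentSeries (Zl ℓ), rh ℓ s ≠ 0 ∧ io ℓ s * y = io ℓ w}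
  mul_mem' := by
    rintro y y' ⟨s, w, hs, h⟩ ⟨s', w', hs', h'⟩
    refine ⟨s * s', w * w', ?_, ?_⟩
    · rw [map_mul]
      exact mul_ne_zero hs hs'
    · rw [map_mul, map_mul, ← h, ← h']
      ring
  one_mem' := ⟨1, 1, by rw [map_one]; exact one_ne_zero, by rw [map_one, mul_one]⟩
  add_mem' := by
    rintro y y' ⟨s, w, hs, h⟩ ⟨s', w', hs', h'⟩
    refine ⟨s * s', s' * w + s * w', ?_, ?_⟩
    · rw [map_mul]
      exact mul_ne_zero hs hs'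
    · rw [map_mul, map_add, map_mul, map_mul, ← h, ← h']
      ring
  zero_mem' := ⟨1, 0, by rw [map_one]; exact one_ne_zero, by rw [map_zero, mul_zero]⟩
  neg_mem' := by
    rintro y ⟨s, w, hs, h⟩
    exact ⟨s, -w, hs, by rw [map_neg, ← h]; ring⟩

theorem mem_Ol {y : LaurentSeries ℚ} :
    y ∈ Ol ℓ ↔ ∃ s w : LaurentSeries (Zl ℓ), rh ℓ s ≠ 0 ∧ io ℓ s * y = io ℓ w := Iff.rfl

theorem io_mem_Ol (w : LaurentSeries (Zl ℓ)) : io ℓ w ∈ Ol ℓ :=
  ⟨1, w, by rw [map_one]; exact one_ne_zero, by rw [map_one, one_mul]⟩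

theorem ne_zero_of_rh_ne_zero {s : LaurentSeries (Zl ℓ)} (hs : rh ℓ s ≠ 0) : io ℓ s ≠ 0 := by
  intro h
  apply hs
  have : s = 0 := io_injective ℓ (by rw [h, map_zero])
  rw [this, map_zero]

/-- the value of the reduction. -/
noncomputable def psiFun (y : ↥(Ol ℓ)) : LaurentSeries (ZMod ℓ) :=
  rh ℓ y.2.choose_spec.choose / rh ℓ y.2.choose

theorem psiFun_eq (y : ↥(Ol ℓ)) (s w : LaurentSeries (Zl ℓ)) (hs : rh ℓ s ≠ 0)
    (h : io ℓ s * (y : LaurentSeries ℚ) = io ℓ w) : psiFun ℓ y = rh ℓ w / rh ℓ s := by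
  unfold psiFun
  set s₀ := y.2.choose with hs₀
  set w₀ := y.2.choose_spec.choose with hw₀
  have h0 : rh ℓ s₀ ≠ 0 ∧ io ℓ s₀ * (y : LaurentSeries ℚ) = io ℓ w₀ :=
    y.2.choose_spec.choose_spec
  rw [div_eq_div_iff h0.1 hs, ← map_mul, ← map_mul]
  congr 1
  apply io_injective ℓ
  rw [map_mul, map_mul, ← h0.2, ← h]
  ring

/-- the reduction `𝒪 → 𝔽_ℓ((q))`. -/
noncomputable def psiO : ↥(Ol ℓ) →+* LaurentSeries (ZMod ℓ) where
  toFun := psiFun ℓ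
  map_one' := by
    rw [psiFun_eq ℓ 1 1 1 (by rw [map_one]; exact one_ne_zero) (by simp), map_one, div_one]
  map_mul' := by
    intro y y'
    obtain ⟨s, w, hs, h⟩ := (mem_Ol ℓ).mp y.2
    obtain ⟨s', w', hs', h'⟩ := (mem_Ol ℓ).mp y'.2
    rw [psiFun_eq ℓ y s w hs h, psiFun_eq ℓ y' s' w' hs' h',
      psiFun_eq ℓ (y * y') (s * s') (w * w')
        (by rw [map_mul]; exact mul_ne_zero hs hs')
        (by
          show io ℓ (s * s') * ((y : LaurentSeries ℚ) * (y' : LaurentSeries ℚ)) = _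
          rw [map_mul, map_mul, ← h, ← h']; ring),
      map_mul, map_mul, div_mul_div_comm]
  map_zero' := by
    rw [psiFun_eq ℓ 0 1 0 (by rw [map_one]; exact one_ne_zero) (by simp), map_zero, zero_div]
  map_add' := by
    intro y y'
    obtain ⟨s, w, hs, h⟩ := (mem_Ol ℓ).mp y.2
    obtain ⟨s', w', hs', h'⟩ := (mem_Ol ℓ).mp y'.2
    rw [psiFun_eq ℓ y s w hs h, psiFun_eq ℓ y' s' w' hs' h',
      psiFun_eq ℓ (y + y') (s * s') (s' * w + s * w')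
        (by rw [map_mul]; exact mul_ne_zero hs hs')
        (by
          show io ℓ (s * s') * ((y : LaurentSeries ℚ) + (y' : LaurentSeries ℚ)) = _
          rw [map_mul, map_add, map_mul, map_mul, ← h, ← h']; ring),
      map_mul, map_add, map_mul, map_mul, div_add_div _ _ hs hs']
    congr 1
    ring

theorem psiO_eq (y : ↥(Ol ℓ)) (s w : LaurentSeries (Zl ℓ)) (hs : rh ℓ s ≠ 0)
    (h : io ℓ s * (y : LaurentSeries ℚ) = io ℓ w) : psiO ℓ y = rh ℓ w / rh ℓ s :=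
  psiFun_eq ℓ y s w hs h

theorem psiO_io (w : LaurentSeries (Zl ℓ)) : psiO ℓ ⟨io ℓ w, io_mem_Ol ℓ w⟩ = rh ℓ w := by
  rw [psiO_eq ℓ _ 1 w (by rw [map_one]; exact one_ne_zero) (by rw [map_one, one_mul]), map_one,
    div_one]

theorem coe_natCast_Ol (m : ℕ) : ((m : ↥(Ol ℓ)) : LaurentSeries ℚ) = (m : LaurentSeries ℚ) :=
  map_natCast (Ol ℓ).subtype m

theorem psiO_natCast_self : psiO ℓ (ℓ : ↥(Ol ℓ)) = 0 := by
  have e : (ℓ : ↥(Ol ℓ)) = ⟨io ℓ (ℓ : LaurentSeries (Zl ℓ)), io_mem_Ol ℓ _⟩ := by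
    apply Subtype.ext
    rw [coe_natCast_Ol]
    exact (map_natCast (io ℓ) ℓ).symm
  rw [e, psiO_io, rh_natCast_self]

/-- the kernel of the reduction is generated by `ℓ`. -/
theorem psiO_eq_zero {y : ↥(Ol ℓ)} (h : psiO ℓ y = 0) : ∃ y' : ↥(Ol ℓ), y = (ℓ : ↥(Ol ℓ)) * y' := by
  obtain ⟨s, w, hs, hy⟩ := (mem_Ol ℓ).mp y.2
  rw [psiO_eq ℓ _ s w hs hy, div_eq_zero_iff] at h
  have hw := h.resolve_right hs
  obtain ⟨w', hw'⟩ := rh_eq_zero ℓ hw
  have hs0 := ne_zero_of_rh_ne_zero ℓ hs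
  refine ⟨⟨io ℓ w' / io ℓ s, (mem_Ol ℓ).mpr ⟨s, w', hs, by field_simp⟩⟩, ?_⟩
  apply Subtype.ext
  show (y : LaurentSeries ℚ) = ((ℓ : ↥(Ol ℓ)) : LaurentSeries ℚ) * (io ℓ w' / io ℓ s)
  rw [coe_natCast_Ol, mul_div_assoc', eq_div_iff hs0, mul_comm (y : LaurentSeries ℚ), hy, hw',
    map_mul, map_natCast]

end Fermat.Agent.S28.Alg
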