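import Mathlib
import Fermat.Agent.S28.Defs
import Fermat.Agent.S28.Irr
import Fermat.Agent.S28.Rat
import Fermat.Agent.S28.AlgLin

set_option autoImplicit false
set_option linter.unusedSectionVars false

/-! # S28 (ALG, d1): every element of the function field is `y(j,u)/t(j)` -/

namespace Fermat.Agent.S28

open ModularCurve Polynomial

namespace Alg

variable {N : ℕ} [NeZero N] {ℓ : ℕ} [Fact ℓ.Prime]

theorem incl_injective (ℓ : ℕ) : Function.Injective (incl ℓ) := Subtype.val_injective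

/-- `t ↦ t(j)` with values in `ℚ((q))`. -/
noncomputable def e1 (ℓ : ℕ) : (Zl ℓ)[X] →+* LaurentSeries ℚ :=
  (coeffMap (incl ℓ)).comp (RAT.ev1 (Zl ℓ))

theorem e1_apply (t : (Zl ℓ)[X]) : e1 ℓ t = coeffMap (incl ℓ) (RAT.ev1 (Zl ℓ) t) := rfl

theorem e1_injective (ℓ : ℕ) : Function.Injective (e1 ℓ) :=
  (RAT.coeffMap_injective (incl ℓ) (incl_injective ℓ)).comp (ev1_injective (Zl ℓ))

/-- `y ↦ y(j,u)` with values in `ℚ((q))`. -/
noncomputable def e2 (D : IgusaData N ℓ) : (Zl ℓ)[X][X] →+* LaurentSeries ℚ :=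
  (coeffMap (incl ℓ)).comp (Polynomial.eval₂RingHom (RAT.ev1 (Zl ℓ)) D.u)

theorem e2_apply (D : IgusaData N ℓ) (y : (Zl ℓ)[X][X]) :
    e2 D y = coeffMap (incl ℓ) (y.eval₂ (RAT.ev1 (Zl ℓ)) D.u) := rfl

theorem e2_C (D : IgusaData N ℓ) (t : (Zl ℓ)[X]) : e2 D (C t) = e1 ℓ t := by
  rw [e2_apply, Polynomial.eval₂_C, e1_apply]

theorem e2_X (D : IgusaData N ℓ) : e2 D X = coeffMap (incl ℓ) D.u := by
  rw [e2_apply, Polynomial.eval₂_X]

theorem e2_Ψ (D : IgusaData N ℓ) : e2 D D.Ψ = 0 := by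
  rw [e2_apply]
  have h := D.root
  change D.Ψ.eval₂ (RAT.ev1 (Zl ℓ)) D.u = 0 at h
  rw [h, map_zero]

theorem e2_comp_C (D : IgusaData N ℓ) : (e2 D).comp (C : (Zl ℓ)[X] →+* (Zl ℓ)[X][X]) = e1 ℓ :=
  RingHom.ext fun t => e2_C D t

theorem eval₂_e1_e2 (D : IgusaData N ℓ) (P h : (Zl ℓ)[X][X]) :
    h.eval₂ (e1 ℓ) (e2 D P) = e2 D (h.eval₂ C P) := by
  rw [Polynomial.hom_eval₂, e2_comp_C]

theorem e1_X : e1 ℓ X = jq := by
  rw [e1_apply, RAT.ev1, Polynomial.coe_eval₂RingHom, Polynomial.eval₂_X]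
  exact map_jqModC (incl ℓ)

/-- every `y(j,u)` is integral over `ℤ_(ℓ)[j]`. -/
theorem isIntegralElem_e2 (D : IgusaData N ℓ) (P : (Zl ℓ)[X][X]) :
    (e1 ℓ).IsIntegralElem (e2 D P) := by
  have hu : (e1 ℓ).IsIntegralElem (e2 D X) := by
    refine ⟨D.Ψ, D.monic, ?_⟩
    rw [eval₂_e1_e2, Polynomial.eval₂_C_X, e2_Ψ]
  induction P using Polynomial.induction_on' with
  | add p q hp hq =>
    rw [map_add]
    exact RingHom.IsIntegralElem.add _ hp hq
  | monomial n a =>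
    rw [← Polynomial.C_mul_X_pow_eq_monomial, map_mul, map_pow, e2_C]
    refine RingHom.IsIntegralElem.mul _ ((e1 ℓ).isIntegralElem_map) ?_
    induction n with
    | zero =>
      rw [pow_zero, ← map_one (e1 ℓ)]
      exact (e1 ℓ).isIntegralElem_map
    | succ n ih =>
      rw [pow_succ]
      exact RingHom.IsIntegralElem.mul _ ih hu

/-- inverse of a nonzero algebraic element. -/
theorem exists_mul_eq (D : IgusaData N ℓ) (P : (Zl ℓ)[X][X]) (hP : e2 D P ≠ 0) :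
    ∃ (Q : (Zl ℓ)[X][X]) (g₀ : (Zl ℓ)[X]), g₀ ≠ 0 ∧ e2 D P * e2 D Q = e1 ℓ g₀ := by
  have key : ∀ (n : ℕ) (g : (Zl ℓ)[X][X]), g.natDegree = n → g ≠ 0 →
      g.eval₂ (e1 ℓ) (e2 D P) = 0 →
      ∃ (Q : (Zl ℓ)[X][X]) (g₀ : (Zl ℓ)[X]), g₀ ≠ 0 ∧ e2 D P * e2 D Q = e1 ℓ g₀ := by
    intro n
    induction n using Nat.strong_induction_on with
    | _ n ih =>
      intro g hgn hg0 hg
      have hdec := Polynomial.divX_mul_X_add g
      have hev : g.divX.eval₂ (e1 ℓ) (e2 D P) * e2 D P + e1 ℓ (g.coeff 0) = 0 := by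
        rw [← hg]
        conv_rhs => rw [← hdec]
        rw [Polynomial.eval₂_add, Polynomial.eval₂_mul, Polynomial.eval₂_X, Polynomial.eval₂_C]
      by_cases h0 : g.coeff 0 = 0
      · rw [h0, map_zero, add_zero] at hev
        have hdiv : g.divX.eval₂ (e1 ℓ) (e2 D P) = 0 :=
          (mul_eq_zero.mp hev).resolve_right hP
        have hdiv0 : g.divX ≠ 0 := by
          intro h
          apply hg0
          rw [← hdec, h, h0]
          simp
        have hn0 : n ≠ 0 := by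
          rintro rfl
          apply hg0
          rw [Polynomial.eq_C_of_natDegree_eq_zero hgn, h0, map_zero]
        refine ih (n - 1) (by omega) g.divX ?_ hdiv0 hdiv
        rw [Polynomial.natDegree_divX_eq_natDegree_tsub_one, hgn]
      · refine ⟨g.divX.eval₂ C P, - g.coeff 0, neg_ne_zero.mpr h0, ?_⟩
        rw [← eval₂_e1_e2, map_neg]
        linear_combination hev
  obtain ⟨g, hgm, hg⟩ := isIntegralElem_e2 D P
  exact key _ g rfl hgm.ne_zero hg

/-- the field of all quotients `y(j,u)/t(j)`. -/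
noncomputable def reprField (D : IgusaData N ℓ) : IntermediateField ℚ (LaurentSeries ℚ) where
  carrier := {b | ∃ (t : (Zl ℓ)[X]) (y : (Zl ℓ)[X][X]), t ≠ 0 ∧ e1 ℓ t * b = e2 D y}
  mul_mem' := by
    rintro a b ⟨t, y, ht, h⟩ ⟨t', y', ht', h'⟩
    refine ⟨t * t', y * y', mul_ne_zero ht ht', ?_⟩
    rw [map_mul, map_mul, ← h, ← h']
    ring
  add_mem' := by
    rintro a b ⟨t, y, ht, h⟩ ⟨t', y', ht', h'⟩
    refine ⟨t * t', C t' * y + C t * y', mul_ne_zero ht ht', ?_⟩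
    rw [map_mul, map_add, map_mul, map_mul, e2_C, e2_C, ← h, ← h']
    ring
  algebraMap_mem' := by
    intro r
    have hden : (r.den : Zl ℓ) ≠ 0 := by
      exact_mod_cast r.den_nz
    refine ⟨C (r.den : Zl ℓ), C (C (r.num : Zl ℓ)), ?_, ?_⟩
    · rw [Ne, Polynomial.C_eq_zero]
      exact hden
    · rw [e2_C, e1_apply, e1_apply, RAT.ev1, Polynomial.coe_eval₂RingHom, Polynomial.eval₂_C,
        Polynomial.eval₂_C, RAT.coeffMap_C, RAT.coeffMap_C, algebraMap_laurentSeries_eq_single]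
      change HahnSeries.single 0 _ * HahnSeries.single 0 _ = HahnSeries.single 0 _
      rw [HahnSeries.single_mul_single, add_zero]
      congr 1
      simp only [map_natCast, map_intCast]
      exact_mod_cast Rat.den_mul_eq_num r
  inv_mem' := by
    rintro b ⟨t, y, ht, h⟩
    by_cases hb : b = 0
    · subst hb
      exact ⟨1, 0, one_ne_zero, by simp⟩
    have ht' : e1 ℓ t ≠ 0 := fun h0 => ht (e1_injective ℓ (h0.trans (map_zero _).symm))
    have hy : e2 D y ≠ 0 := by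
      rw [← h]
      exact mul_ne_zero ht' hb
    obtain ⟨Q, g₀, hg₀, hQ⟩ := exists_mul_eq D y hy
    refine ⟨g₀, C t * Q, hg₀, ?_⟩
    rw [map_mul, e2_C, ← hQ, ← h]
    field_simp

theorem mem_reprField (D : IgusaData N ℓ) {b : LaurentSeries ℚ} :
    b ∈ reprField D ↔ ∃ (t : (Zl ℓ)[X]) (y : (Zl ℓ)[X][X]), t ≠ 0 ∧ e1 ℓ t * b = e2 D y :=
  Iff.rfl

theorem full_le_reprField (D : IgusaData N ℓ) : modularFunctionFieldFull N ≤ reprField D := by
  have h1 : IntermediateField.adjoin ℚ {jq, coeffMap (incl ℓ) D.u} ≤ reprField D := by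
    rw [IntermediateField.adjoin_le_iff]
    rintro x (rfl | rfl)
    · exact ⟨1, C X, one_ne_zero, by rw [map_one, one_mul, e2_C, e1_X]⟩
    · exact ⟨1, X, one_ne_zero, by rw [map_one, one_mul, e2_X]⟩
  rw [modularFunctionFieldFull, IntermediateField.adjoin_le_iff]
  rintro x ⟨d, hd0, hd, rfl⟩
  exact h1 (D.gen d hd)

/-- (d1) -/
theorem exists_repr (D : IgusaData N ℓ) (b : LaurentSeries ℚ)
    (hb : b ∈ modularFunctionFieldFull N) :
    ∃ (t : (Zl ℓ)[X]) (y : (Zl ℓ)[X][X]), t ≠ 0 ∧ y.degree < D.Ψ.degree ∧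
      coeffMap (incl ℓ) (RAT.ev1 (Zl ℓ) t) * b =
        coeffMap (incl ℓ) (y.eval₂ (RAT.ev1 (Zl ℓ)) D.u) := by
  obtain ⟨t, y, ht, h⟩ := full_le_reprField D hb
  refine ⟨t, y %ₘ D.Ψ, ht, Polynomial.degree_modByMonic_lt y D.monic, ?_⟩
  rw [← e1_apply, ← e2_apply, h]
  conv_lhs => rw [← Polynomial.modByMonic_add_div y D.Ψ]
  rw [map_add, map_mul, e2_Ψ, zero_mul, add_zero]

end Alg

end Fermat.Agent.S28
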