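import Mathlib
import Fermat.Agent.S28.AlgO
import Fermat.Agent.S28.AlgLin
import Fermat.Agent.S28.Red
import Fermat.Agent.S28.AlgRepr

set_option autoImplicit false

/-! # S28 ALG (d2): denominators prime to `ℓ` -/

namespace Fermat.Agent.S28.Alg

open ModularCurve Polynomial

variable {N : ℕ} [NeZero N] {ℓ : ℕ} [Fact ℓ.Prime] (D : IgusaData N ℓ)

theorem exists_pow_mul_not_dvd (t : (Zl ℓ)[X]) (ht : t ≠ 0) :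
    ∃ (a : ℕ) (t' : (Zl ℓ)[X]), t = C (ℓ : Zl ℓ) ^ a * t' ∧ ¬ C (ℓ : Zl ℓ) ∣ t' := by
  have hfin : FiniteMultiplicity (C (ℓ : Zl ℓ)) t := by
    obtain ⟨i, hi⟩ : ∃ i, t.coeff i ≠ 0 := by
      by_contra h
      push Not at h
      exact ht (Polynomial.ext (by simpa using h))
    obtain ⟨a, ha⟩ := exists_not_pow_dvd ℓ hi
    refine ⟨a, fun h => ha ?_⟩
    have h1 : C ((ℓ : Zl ℓ) ^ a) ∣ t := by
      rw [C_pow]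
      exact (pow_dvd_pow _ (Nat.le_succ a)).trans h
    exact (Polynomial.C_dvd_iff_dvd_coeff _ _).mp h1 i
  obtain ⟨c, hc, hc'⟩ := hfin.exists_eq_pow_mul_and_not_dvd
  exact ⟨_, c, hc, hc'⟩

theorem rh_ev1 (p : (Zl ℓ)[X]) : rh ℓ (RAT.ev1 (Zl ℓ) p) = RAT.ev1 (ZMod ℓ) (p.map (red ℓ)) :=
  congrArg (fun f => f p) (RAT.coeffMap_comp_ev1 (red ℓ))

theorem exists_den_aux (b : LaurentSeries ℚ) (hO : b ∈ Ol ℓ) (t' : (Zl ℓ)[X]) :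
    ∀ (a : ℕ) (y : (Zl ℓ)[X][X]), y.degree < D.Ψ.degree →
      io ℓ (RAT.ev1 (Zl ℓ) (C (ℓ : Zl ℓ) ^ a * t')) * b = io ℓ (y.eval₂ (RAT.ev1 (Zl ℓ)) D.u) →
      ∃ y' : (Zl ℓ)[X][X], io ℓ (RAT.ev1 (Zl ℓ) t') * b = io ℓ (y'.eval₂ (RAT.ev1 (Zl ℓ)) D.u) := by
  intro a
  induction a with
  | zero =>
    intro y _ h
    exact ⟨y, by simpa using h⟩
  | succ a ih =>
    intro y hdeg h
    -- apply `psiO`
    have h1 : (⟨io ℓ (RAT.ev1 (Zl ℓ) (C (ℓ : Zl ℓ) ^ (a + 1) * t')), io_mem_Ol ℓ _⟩ : ↥(Ol ℓ)) *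
        ⟨b, hO⟩ = ⟨io ℓ (y.eval₂ (RAT.ev1 (Zl ℓ)) D.u), io_mem_Ol ℓ _⟩ := Subtype.ext h
    have h2 := congrArg (psiO ℓ) h1
    rw [map_mul, psiO_io, psiO_io, rh_ev1] at h2
    have h3 : (C (ℓ : Zl ℓ) ^ (a + 1) * t').map (red ℓ) = 0 := by
      rw [map_red_eq_zero_iff, pow_succ', mul_assoc]
      exact Dvd.intro _ rfl
    rw [h3, map_zero, zero_mul, RAT.coeffMap_eval₂_ev1] at h2
    have h4 : y.map (Polynomial.mapRingHom (red ℓ)) = 0 :=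
      eq_zero_of_eval₂_eq_zero D _ (lt_of_le_of_lt Polynomial.degree_map_le hdeg) h2.symm
    rw [map_map_red_eq_zero_iff] at h4
    obtain ⟨y₁, rfl⟩ := h4
    have hC0 : (C (ℓ : Zl ℓ) : (Zl ℓ)[X]) ≠ 0 := (prime_C_natCast ℓ).ne_zero
    apply ih y₁
    · rwa [Polynomial.degree_C_mul hC0] at hdeg
    · have h5 : io ℓ (RAT.ev1 (Zl ℓ) (C (ℓ : Zl ℓ))) ≠ 0 := by
        rw [Ne, map_eq_zero_iff _ (io_injective ℓ), map_eq_zero_iff _ (ev1_injective (Zl ℓ))]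
        exact hC0
      apply mul_left_cancel₀ h5
      rw [← mul_assoc, ← map_mul, ← map_mul, ← mul_assoc, ← pow_succ', h, ← map_mul,
        Polynomial.eval₂_mul, Polynomial.eval₂_C]

/-- (d2), on top of a representation `b = y(j,u)/t(j)`. -/
theorem exists_den_of_repr (b : LaurentSeries ℚ) (hO : b ∈ Ol ℓ)
    (hrepr : ∃ (t : (Zl ℓ)[X]) (y : (Zl ℓ)[X][X]), t ≠ 0 ∧ y.degree < D.Ψ.degree ∧
      coeffMap (incl ℓ) (RAT.ev1 (Zl ℓ) t) * b =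
        coeffMap (incl ℓ) (y.eval₂ (RAT.ev1 (Zl ℓ)) D.u)) :
    ∃ (t : (Zl ℓ)[X]) (y : (Zl ℓ)[X][X]), ¬ C (ℓ : Zl ℓ) ∣ t ∧
      io ℓ (RAT.ev1 (Zl ℓ) t) * b = io ℓ (y.eval₂ (RAT.ev1 (Zl ℓ)) D.u) := by
  obtain ⟨t, y, ht, hdeg, h⟩ := hrepr
  obtain ⟨a, t', rfl, ht'⟩ := exists_pow_mul_not_dvd t ht
  obtain ⟨y', hy'⟩ := exists_den_aux D b hO t' a y hdeg h
  exact ⟨t', y', ht', hy'⟩

/-- (d2) -/
theorem exists_den (b : LaurentSeries ℚ) (hF : b ∈ modularFunctionFieldFull N) (hO : b ∈ Ol ℓ) :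
    ∃ (t : (Zl ℓ)[X]) (y : (Zl ℓ)[X][X]), ¬ C (ℓ : Zl ℓ) ∣ t ∧
      io ℓ (RAT.ev1 (Zl ℓ) t) * b = io ℓ (y.eval₂ (RAT.ev1 (Zl ℓ)) D.u) :=
  exists_den_of_repr D b hO (exists_repr D b hF)

end Fermat.Agent.S28.Alg
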