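import Mathlib
import Fermat.Agent.S28.AlgO
import Fermat.Prelude.Thm_ModularCurve_coeffMap_qExpand
import Fermat.Prelude.Thm_ModularCurve_coeff_jqModC_neg_one

set_option autoImplicit false
set_option maxHeartbeats 400000

/-! # S28 (ALG, b): the charts lie in `𝒪` -/

namespace Fermat.Agent.S28.Alg

open ModularCurve Polynomial ModularCurve.IgusaScheme

variable (ℓ : ℕ) [Fact ℓ.Prime]

omit [Fact ℓ.Prime] in
theorem natCast_ne_zero_series {A : Type} [CommRing A] [CharZero A] {m : ℕ} (hm : m ≠ 0) :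
    (m : LaurentSeries A) ≠ 0 := by
  intro h
  have h1 := natCast_mul_coeff m (1 : LaurentSeries A) 0
  rw [h, zero_mul, HahnSeries.coeff_zero, HahnSeries.coeff_one, if_pos rfl, mul_one] at h1
  exact hm (Nat.cast_eq_zero.mp h1.symm)

theorem natCast_ne_zero_L : (ℓ : LaurentSeries ℚ) ≠ 0 :=
  natCast_ne_zero_series (Fact.out : ℓ.Prime).ne_zero

omit [Fact ℓ.Prime] in
instance charZero_Zl : CharZero (Zl ℓ) :=
  ⟨fun a b h => by
    have := congrArg Subtype.val h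
    simpa using this⟩

/-- an element `t` of `𝒪` such that `t = ℓ^m * y`, `m ≥ 1`, `y` integral over `𝒪`, reduces to `0`. -/
theorem psiO_eq_zero_of_isIntegral (y : LaurentSeries ℚ) (hint : IsIntegral ↥(Ol ℓ) y) (m : ℕ)
    (hm : m ≠ 0) (t : ↥(Ol ℓ)) (ht : (t : LaurentSeries ℚ) = (ℓ : LaurentSeries ℚ) ^ m * y) :
    psiO ℓ t = 0 := by
  obtain ⟨p, hp, hroot⟩ := hint
  set f := algebraMap ↥(Ol ℓ) (LaurentSeries ℚ) with hf
  have hfl : f ((ℓ : ↥(Ol ℓ)) ^ m) = (ℓ : LaurentSeries ℚ) ^ m := by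
    rw [map_pow, map_natCast]
  have h1 := Polynomial.scaleRoots_eval₂_eq_zero f (s := (ℓ : ↥(Ol ℓ)) ^ m) hroot
  rw [hfl, ← ht] at h1
  have h2 : f t = (t : LaurentSeries ℚ) := rfl
  rw [← h2, Polynomial.eval₂_at_apply] at h1
  have h3 : (p.scaleRoots ((ℓ : ↥(Ol ℓ)) ^ m)).eval t = 0 := by
    apply Subtype.ext
    exact h1
  have h4 := congrArg (psiO ℓ) h3
  rw [map_zero, Polynomial.eval_eq_sum_range, map_sum, Polynomial.natDegree_scaleRoots,
    Finset.sum_range_succ, Finset.sum_eq_zero, zero_add, Polynomial.coeff_scaleRoots,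
    Nat.sub_self, pow_zero, mul_one, hp.coeff_natDegree, one_mul, map_pow] at h4
  · by_contra h0
    exact pow_ne_zero _ h0 h4
  · intro i hi
    rw [Finset.mem_range] at hi
    rw [Polynomial.coeff_scaleRoots, map_mul, map_mul, map_pow, map_pow, psiO_natCast_self,
      zero_pow hm, zero_pow (by omega), mul_zero, zero_mul]

theorem mem_Ol_of_isIntegral (y : LaurentSeries ℚ)
    (hy : ∃ s w : LaurentSeries (Zl ℓ), s ≠ 0 ∧ io ℓ s * y = io ℓ w)
    (hint : IsIntegral ↥(Ol ℓ) y) : y ∈ Ol ℓ := by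
  obtain ⟨s, w, hs, h⟩ := hy
  have hℓ := natCast_ne_zero_L ℓ
  by_cases hw : w = 0
  · have hs0 : io ℓ s ≠ 0 := fun h0 => hs (io_injective ℓ (by rw [h0, map_zero]))
    rw [hw, map_zero] at h
    rw [(mul_eq_zero.mp h).resolve_left hs0]
    exact zero_mem _
  obtain ⟨a, s', hs', hs'1⟩ := exists_content ℓ hs
  obtain ⟨c, w', hw', hw'1⟩ := exists_content ℓ hw
  rw [hs', hw', map_mul, map_mul, map_pow, map_pow, map_natCast] at h
  rcases le_or_gt a c with hac | hac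
  · obtain ⟨k, rfl⟩ := Nat.exists_eq_add_of_le hac
    refine (mem_Ol ℓ).mpr ⟨s', (ℓ : LaurentSeries (Zl ℓ)) ^ k * w', hs'1, ?_⟩
    rw [map_mul, map_pow, map_natCast]
    apply mul_left_cancel₀ (pow_ne_zero a hℓ)
    rw [← mul_assoc, h, pow_add]
    ring
  · exfalso
    obtain ⟨k, rfl⟩ := Nat.exists_eq_add_of_lt hac
    have h1 : io ℓ s' * ((ℓ : LaurentSeries ℚ) ^ (k + 1) * y) = io ℓ w' := by
      apply mul_left_cancel₀ (pow_ne_zero c hℓ)
      rw [← h]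
      generalize io ℓ s' = S
      generalize (ℓ : LaurentSeries ℚ) = L
      rw [add_assoc, pow_add]
      ring
    have ht : (ℓ : LaurentSeries ℚ) ^ (k + 1) * y ∈ Ol ℓ := (mem_Ol ℓ).mpr ⟨s', w', hs'1, h1⟩
    have h2 := psiO_eq_zero_of_isIntegral ℓ y hint (k + 1) (Nat.succ_ne_zero k) ⟨_, ht⟩ rfl
    rw [psiO_eq ℓ ⟨_, ht⟩ s' w' hs'1 h1, div_eq_zero_iff] at h2
    rcases h2 with h2 | h2
    · exact hw'1 h2
    · exact hs'1 h2

/-- the field of fractions of `ℤ_(ℓ)((q))` inside `ℚ((q))`. -/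
noncomputable def FracW : IntermediateField ℚ (LaurentSeries ℚ) where
  carrier := {y | ∃ s w : LaurentSeries (Zl ℓ), s ≠ 0 ∧ io ℓ s * y = io ℓ w}
  mul_mem' := by
    rintro y y' ⟨s, w, hs, h⟩ ⟨s', w', hs', h'⟩
    refine ⟨s * s', w * w', mul_ne_zero hs hs', ?_⟩
    rw [map_mul, map_mul, ← h, ← h']
    ring
  one_mem' := ⟨1, 1, one_ne_zero, by rw [map_one, mul_one]⟩
  add_mem' := by
    rintro y y' ⟨s, w, hs, h⟩ ⟨s', w', hs', h'⟩
    refine ⟨s * s', s' * w + s * w', mul_ne_zero hs hs', ?_⟩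
    rw [map_mul, map_add, map_mul, map_mul, ← h, ← h']
    ring
  zero_mem' := ⟨1, 0, one_ne_zero, by rw [map_zero, mul_zero]⟩
  algebraMap_mem' := by
    intro r
    refine ⟨(r.den : LaurentSeries (Zl ℓ)), (r.num : LaurentSeries (Zl ℓ)), ?_, ?_⟩
    · exact natCast_ne_zero_series r.den_ne_zero
    · rw [map_natCast, map_intCast, ← map_natCast (algebraMap ℚ (LaurentSeries ℚ)), ← map_mul,
        Rat.den_mul_eq_num, map_intCast]
  inv_mem' := by
    rintro y ⟨s, w, hs, h⟩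
    by_cases hw : w = 0
    · have hs0 : io ℓ s ≠ 0 := fun h0 => hs (io_injective ℓ (by rw [h0, map_zero]))
      rw [hw, map_zero] at h
      rw [(mul_eq_zero.mp h).resolve_left hs0, inv_zero]
      exact ⟨1, 0, one_ne_zero, by rw [map_zero, mul_zero]⟩
    · refine ⟨w, s, hw, ?_⟩
      have hw0 : io ℓ w ≠ 0 := fun h0 => hw (io_injective ℓ (by rw [h0, map_zero]))
      have hy0 : y ≠ 0 := by
        rintro rfl
        rw [mul_zero] at h
        exact hw0 h.symm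
      rw [← h]
      field_simp

theorem mem_FracW {y : LaurentSeries ℚ} :
    y ∈ FracW ℓ ↔ ∃ s w : LaurentSeries (Zl ℓ), s ≠ 0 ∧ io ℓ s * y = io ℓ w := Iff.rfl

omit [Fact ℓ.Prime] in
theorem io_jqModC : io ℓ (jqModC (Zl ℓ)) = jq := map_jqModC (incl ℓ)

omit [Fact ℓ.Prime] in
theorem io_qExpand_jqModC (d : ℕ) [NeZero d] :
    io ℓ (qExpand (Zl ℓ) d (jqModC (Zl ℓ))) = qExpand ℚ d jq := by
  rw [coeffMap_qExpand, io_jqModC]

theorem full_le_FracW (N : ℕ) [NeZero N] : modularFunctionFieldFull N ≤ FracW ℓ := by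
  rw [modularFunctionFieldFull, IntermediateField.adjoin_le_iff]
  rintro x ⟨d, hne, -, rfl⟩
  haveI := hne
  exact ⟨1, qExpand (Zl ℓ) d (jqModC (Zl ℓ)), one_ne_zero, by
    rw [map_one, one_mul, io_qExpand_jqModC]⟩

theorem exists_ratio_of_mem_full (N : ℕ) [NeZero N] (y : LaurentSeries ℚ)
    (hy : y ∈ modularFunctionFieldFull N) :
    ∃ s w : LaurentSeries (Zl ℓ), s ≠ 0 ∧ io ℓ s * y = io ℓ w :=
  full_le_FracW ℓ N hy

theorem algebraMap_Zl_mem_Ol (N : ℕ) [NeZero N] (a : Zl ℓ) :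
    ((algebraMap (Zl ℓ) ↥(modularFunctionFieldFull N) a : ↥(modularFunctionFieldFull N)) :
      LaurentSeries ℚ) ∈ Ol ℓ := by
  have e : ((algebraMap (Zl ℓ) ↥(modularFunctionFieldFull N) a : ↥(modularFunctionFieldFull N)) :
      LaurentSeries ℚ) = io ℓ (HahnSeries.single 0 a) := by
    rw [coeffMap_single]
    exact congrArg (fun f : ℚ →+* LaurentSeries ℚ => f (a : ℚ))
      (RingHom.ext_rat ((SubringClass.subtype (modularFunctionFieldFull N)).comp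
        (algebraMap ℚ ↥(modularFunctionFieldFull N))) HahnSeries.C)
  rw [e]
  exact io_mem_Ol ℓ _

theorem adjoin_le_Ol (N : ℕ) [NeZero N] (S : Set ↥(modularFunctionFieldFull N))
    (hS : ∀ x ∈ S, (x : LaurentSeries ℚ) ∈ Ol ℓ) (a : ↥(modularFunctionFieldFull N))
    (ha : a ∈ Algebra.adjoin (Zl ℓ) S) : (a : LaurentSeries ℚ) ∈ Ol ℓ := by
  induction ha using Algebra.adjoin_induction with
  | mem x hx => exact hS x hx
  | algebraMap r => exact algebraMap_Zl_mem_Ol ℓ N r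
  | add x y _ _ hx hy => exact add_mem hx hy
  | mul x y _ _ hx hy => exact mul_mem hx hy

theorem chartAlg_le_Ol (N : ℕ) [NeZero N] (S : Set ↥(modularFunctionFieldFull N))
    (hS : ∀ x ∈ S, (x : LaurentSeries ℚ) ∈ Ol ℓ) (b : ↥(modularFunctionFieldFull N))
    (hb : b ∈ chartAlg N ℓ S) : (b : LaurentSeries ℚ) ∈ Ol ℓ := by
  apply mem_Ol_of_isIntegral ℓ _ (exists_ratio_of_mem_full ℓ N _ b.2)
  rw [mem_chartAlg_iff] at hb
  let φ : ↥(Algebra.adjoin (Zl ℓ) S) →+* ↥(Ol ℓ) :=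
    ((SubringClass.subtype (modularFunctionFieldFull N)).comp
      (SubringClass.subtype (Algebra.adjoin (Zl ℓ) S))).codRestrict (Ol ℓ)
      (fun a => adjoin_le_Ol ℓ N S hS a.1 a.2)
  exact hb.map_of_comp_eq φ (SubringClass.subtype (modularFunctionFieldFull N)) (by ext; rfl)

/-- the reduction on a chart. -/
noncomputable def psiS (N : ℕ) [NeZero N] (S : Set ↥(modularFunctionFieldFull N))
    (hS : ∀ x ∈ S, (x : LaurentSeries ℚ) ∈ Ol ℓ) :
    ↥(chartAlg N ℓ S) →+* LaurentSeries (ZMod ℓ) :=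
  (psiO ℓ).comp (((SubringClass.subtype (modularFunctionFieldFull N)).comp
    (SubringClass.subtype (chartAlg N ℓ S))).codRestrict (Ol ℓ)
      (fun b => chartAlg_le_Ol ℓ N S hS b.1 b.2))

theorem psiS_apply (N : ℕ) [NeZero N] (S : Set ↥(modularFunctionFieldFull N))
    (hS : ∀ x ∈ S, (x : LaurentSeries ℚ) ∈ Ol ℓ) (b : ↥(chartAlg N ℓ S)) :
    psiS ℓ N S hS b = psiO ℓ ⟨((b : ↥(modularFunctionFieldFull N)) : LaurentSeries ℚ),
      chartAlg_le_Ol ℓ N S hS b.1 b.2⟩ := rfl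

theorem jq_mem_Ol : jq ∈ Ol ℓ := by
  rw [← io_jqModC ℓ]
  exact io_mem_Ol ℓ _

theorem rh_jqModC : rh ℓ (jqModC (Zl ℓ)) = jqModC (ZMod ℓ) := map_jqModC (red ℓ)

theorem jqModC_ne_zero' : jqModC (ZMod ℓ) ≠ 0 := by
  intro h
  have := coeff_jqModC_neg_one (ZMod ℓ)
  rw [h] at this
  simp at this

theorem jq_inv_mem_Ol : jq⁻¹ ∈ Ol ℓ := by
  refine (mem_Ol ℓ).mpr ⟨jqModC (Zl ℓ), 1, ?_, ?_⟩
  · rw [rh_jqModC]
    exact jqModC_ne_zero' ℓ
  · rw [io_jqModC, map_one, mul_inv_cancel₀ jq_ne_zero]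

theorem hS_fin (N : ℕ) [NeZero N] :
    ∀ x ∈ ({jFull N} : Set ↥(modularFunctionFieldFull N)), (x : LaurentSeries ℚ) ∈ Ol ℓ := by
  rintro x rfl
  exact jq_mem_Ol ℓ

theorem hS_inf (N : ℕ) [NeZero N] :
    ∀ x ∈ ({(jFull N)⁻¹} : Set ↥(modularFunctionFieldFull N)), (x : LaurentSeries ℚ) ∈ Ol ℓ := by
  rintro x rfl
  exact jq_inv_mem_Ol ℓ

theorem hS_mid (N : ℕ) [NeZero N] :
    ∀ x ∈ ({jFull N, (jFull N)⁻¹} : Set ↥(modularFunctionFieldFull N)),
      (x : LaurentSeries ℚ) ∈ Ol ℓ := by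
  rintro x (rfl | rfl)
  · exact jq_mem_Ol ℓ
  · exact jq_inv_mem_Ol ℓ

/-- if `ψ_S b = 0` then `b = ℓ * b₁` with `b₁ ∈ F ∩ 𝒪`. -/
theorem exists_of_psiS_eq_zero (N : ℕ) [NeZero N] (S : Set ↥(modularFunctionFieldFull N))
    (hS : ∀ x ∈ S, (x : LaurentSeries ℚ) ∈ Ol ℓ) (b : ↥(chartAlg N ℓ S))
    (hb : psiS ℓ N S hS b = 0) :
    ∃ b₁ : ↥(modularFunctionFieldFull N), (b₁ : LaurentSeries ℚ) ∈ Ol ℓ ∧
      (b : ↥(modularFunctionFieldFull N)) = (ℓ : ↥(modularFunctionFieldFull N)) * b₁ := by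
  rw [psiS_apply] at hb
  obtain ⟨y', hy'⟩ := psiO_eq_zero ℓ hb
  have h1 : ((b : ↥(modularFunctionFieldFull N)) : LaurentSeries ℚ) =
      (ℓ : LaurentSeries ℚ) * (y' : LaurentSeries ℚ) := by
    have := congrArg Subtype.val hy'
    rw [Subring.coe_mul, coe_natCast_Ol] at this
    exact this
  have hℓF : (ℓ : ↥(modularFunctionFieldFull N)) ≠ 0 :=
    Nat.cast_ne_zero.mpr (Fact.out : ℓ.Prime).ne_zero
  refine ⟨(ℓ : ↥(modularFunctionFieldFull N))⁻¹ * b, ?_, ?_⟩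
  · have e : (((ℓ : ↥(modularFunctionFieldFull N))⁻¹ * b : ↥(modularFunctionFieldFull N)) :
        LaurentSeries ℚ) = (y' : LaurentSeries ℚ) := by
      push_cast
      rw [h1, ← mul_assoc, inv_mul_cancel₀ (natCast_ne_zero_L ℓ), one_mul]
    rw [e]
    exact y'.2
  · rw [← mul_assoc, mul_inv_cancel₀ hℓF, one_mul]

theorem exists_psi_mid' (N : ℕ) [NeZero N] :
    Nonempty (↥(chartAlgMid N ℓ) →+* LaurentSeries (ZMod ℓ)) :=
  ⟨psiS ℓ N _ (hS_mid ℓ N)⟩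

end Fermat.Agent.S28.Alg
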