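import Mathlib
import Fermat.Agent.S28.AlgRepr
import Fermat.Agent.S28.Red

set_option autoImplicit false

/-! # S28 ALG (d4): the coordinate `1/j`, and conversion lemmas for the chart algebras -/

namespace Fermat.Agent.S28.Alg

open ModularCurve ModularCurve.IgusaScheme Polynomial

/-! ## general conversion lemmas -/

theorem isIntegral_adjoin_singleton_iff {Z F : Type} [CommRing Z] [CommRing F] [Algebra Z F]
    (x₀ b : F) :
    IsIntegral (Algebra.adjoin Z {x₀}) b ↔
      ((Polynomial.aeval x₀ : Z[X] →ₐ[Z] F) : Z[X] →+* F).IsIntegralElem b := by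
  have hmem : ∀ p : Z[X], Polynomial.aeval x₀ p ∈ Algebra.adjoin Z {x₀} := by
    intro p
    rw [Algebra.adjoin_singleton_eq_range_aeval]
    exact ⟨p, rfl⟩
  let g : Z[X] →+* ↥(Algebra.adjoin Z {x₀}) :=
    ((Polynomial.aeval x₀ : Z[X] →ₐ[Z] F) : Z[X] →+* F).codRestrict
      (Algebra.adjoin Z {x₀}).toSubring hmem
  have hg : (algebraMap ↥(Algebra.adjoin Z {x₀}) F).comp g =
      ((Polynomial.aeval x₀ : Z[X] →ₐ[Z] F) : Z[X] →+* F) := RingHom.ext fun p => rfl
  have hsurj : Function.Surjective g := by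
    rintro ⟨y, hy⟩
    have hy' := hy
    rw [Algebra.adjoin_singleton_eq_range_aeval] at hy'
    obtain ⟨p, hp⟩ := hy'
    exact ⟨p, Subtype.ext hp⟩
  constructor
  · rintro ⟨p, hp, hroot⟩
    have hl : p ∈ Polynomial.lifts g := by
      rw [Polynomial.lifts_iff_coeff_lifts]
      exact fun n => hsurj _
    obtain ⟨q, hq, -, hqm⟩ := Polynomial.lifts_and_natDegree_eq_and_monic hl hp
    refine ⟨q, hqm, ?_⟩
    rw [← hg, ← Polynomial.eval₂_map, hq]
    exact hroot
  · rintro ⟨q, hqm, hroot⟩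
    refine ⟨q.map g, hqm.map g, ?_⟩
    rw [Polynomial.eval₂_map, hg]
    exact hroot

theorem isIntegralElem_comp_iff {P F L : Type} [CommRing P] [CommRing F] [CommRing L]
    (f : P →+* F) (ι : F →+* L) (hι : Function.Injective ι) (b : F) :
    (ι.comp f).IsIntegralElem (ι b) ↔ f.IsIntegralElem b := by
  constructor
  · rintro ⟨p, hp, hroot⟩
    refine ⟨p, hp, hι ?_⟩
    rw [Polynomial.hom_eval₂, hroot, map_zero]
  · rintro ⟨p, hp, hroot⟩
    refine ⟨p, hp, ?_⟩
    rw [← Polynomial.hom_eval₂, hroot, map_zero]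

/-! ## the two coordinates -/

variable (ℓ : ℕ) [Fact ℓ.Prime]

/-- constants `ℤ_(ℓ) → ℚ((q))`. -/
noncomputable def cst : Zl ℓ →+* LaurentSeries ℚ := (HahnSeries.C).comp (incl ℓ)

theorem e1_eq : e1 ℓ = Polynomial.eval₂RingHom (cst ℓ) jq := by
  apply Polynomial.ringHom_ext
  · intro a
    rw [e1_apply, RAT.ev1, Polynomial.coe_eval₂RingHom, Polynomial.eval₂_C,
      Polynomial.coe_eval₂RingHom, Polynomial.eval₂_C, RAT.coeffMap_C]
    rfl
  · rw [e1_X]
    simp

/-- `t ↦ t(1/j)` with values in `ℚ((q))`. -/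
noncomputable def e1inv : (Zl ℓ)[X] →+* LaurentSeries ℚ := Polynomial.eval₂RingHom (cst ℓ) jq⁻¹

theorem e1inv_X : e1inv ℓ X = jq⁻¹ := by simp [e1inv]

theorem e1_eq_e1inv_reverse (t : (Zl ℓ)[X]) :
    e1 ℓ t = e1inv ℓ t.reverse * jq ^ t.natDegree := by
  let _ : Invertible jq := invertibleOfNonzero jq_ne_zero
  have := Polynomial.eval₂_reverse_mul_pow (cst ℓ) jq t
  rw [invOf_eq_inv] at this
  rw [e1_eq, e1inv, Polynomial.coe_eval₂RingHom, Polynomial.coe_eval₂RingHom, this]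

theorem e1inv_eq_e1_reverse (t : (Zl ℓ)[X]) :
    e1inv ℓ t = e1 ℓ t.reverse * jq⁻¹ ^ t.natDegree := by
  let _ : Invertible (jq⁻¹) := invertibleOfNonzero (inv_ne_zero jq_ne_zero)
  have := Polynomial.eval₂_reverse_mul_pow (cst ℓ) jq⁻¹ t
  rw [invOf_eq_inv, inv_inv] at this
  rw [e1_eq, e1inv, Polynomial.coe_eval₂RingHom, Polynomial.coe_eval₂RingHom, this]

theorem e1inv_injective : Function.Injective (e1inv ℓ) := by
  rw [injective_iff_map_eq_zero]
  intro t ht
  rw [e1inv_eq_e1_reverse, mul_eq_zero] at ht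
  rcases ht with h | h
  · rw [map_eq_zero_iff _ (e1_injective ℓ), Polynomial.reverse_eq_zero] at h
    exact h
  · exact absurd h (pow_ne_zero _ (inv_ne_zero jq_ne_zero))

theorem not_dvd_reverse (c : Zl ℓ) (t : (Zl ℓ)[X]) (ht : ¬ C c ∣ t) : ¬ C c ∣ t.reverse := by
  intro h
  apply ht
  rw [Polynomial.C_dvd_iff_dvd_coeff] at h ⊢
  intro i
  have := h (Polynomial.revAt t.natDegree i)
  rwa [Polynomial.coeff_reverse, Polynomial.revAt_invol] at this

/-! ## the chart algebras -/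

variable (N : ℕ) [NeZero N]

theorem val_comp_aeval (x₀ : ↥(modularFunctionFieldFull N)) :
    ((modularFunctionFieldFull N).val : ↥(modularFunctionFieldFull N) →+* LaurentSeries ℚ).comp
      ((Polynomial.aeval x₀ : (Zl ℓ)[X] →ₐ[Zl ℓ] ↥(modularFunctionFieldFull N)) :
        (Zl ℓ)[X] →+* ↥(modularFunctionFieldFull N)) =
      Polynomial.eval₂RingHom (cst ℓ) (x₀ : LaurentSeries ℚ) := by
  apply Polynomial.ringHom_ext
  · intro a
    simp only [RingHom.comp_apply, RingHom.coe_coe, Polynomial.aeval_C,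
      Polynomial.coe_eval₂RingHom, Polynomial.eval₂_C, cst]
    have h : (algebraMap (Zl ℓ) ↥(modularFunctionFieldFull N)) a =
        algebraMap ℚ ↥(modularFunctionFieldFull N) (a : ℚ) := rfl
    rw [h]
    have h2 : (modularFunctionFieldFull N).val
        (algebraMap ℚ ↥(modularFunctionFieldFull N) (a : ℚ)) =
        algebraMap ℚ (LaurentSeries ℚ) (a : ℚ) :=
      congrArg (fun f : ℚ →+* LaurentSeries ℚ => f (a : ℚ)) (RingHom.ext_rat
        (((modularFunctionFieldFull N).val :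
          ↥(modularFunctionFieldFull N) →+* LaurentSeries ℚ).comp
          (algebraMap ℚ ↥(modularFunctionFieldFull N))) (algebraMap ℚ (LaurentSeries ℚ)))
    rw [h2, algebraMap_apply_eq_single]
    rfl
  · simp

theorem mem_chartAlg_singleton_iff (x₀ b : ↥(modularFunctionFieldFull N)) :
    b ∈ chartAlg N ℓ {x₀} ↔
      (Polynomial.eval₂RingHom (cst ℓ) (x₀ : LaurentSeries ℚ)).IsIntegralElem
        (b : LaurentSeries ℚ) := by
  rw [mem_chartAlg_iff, isIntegral_adjoin_singleton_iff, ← val_comp_aeval]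
  exact (isIntegralElem_comp_iff _
    ((modularFunctionFieldFull N).val : ↥(modularFunctionFieldFull N) →+* LaurentSeries ℚ)
    Subtype.val_injective b).symm

theorem mem_chartAlgFin_iff (b : ↥(modularFunctionFieldFull N)) :
    b ∈ chartAlgFin N ℓ ↔ (e1 ℓ).IsIntegralElem (b : LaurentSeries ℚ) := by
  rw [mem_chartAlg_singleton_iff, e1_eq]
  rfl

theorem mem_chartAlgInf_iff (b : ↥(modularFunctionFieldFull N)) :
    b ∈ chartAlgInf N ℓ ↔ (e1inv ℓ).IsIntegralElem (b : LaurentSeries ℚ) := by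
  rw [mem_chartAlg_singleton_iff, e1inv]
  rfl

end Fermat.Agent.S28.Alg
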