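import Mathlib
import Fermat.Agent.S28.ModDefs
import Fermat.Agent.S28.Irr
import Fermat.Agent.S28.Tensor

set_option autoImplicit false

/-! # S28 (MOD): stubs of the modular part. REFERENCE ONLY, never import from final files. -/

namespace Fermat.Agent.S28

open UpperHalfPlane ModularForm Matrix.SpecialLinearGroup ModularCurve Polynomial
open scoped MatrixGroups ModularForm Manifold
open Fermat.Agent.S20 (Quo sl)
open Fermat.Agent.S24 (Mer expInf jfun jdg Dv)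

/-! ## MB  WR.lean : series and functions with coefficients in `R` -/

theorem mem_WR {R : Subring ℂ} {x : LaurentSeries ℂ} : x ∈ WR R ↔ ∀ n, x.coeff n ∈ R := sorry

theorem mem_RMer {N : ℕ} [NeZero N] {R : Subring ℂ} {s : ℍ → ℂ} :
    s ∈ RMer N R ↔ ∃ hs : s ∈ Mer N, expInf N ⟨s, hs⟩ ∈ WR R := sorry

theorem RMer_le_Mer {N : ℕ} [NeZero N] {R : Subring ℂ} {s : ℍ → ℂ} (hs : s ∈ RMer N R) :
    s ∈ Mer N := (mem_RMer.mp hs).1

/-- the expansion, as a series over `R`. -/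
noncomputable def expR (N : ℕ) [NeZero N] (R : Subring ℂ) : ↥(RMer N R) →+* LaurentSeries ↥R := sorry

theorem coeffMap_expR (N : ℕ) [NeZero N] (R : Subring ℂ) (f : ↥(RMer N R)) :
    coeffMap R.subtype (expR N R f) = expInf N ⟨f.1, RMer_le_Mer f.2⟩ := sorry

theorem coeffMap_subtype_injective (R : Subring ℂ) : Function.Injective (coeffMap R.subtype) := sorry

theorem order_coeffMap_subtype (R : Subring ℂ) (x : LaurentSeries ↥R) :
    (coeffMap R.subtype x).order = x.order := sorry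

theorem val_mem_RMer_of_mem_UG {N : ℕ} [NeZero N] {R : Subring ℂ} {f : (Mer N)ˣ} (hf : f ∈ UG N R) :
    f.1.1 ∈ RMer N R := sorry

theorem isUnit_expR_of_mem_UG {N : ℕ} [NeZero N] {R : Subring ℂ} {f : (Mer N)ˣ} (hf : f ∈ UG N R) :
    IsUnit (expR N R ⟨f.1.1, val_mem_RMer_of_mem_UG hf⟩) := sorry

/-- a series over `ℂ` with integer coefficients, supported on the multiples of `N`. -/
theorem exists_int_qExpand (N : ℕ) [NeZero N] (x : LaurentSeries ℂ)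
    (h1 : x ∈ WR (Int.castRingHom ℂ).range) (h2 : ∀ n : ℤ, ¬ (N : ℤ) ∣ n → x.coeff n = 0) :
    ∃ u : LaurentSeries ℤ, x = qExpand ℂ N (coeffMap (Int.castRingHom ℂ) u) := sorry

/-! ## MC  LevelOneInt.lean : level one functions with expansion over `R` are in `R[j]` -/

theorem jfun_mem_RMer (N : ℕ) [NeZero N] (R : Subring ℂ) : jfun ∈ RMer N R := sorry

theorem expR_jfun (N : ℕ) [NeZero N] (R : Subring ℂ) :
    expR N R ⟨jfun, jfun_mem_RMer N R⟩ = JN N ↥R := sorry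

theorem evJ_mem_RMer (N : ℕ) [NeZero N] (R : Subring ℂ) (p : (↥R)[X]) : evJ R p ∈ RMer N R := sorry

theorem expR_evJ (N : ℕ) [NeZero N] (R : Subring ℂ) (p : (↥R)[X]) :
    expR N R ⟨evJ R p, evJ_mem_RMer N R p⟩ = evJN N ↥R p := sorry

theorem evJ_injective (R : Subring ℂ) : Function.Injective (evJ R) := sorry

theorem levelOne_int (N : ℕ) [NeZero N] (R : Subring ℂ) (s : ℍ → ℂ) (hs : s ∈ RMer N R)
    (hinv : ∀ (γ : SL(2, ℤ)) (z : ℍ), s (γ • z) = s z) : ∃ p : (↥R)[X], evJ R p = s := sorry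

/-! ## MD  Tri.lean : `f ↦ f((a z + b)/d)` on `Mer 1`, the unit `Δ` -/

/-- `f ↦ f ∘ tri a d b`. -/
noncomputable def triHom (N a d : ℕ) (b : ℤ) (ha : a ≠ 0) (hd : d ≠ 0) [NeZero N] (hdN : d ∣ N) :
    Mer 1 →+* Mer N := sorry

theorem triHom_apply (N a d : ℕ) (b : ℤ) (ha : a ≠ 0) (hd : d ≠ 0) [NeZero N] (hdN : d ∣ N)
    (f : Mer 1) (z : ℍ) : (triHom N a d b ha hd hdN f).1 z = f.1 (S22.tri a d b ha hd • z) := sorry

theorem expInf_triHom_mem_WR (N a d : ℕ) (b : ℤ) (ha : a ≠ 0) (hd : d ≠ 0) [NeZero N] (hdN : d ∣ N)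
    (R : Subring ℂ) (hω : Complex.exp (2 * Real.pi * Complex.I * b / d) ∈ R)
    (hω' : (Complex.exp (2 * Real.pi * Complex.I * b / d))⁻¹ ∈ R)
    (f : Mer 1) (hf : expInf 1 f ∈ WR R) : expInf N (triHom N a d b ha hd hdN f) ∈ WR R := sorry

theorem expInf_triHom_one (N m : ℕ) [NeZero m] [NeZero N] (f : Mer 1) :
    expInf N (triHom N m 1 0 (NeZero.ne m) one_ne_zero (one_dvd N) f) =
      qExpand ℂ N (qExpand ℂ m (expInf 1 f)) := sorry

/-- `Δ` as a unit of `Mer 1`. -/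
noncomputable def discU : (Mer 1)ˣ := sorry

theorem discU_apply (z : ℍ) : discU.1.1 z = ModularForm.discriminant z := sorry

theorem discU_mem_UG (R : Subring ℂ) : discU ∈ UG 1 R := sorry

theorem order_expInf_triHom_discU (N a d : ℕ) (b : ℤ) (ha : a ≠ 0) (hd : d ≠ 0) [NeZero N]
    (hdN : d ∣ N) : (expInf N (triHom N a d b ha hd hdN discU.1)).order = ((a * (N / d) : ℕ) : ℤ) :=
  sorry

/-! ## MF  NT.lean (helper5) -/

theorem order_sum_neg (N : ℕ) (hN : N ≠ 0) (c : ℤ) (hc : ¬ (N : ℤ) ∣ c) (a d : ℕ → ℕ)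
    (ha : ∀ e ∈ N.divisors, a e = Int.gcd ((N / e : ℕ) : ℤ) c)
    (had : ∀ e ∈ N.divisors, a e * d e = N / e) :
    ∑ e ∈ N.divisors, (ArithmeticFunction.moebius e * ((N / e : ℕ) : ℤ)) *
      (((a e * (N / d e) : ℕ) : ℤ) - (N : ℤ)) < 0 := sorry

/-! ## ME  Herm.lean (helper5) -/

theorem disc_tri_smul (m : ℕ) (hm : m ≠ 0) (γ : SL(2, ℤ)) :
    ∃ (a d : ℕ) (b : ℤ) (ha : a ≠ 0) (hd : d ≠ 0), a * d = m ∧ a = Int.gcd (m : ℤ) (γ 1 0) ∧
      ∀ z : ℍ, ModularForm.discriminant (S22.tri m 1 0 hm one_ne_zero • (γ • z)) /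
          ModularForm.discriminant (γ • z) =
        ((d : ℂ)⁻¹) ^ 12 * (ModularForm.discriminant (S22.tri a d b ha hd • z) /
          ModularForm.discriminant z) := sorry

/-! ## MG  Unit.lean : the modular unit and its conjugates -/

theorem ufun_Gamma0 (N : ℕ) [NeZero N] (δ : SL(2, ℤ)) (hδ : δ ∈ CongruenceSubgroup.Gamma0 N)
    (z : ℍ) : ufun N (δ • z) = ufun N z := sorry

theorem exists_unit_conj (N : ℕ) [NeZero N] (R : Subring ℂ) (hR1 : ∀ ω : ℂ, ω ^ N = 1 → ω ∈ R)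
    (hR2 : (N : ℂ)⁻¹ ∈ R) (γ : SL(2, ℤ)) :
    ∃ f : (Mer N)ˣ, (∀ z, f.1.1 z = ufun N (γ • z)) ∧ f ∈ UG N R ∧
      (γ ∉ CongruenceSubgroup.Gamma0 N → (expInf N f.1).order < 0) := sorry

theorem exists_unit_one (N : ℕ) [NeZero N] :
    ∃ f : (Mer N)ˣ, (∀ z, f.1.1 z = ufun N z) ∧ f ∈ UG N (Int.castRingHom ℂ).range := sorry

/-! ## MH  Sym.lean : symmetric functions of the conjugates -/

theorem conj_mk (N : ℕ) [NeZero N] (g : ℍ → ℂ)
    (hg : ∀ δ ∈ CongruenceSubgroup.Gamma0 N, ∀ z, g (δ • z) = g z) (γ : SL(2, ℤ)) :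
    conj N g (QuotientGroup.mk (sl γ) : Quo N) = fun z => g (γ⁻¹ • z) := sorry

theorem conj_smul (N : ℕ) [NeZero N] (g : ℍ → ℂ)
    (hg : ∀ δ ∈ CongruenceSubgroup.Gamma0 N, ∀ z, g (δ • z) = g z) (q : Quo N) (γ : SL(2, ℤ))
    (z : ℍ) : conj N g q (γ • z) = conj N g (sl γ⁻¹ • q) z := sorry

/-- a polynomial whose coefficients are level one functions with expansions over `R` comes from
`R[j][X]`. -/
theorem descend (N : ℕ) [NeZero N] (R : Subring ℂ) (P : (ℍ → ℂ)[X])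
    (hmem : ∀ i, P.coeff i ∈ RMer N R)
    (hinv : ∀ γ : SL(2, ℤ), P.map (S24.Intg.compHom γ) = P) :
    ∃ P₀ : (↥R)[X][X], P₀.map (evJ R) = P := sorry

/-- from identities between functions to identities between expansions. -/
theorem transfer_map (N : ℕ) [NeZero N] (R : Subring ℂ) (P₀ : (↥R)[X][X]) (P : (↥(RMer N R))[X])
    (h : P₀.map (evJ R) = P.map (RMer N R).subtype) :
    P₀.map (evJN N ↥R) = P.map (expR N R) := sorry

theorem prod_X_sub_C_conj_map (N : ℕ) [NeZero N] (g : ℍ → ℂ)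
    (hg : ∀ δ ∈ CongruenceSubgroup.Gamma0 N, ∀ z, g (δ • z) = g z) (γ : SL(2, ℤ)) :
    (∏ q : Quo N, (X - C (conj N g q))).map (S24.Intg.compHom γ) =
      ∏ q : Quo N, (X - C (conj N g q)) := sorry

theorem prod_conj_smul (N : ℕ) [NeZero N] (g : ℍ → ℂ)
    (hg : ∀ δ ∈ CongruenceSubgroup.Gamma0 N, ∀ z, g (δ • z) = g z) (γ : SL(2, ℤ)) (z : ℍ) :
    (∏ q : Quo N, conj N g q) (γ • z) = (∏ q : Quo N, conj N g q) z := sorry

/-- the Lagrange interpolation polynomial is invariant. -/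
theorem lagrange_conj_map (N : ℕ) [NeZero N] (g h : ℍ → ℂ)
    (hg : ∀ δ ∈ CongruenceSubgroup.Gamma0 N, ∀ z, g (δ • z) = g z)
    (hh : ∀ δ ∈ CongruenceSubgroup.Gamma0 N, ∀ z, h (δ • z) = h z) (γ : SL(2, ℤ)) :
    (∑ q : Quo N, C (conj N h q) * ∏ q' ∈ Finset.univ.erase q, (X - C (conj N g q'))).map
        (S24.Intg.compHom γ) =
      ∑ q : Quo N, C (conj N h q) * ∏ q' ∈ Finset.univ.erase q, (X - C (conj N g q')) := sorry

/-! ## MI  JConj.lean : the conjugates of `j(d z)` have expansions over `R` -/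

theorem jdg_mem_RMer (N : ℕ) [NeZero N] (R : Subring ℂ) (hR1 : ∀ ω : ℂ, ω ^ N = 1 → ω ∈ R)
    (d : Dv N) (γ : SL(2, ℤ)) : jdg N d γ ∈ RMer N R := sorry

theorem expR_jdg_one (N : ℕ) [NeZero N] (R : Subring ℂ) (hR1 : ∀ ω : ℂ, ω ^ N = 1 → ω ∈ R)
    (d : ℕ) [NeZero d] (hd : d ∣ N) :
    expR N R ⟨jdg N ⟨d, hd⟩ 1, jdg_mem_RMer N R hR1 ⟨d, hd⟩ 1⟩ =
      qExpand ↥R N (qExpand ↥R d (jqModC ↥R)) := sorry

/-! ## MJ  AnData.lean : assembly of the analytic part (helper9) -/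

theorem exists_anData (N : ℕ) [NeZero N] (R : Subring ℂ) (hR1 : ∀ ω : ℂ, ω ^ N = 1 → ω ∈ R)
    (hR2 : (N : ℂ)⁻¹ ∈ R) : Nonempty (AnData N R) := sorry

/-! ## MA  Rings.lean : the coefficient ring -/

/-- the integral closure of `ℤ_(ℓ)` in `ℂ`. -/
noncomputable def Rl (ℓ : ℕ) : Subring ℂ := (integralClosure (Zl ℓ) ℂ).toSubring

theorem mem_Rl_of_pow_eq_one (ℓ : ℕ) (ω : ℂ) (n : ℕ) (hn : n ≠ 0) (h : ω ^ n = 1) : ω ∈ Rl ℓ := sorry

theorem natCast_inv_mem_Rl (ℓ : ℕ) [Fact ℓ.Prime] (n : ℕ) (hn : ¬ ℓ ∣ n) : ((n : ℂ))⁻¹ ∈ Rl ℓ := sorry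

theorem mem_of_ratCast_mem_Rl (ℓ : ℕ) [Fact ℓ.Prime] (x : ℚ) (hx : (x : ℂ) ∈ Rl ℓ) :
    x ∈ GaloisRep.ratLocalizedAt ℓ := sorry

theorem exists_residue_Rl (ℓ : ℕ) [Fact ℓ.Prime] :
    ∃ (k : Type) (_ : Field k) (π : ↥(Rl ℓ) →+* k), π (ℓ : ↥(Rl ℓ)) = 0 := sorry

/-! ## RAT  Rat.lean : rationality, irreducibility mod ℓ, generation (helper6) -/

theorem igusaData_of_anData (N : ℕ) [NeZero N] (ℓ : ℕ) [Fact ℓ.Prime] (hℓN : ¬ ℓ ∣ N)
    (D : AnData N (Rl ℓ)) : Nonempty (IgusaData N ℓ) := sorry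

/-- MOD -/
theorem exists_igusaData (N : ℕ) [NeZero N] (ℓ : ℕ) [Fact ℓ.Prime] (hℓN : ¬ ℓ ∣ N) :
    Nonempty (IgusaData N ℓ) := by
  obtain ⟨D⟩ := exists_anData N (Rl ℓ) (fun ω h => mem_Rl_of_pow_eq_one ℓ ω N (NeZero.ne N) h)
    (natCast_inv_mem_Rl ℓ N hℓN)
  exact igusaData_of_anData N ℓ hℓN D

end Fermat.Agent.S28
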