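import Mathlib
import Fermat.Prelude.Def_ModularCurve_LaurentCoeff

set_option autoImplicit false
set_option maxHeartbeats 400000

/-! # S28: a `ℚ`-linear retraction `ℂ → ℚ`, applied coefficientwise -/

namespace Fermat.Agent.S28

open ModularCurve Polynomial

theorem exists_retraction : ∃ π : ℂ →ₗ[ℚ] ℚ, ∀ x : ℚ, π (algebraMap ℚ ℂ x) = x := by
  obtain ⟨g, hg⟩ := LinearMap.exists_leftInverse_of_injective (Algebra.linearMap ℚ ℂ)
    (LinearMap.ker_eq_bot.mpr (algebraMap ℚ ℂ).injective)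
  exact ⟨g, fun x => congrArg (fun f => f x) hg⟩

variable (π : ℂ →ₗ[ℚ] ℚ)

/-- `π` applied to the coefficients of a Laurent series. -/
noncomputable def piS : LaurentSeries ℂ →+ LaurentSeries ℚ where
  toFun x := x.map π
  map_zero' := by
    ext n
    simp
  map_add' x y := by
    ext n
    simp

@[simp] theorem piS_coeff (x : LaurentSeries ℂ) (n : ℤ) : (piS π x).coeff n = π (x.coeff n) := rfl

theorem piS_coeffMap (hπ : ∀ x : ℚ, π (algebraMap ℚ ℂ x) = x) (y : LaurentSeries ℚ) :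
    piS π (coeffMap (algebraMap ℚ ℂ) y) = y := by
  ext n
  rw [piS_coeff, coeffMap_coeff, hπ]

theorem piS_C_mul (c : ℂ) (y : LaurentSeries ℚ) :
    piS π (HahnSeries.C c * coeffMap (algebraMap ℚ ℂ) y) = HahnSeries.C (π c) * y := by
  ext n
  rw [piS_coeff, HahnSeries.C_mul_eq_smul, HahnSeries.C_mul_eq_smul, HahnSeries.coeff_smul,
    HahnSeries.coeff_smul, coeffMap_coeff, smul_eq_mul, smul_eq_mul]
  have : c * algebraMap ℚ ℂ (y.coeff n) = (y.coeff n) • c := by
    rw [Algebra.smul_def, mul_comm]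
  rw [this, map_smul, smul_eq_mul, mul_comm]

/-- `π` applied to the coefficients of a polynomial. -/
noncomputable def piP1 (p : ℂ[X]) : ℚ[X] :=
  ∑ a ∈ Finset.range (p.natDegree + 1), monomial a (π (p.coeff a))

/-- `π` applied to the coefficients of a polynomial in two variables. -/
noncomputable def piP (P : ℂ[X][X]) : ℚ[X][X] :=
  ∑ b ∈ Finset.range (P.natDegree + 1), monomial b (piP1 π (P.coeff b))

theorem piS_eval₂_one (p : ℂ[X]) (j y : LaurentSeries ℚ) :
    piS π (Polynomial.eval₂RingHom HahnSeries.C (coeffMap (algebraMap ℚ ℂ) j) p *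
      coeffMap (algebraMap ℚ ℂ) y) =
    Polynomial.eval₂RingHom HahnSeries.C j (piP1 π p) * y := by
  rw [Polynomial.coe_eval₂RingHom, Polynomial.coe_eval₂RingHom, Polynomial.eval₂_eq_sum_range,
    piP1, Polynomial.eval₂_finsetSum, Finset.sum_mul, Finset.sum_mul, map_sum]
  refine Finset.sum_congr rfl fun a _ => ?_
  rw [Polynomial.eval₂_monomial, ← map_pow, mul_assoc, ← map_mul, piS_C_mul, mul_assoc]

theorem piS_eval₂ (P : ℂ[X][X]) (j u : LaurentSeries ℚ) :
    piS π (P.eval₂ (Polynomial.eval₂RingHom HahnSeries.C (coeffMap (algebraMap ℚ ℂ) j))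
      (coeffMap (algebraMap ℚ ℂ) u)) =
    (piP π P).eval₂ (Polynomial.eval₂RingHom HahnSeries.C j) u := by
  rw [Polynomial.eval₂_eq_sum_range, piP, Polynomial.eval₂_finsetSum, map_sum]
  refine Finset.sum_congr rfl fun b _ => ?_
  rw [Polynomial.eval₂_monomial, ← map_pow, piS_eval₂_one]

theorem piP1_coeff (p : ℂ[X]) (a : ℕ) : (piP1 π p).coeff a = π (p.coeff a) := by
  rw [piP1, Polynomial.finsetSum_coeff]
  simp only [Polynomial.coeff_monomial]
  rw [Finset.sum_ite_eq' (Finset.range (p.natDegree + 1)) a]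
  split_ifs with h
  · rfl
  · rw [Polynomial.coeff_eq_zero_of_natDegree_lt (by
      rw [Finset.mem_range] at h
      omega), map_zero]

theorem piP1_zero : piP1 π 0 = 0 := by
  ext a
  rw [piP1_coeff]
  simp

theorem piP_coeff (P : ℂ[X][X]) (b : ℕ) : (piP π P).coeff b = piP1 π (P.coeff b) := by
  rw [piP, Polynomial.finsetSum_coeff]
  simp only [Polynomial.coeff_monomial]
  rw [Finset.sum_ite_eq' (Finset.range (P.natDegree + 1)) b]
  split_ifs with h
  · rfl
  · rw [Polynomial.coeff_eq_zero_of_natDegree_lt (by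
      rw [Finset.mem_range] at h
      omega), piP1_zero]

theorem piP1_map (hπ : ∀ x : ℚ, π (algebraMap ℚ ℂ x) = x) (p : ℚ[X]) :
    piP1 π (p.map (algebraMap ℚ ℂ)) = p := by
  ext a
  rw [piP1_coeff, Polynomial.coeff_map, hπ]

theorem piP_map (hπ : ∀ x : ℚ, π (algebraMap ℚ ℂ x) = x) (P : ℚ[X][X]) :
    piP π (P.map (Polynomial.mapRingHom (algebraMap ℚ ℂ))) = P := by
  ext b : 1
  rw [piP_coeff, Polynomial.coeff_map, Polynomial.coe_mapRingHom, piP1_map π hπ]

theorem piP1_one (hπ : ∀ x : ℚ, π (algebraMap ℚ ℂ x) = x) : piP1 π 1 = 1 := by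
  have := piP1_map π hπ 1
  rwa [Polynomial.map_one] at this

theorem piP_natDegree_le (P : ℂ[X][X]) : (piP π P).natDegree ≤ P.natDegree := by
  rw [Polynomial.natDegree_le_iff_coeff_eq_zero]
  intro b hb
  rw [piP_coeff, Polynomial.coeff_eq_zero_of_natDegree_lt hb, piP1_zero]

theorem piP_monic (hπ : ∀ x : ℚ, π (algebraMap ℚ ℂ x) = x) {P : ℂ[X][X]} (hP : P.Monic) :
    (piP π P).Monic :=
  Polynomial.monic_of_natDegree_le_of_coeff_eq_one P.natDegree (piP_natDegree_le π P)
    (by rw [piP_coeff, hP.coeff_natDegree, piP1_one π hπ])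

theorem piP_natDegree (hπ : ∀ x : ℚ, π (algebraMap ℚ ℂ x) = x) {P : ℂ[X][X]} (hP : P.Monic) :
    (piP π P).natDegree = P.natDegree :=
  Polynomial.natDegree_eq_of_le_of_coeff_ne_zero (piP_natDegree_le π P)
    (by rw [piP_coeff, hP.coeff_natDegree, piP1_one π hπ]; exact one_ne_zero)

end Fermat.Agent.S28
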