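import Mathlib
import Fermat.Agent.S28.Defs

set_option autoImplicit false

/-! # S28: top level stubs. REFERENCE ONLY, never import from final files. -/

namespace Fermat.Agent.S28

open AlgebraicGeometry CategoryTheory CategoryTheory.Limits ModularCurve ModularCurve.IgusaScheme
open TensorProduct Polynomial

/-- SCH (Scheme.lean) -/
theorem sch (N : ℕ) [NeZero N] (ℓ : ℕ) [Fact ℓ.Prime] (K : Type) [Field K] [Algebra (Zl ℓ) K]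
    (hFin : IsDomain (↥(chartAlgFin N ℓ) ⊗[Zl ℓ] K))
    (hInf : IsDomain (↥(chartAlgInf N ℓ) ⊗[Zl ℓ] K))
    (hMid : Nontrivial (↥(chartAlgMid N ℓ) ⊗[Zl ℓ] K)) :
    IsIntegral ↑(pullback (igusaTo N ℓ)
      (Spec.map (CommRingCat.ofHom (algebraMap (Zl ℓ) K)))) := by
  sorry

/-- ALG3 (Tensor.lean) -/
theorem isDomain_tensor (ℓ : ℕ) [Fact ℓ.Prime] {B : Type} [CommRing B] [Algebra (Zl ℓ) B]
    (K : Type) [Field K] [CharP K ℓ] [Algebra (Zl ℓ) K]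
    (ψ : B →+* LaurentSeries (ZMod ℓ)) (hψ : ∀ b, ψ b = 0 → ∃ b', b = (ℓ : B) * b') :
    IsDomain (B ⊗[Zl ℓ] K) := by
  sorry

theorem nontrivial_tensor (ℓ : ℕ) [Fact ℓ.Prime] {B : Type} [CommRing B] [Algebra (Zl ℓ) B]
    (K : Type) [Field K] [CharP K ℓ] [Algebra (Zl ℓ) K]
    (ψ : B →+* LaurentSeries (ZMod ℓ)) : Nontrivial (B ⊗[Zl ℓ] K) := by
  sorry

/-- ALG (Chart.lean) -/
theorem exists_psi_fin {N : ℕ} [NeZero N] {ℓ : ℕ} [Fact ℓ.Prime] (D : IgusaData N ℓ) :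
    ∃ ψ : ↥(chartAlgFin N ℓ) →+* LaurentSeries (ZMod ℓ),
      ∀ b, ψ b = 0 → ∃ b', b = (ℓ : ↥(chartAlgFin N ℓ)) * b' := by
  sorry

theorem exists_psi_inf {N : ℕ} [NeZero N] {ℓ : ℕ} [Fact ℓ.Prime] (D : IgusaData N ℓ) :
    ∃ ψ : ↥(chartAlgInf N ℓ) →+* LaurentSeries (ZMod ℓ),
      ∀ b, ψ b = 0 → ∃ b', b = (ℓ : ↥(chartAlgInf N ℓ)) * b' := by
  sorry

theorem exists_psi_mid {N : ℕ} [NeZero N] {ℓ : ℕ} [Fact ℓ.Prime] (D : IgusaData N ℓ) :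
    Nonempty (↥(chartAlgMid N ℓ) →+* LaurentSeries (ZMod ℓ)) := by
  sorry

/-- MOD (Modular.lean) -/
theorem exists_igusaData (N : ℕ) [NeZero N] (ℓ : ℕ) [Fact ℓ.Prime] (hℓN : ¬ ℓ ∣ N) :
    Nonempty (IgusaData N ℓ) := by
  sorry

theorem main
    (N : ℕ) [NeZero N] (ℓ : ℕ) [Fact ℓ.Prime] (hℓN : ¬ ℓ ∣ N)
    (K : Type) [Field K] [CharP K ℓ] [Algebra ↥(GaloisRep.ratLocalizedAt ℓ) K] :
    IsIntegral ↑(pullback (igusaTo N ℓ)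
      (Spec.map (CommRingCat.ofHom (algebraMap ↥(GaloisRep.ratLocalizedAt ℓ) K)))) := by
  obtain ⟨D⟩ := exists_igusaData N ℓ hℓN
  obtain ⟨ψ₁, h₁⟩ := exists_psi_fin D
  obtain ⟨ψ₂, h₂⟩ := exists_psi_inf D
  obtain ⟨ψ₃⟩ := exists_psi_mid D
  exact sch N ℓ K (isDomain_tensor ℓ K ψ₁ h₁) (isDomain_tensor ℓ K ψ₂ h₂) (nontrivial_tensor ℓ K ψ₃)

end Fermat.Agent.S28
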